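import Fermat.Agent.S38.IA.Hecke.Spec3
import Fermat.Agent.S59.TW.H653.Bridge587
import Fermat.Agent.S41.H952.TorsCore

/-!
# Row HARD, cell HECKE, leaf IA-FREE (helper509): the group `Δ` of a finite family of primes

Bookkeeping for the objects `gLevel`, `gRed`, `gChi`, `gKappa`, `KG`, `gLift`, `GDelta` of
`S38/IA/Hecke/Spec3.lean` (helper3), for a family `qq : ι → ℕ` of primes indexed by an ARBITRARY
finite type `ι` (for `ι = Fin r` these are helper511's `bLevel`, `red`, `chi`, `kappa`, `KQ`,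
`liftU`, `Delta`, and the statements below are those of helper762, `S59/TW/Aut/H762`).

* `gRed_surjective_h509`   : `(ℤ/M)ˣ → ∏ (ℤ/qq s)ˣ` is onto (Chinese remainder theorem);
* `gKappa_surjective_h509`, `gKappa_trivial_h509`;
* `gEps_bijective_h509`    : for primitive roots `g s`, the map `e ↦ class of (g s ^ e s)`,
  `∏ Fin (p ^ m_s) → Δ`, is bijective;
* `card_gDelta_h509`       : `|Δ| = p ^ a`;
* `pow_twelve_eq_one_h509` : an element of finite order of `SL(2, ℤ)` has order dividing `12`;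
* `gKappa_ell_h509`        : for `5 ≤ p` the elements of finite order of `Γ₀(M)` lie in `ker κ`
  (hypothesis (Ell) of `MFree.free`);
* `diamondU_gLift_eq_conjAct_h509` : the diamond operator `⟨a⟩` in the vocabulary of M-FREE.
-/

set_option autoImplicit false

open CongruenceSubgroup
open scoped MatrixGroups

namespace Fermat.Agent.S38.H509

open Fermat.Agent.S59.TW.H653 Fermat.Agent.S59.MFree Fermat.Agent.S38.IA.Hecke

/-! ## Elements of finite order of `SL(2, ℤ)` -/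

section Torsion

open Fermat.Agent.S41.H952

theorem sq_of_tr2_h509 (g : SL(2, ℤ)) :
    ((g ^ 2 : SL(2, ℤ)) : Matrix (Fin 2) (Fin 2) ℤ) = tr2 g • g.1 - 1 := by
  rw [pow_two, Matrix.SpecialLinearGroup.coe_mul]
  exact cayley g

/-- An element of finite order of `SL(2, ℤ)` has order dividing `12`. -/
theorem pow_twelve_eq_one_h509 {g : SL(2, ℤ)} (hg : IsOfFinOrder g) : g ^ 12 = 1 := by
  have h2 := abs_tr2_le_two hg
  have hc := cayley g
  -- the matrix `A` of `g` satisfies `A * A = t • A - 1`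
  set A : Matrix (Fin 2) (Fin 2) ℤ := g.1 with hA
  set t : ℤ := tr2 g with ht
  have hpow : ∀ n : ℕ, ((g ^ n : SL(2, ℤ)) : Matrix (Fin 2) (Fin 2) ℤ) = A ^ n := by
    intro n
    exact Matrix.SpecialLinearGroup.coe_pow g n
  have hcases : t = -2 ∨ t = -1 ∨ t = 0 ∨ t = 1 ∨ t = 2 := by
    have := abs_le.mp h2
    omega
  have hAA : A ^ 2 = t • A - 1 := by rw [pow_two]; exact hc
  apply Subtype.ext
  rw [hpow 12]
  show A ^ 12 = 1
  rcases hcases with h | h | h | h | h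
  · -- `t = -2`: `-g` has trace `2`, so `g = -1`
    have h1 : tr2 (-g) = 2 := by rw [tr2_neg, ← ht, h]; norm_num
    have h3 := eq_one_of_tr2_eq_two (isOfFinOrder_neg hg) h1
    have h4 : A = -1 := by
      have h5 : (-g).1 = 1 := by rw [h3]; rfl
      have h6 : (-g).1 = -A := by
        rw [hA]
        exact Matrix.SpecialLinearGroup.coe_neg g
      rw [h6] at h5
      rw [← neg_neg A, h5]
    rw [h4]
    have : (12 : ℕ) = 2 * 6 := by norm_num
    rw [this, pow_mul, neg_one_sq, one_pow]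
  · -- `t = -1`: `A^3 = 1`
    rw [h] at hAA
    have h3 : A ^ 3 = 1 := by
      have : A ^ 3 = A ^ 2 * A := by rw [pow_succ]
      rw [this, hAA, Matrix.sub_mul, Matrix.smul_mul, Matrix.one_mul, ← pow_two, hAA]
      module
    have : (12 : ℕ) = 3 * 4 := by norm_num
    rw [this, pow_mul, h3, one_pow]
  · -- `t = 0`: `A^2 = -1`
    rw [h] at hAA
    have h3 : A ^ 2 = -1 := by rw [hAA]; module
    have : (12 : ℕ) = 2 * 6 := by norm_num
    rw [this, pow_mul, h3]
    have h6 : (6 : ℕ) = 2 * 3 := by norm_num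
    rw [h6, pow_mul, neg_one_sq, one_pow]
  · -- `t = 1`: `A^3 = -1`
    rw [h] at hAA
    have h3 : A ^ 3 = -1 := by
      have : A ^ 3 = A ^ 2 * A := by rw [pow_succ]
      rw [this, hAA, Matrix.sub_mul, Matrix.smul_mul, Matrix.one_mul, ← pow_two, hAA]
      module
    have : (12 : ℕ) = 3 * 4 := by norm_num
    rw [this, pow_mul, h3]
    have h4 : (4 : ℕ) = 2 * 2 := by norm_num
    rw [h4, pow_mul, neg_one_sq, one_pow]
  · -- `t = 2`: `g = 1`
    have h3 := eq_one_of_tr2_eq_two hg (by rw [← ht, h])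
    have h4 : A = 1 := by rw [hA, h3]; rfl
    rw [h4, one_pow]

end Torsion

/-! ## The family -/

section Family

variable (p N₀ : ℕ) {ι : Type} [Fintype ι] (qq : ι → ℕ)

theorem gKappa_apply_h509 (γ : Gamma0 (gLevel N₀ qq)) :
    gKappa p N₀ qq γ = gChi p N₀ qq (dUnit (gLevel N₀ qq) γ) := rfl

theorem gChi_apply_h509 (u : (ZMod (gLevel N₀ qq))ˣ) :
    gChi p N₀ qq u = QuotientGroup.mk (gRed N₀ qq u) := rfl

theorem gRed_apply_h509 (u : (ZMod (gLevel N₀ qq))ˣ) (s : ι) :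
    gRed N₀ qq u s = ZMod.unitsMap (dvd_gLevel N₀ qq s) u := rfl

theorem gKappa_trivial_h509 (γ : Gamma0 (gLevel N₀ qq))
    (h : ((((γ : SL(2, ℤ)) 1 1 : ℤ)) : ZMod (gLevel N₀ qq)) = 1) : gKappa p N₀ qq γ = 1 := by
  have h1 : dUnit (gLevel N₀ qq) γ = 1 := by
    apply Units.ext
    rw [coe_dUnit, h, Units.val_one]
  unfold gKappa
  rw [MonoidHom.comp_apply, h1, map_one]

theorem neZero_gLevel_h509 (hN₀ : N₀ ≠ 0) (hprime : ∀ s, (qq s).Prime) :
    NeZero (gLevel N₀ qq) :=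
  ⟨Nat.mul_ne_zero hN₀ (Finset.prod_ne_zero_iff.mpr fun s _ => (hprime s).ne_zero)⟩

/-- `(ℤ/M)ˣ → ∏ (ℤ/qq s)ˣ` is onto. -/
theorem gRed_surjective_h509 (hN₀ : N₀ ≠ 0) (hinj : Function.Injective qq)
    (hprime : ∀ s, (qq s).Prime) : Function.Surjective (gRed N₀ qq) := by
  classical
  intro a
  have hcop : Pairwise (Function.onFun Nat.Coprime qq) := by
    intro i j hij
    exact (Nat.coprime_primes (hprime i) (hprime j)).mpr fun h => hij (hinj h)
  have hM : NeZero (gLevel N₀ qq) := neZero_gLevel_h509 N₀ qq hN₀ hprime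
  have hPM : (∏ s, qq s) ∣ gLevel N₀ qq := Dvd.intro_left _ rfl
  set e := ZMod.prodEquivPi qq hcop with he
  set x : ZMod (∏ s, qq s) := e.symm (fun s => ((a s : (ZMod (qq s))ˣ) : ZMod (qq s))) with hx
  set y : ZMod (∏ s, qq s) := e.symm (fun s => ((a s)⁻¹ : (ZMod (qq s))ˣ)) with hy
  have hxy : x * y = 1 := by
    rw [hx, hy, ← map_mul]
    have : ((fun s => ((a s : (ZMod (qq s))ˣ) : ZMod (qq s))) *
        fun s => (((a s)⁻¹ : (ZMod (qq s))ˣ) : ZMod (qq s))) = 1 := by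
      funext s
      simp
    rw [this, map_one]
  obtain ⟨u, hu⟩ := ZMod.unitsMap_surjective hPM (Units.mkOfMulEqOne x y hxy)
  refine ⟨u, ?_⟩
  funext s
  apply Units.ext
  rw [gRed_apply_h509]
  have h1 : ZMod.unitsMap (dvd_gLevel N₀ qq s) u =
      ZMod.unitsMap (Finset.dvd_prod_of_mem qq (Finset.mem_univ s)) (ZMod.unitsMap hPM u) := by
    rw [← MonoidHom.comp_apply, ZMod.unitsMap_comp]
  rw [h1, hu]
  show ZMod.castHom (Finset.dvd_prod_of_mem qq (Finset.mem_univ s)) (ZMod (qq s)) x = _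
  rw [← ZMod.prodEquivPi_apply qq hcop x s, ← he, hx, RingEquiv.apply_symm_apply]

theorem gKappa_surjective_h509 [NeZero (gLevel N₀ qq)]
    (hsurj : Function.Surjective (gRed N₀ qq)) : Function.Surjective (gKappa p N₀ qq) := by
  intro d
  obtain ⟨a, rfl⟩ := QuotientGroup.mk_surjective d
  obtain ⟨u, rfl⟩ := hsurj a
  obtain ⟨γ, rfl⟩ := dUnit_surjective u
  exact ⟨γ, rfl⟩

/-- The diamond operator of `K` depends only on the class in `Δ`. -/
theorem diamondU_eq_of_gChi_h509 [NeZero (gLevel N₀ qq)] {A : Type} [AddCommGroup A]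
    {u u' : (ZMod (gLevel N₀ qq))ˣ} (hu : gChi p N₀ qq u = gChi p N₀ qq u')
    (x : Additive (KG p N₀ qq) →+ A) :
    diamondU (isMid_KG p N₀ qq) u x = diamondU (isMid_KG p N₀ qq) u' x := by
  have h1 : u = u' * (u'⁻¹ * u) := by group
  have h2 : gChi p N₀ qq (u'⁻¹ * u) = 1 := by
    rw [map_mul, map_inv, hu, inv_mul_cancel]
  have h3 : diamondU (isMid_KG p N₀ qq) (u'⁻¹ * u) x = x := by
    have h := diamondHom_GammaH (A := A) (M := gLevel N₀ qq) (H := (gChi p N₀ qq).ker)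
      (u := u'⁻¹ * u) (MonoidHom.mem_ker.mpr h2)
    exact congrArg (fun f : AddMonoid.End (Additive (GammaH (gLevel N₀ qq)
      (gChi p N₀ qq).ker) →+ A) => f x) h
  rw [h1, diamondU_mul, h3]

/-- The diamond operator `⟨a⟩` of `K` in the vocabulary of block M-FREE. -/
theorem diamondU_gLift_eq_conjAct_h509 [NeZero (gLevel N₀ qq)]
    (hsurj : Function.Surjective (gRed N₀ qq)) {A : Type} [AddCommGroup A]
    (a : ∀ s : ι, (ZMod (qq s))ˣ) (γ : Gamma0 (gLevel N₀ qq))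
    (hγ : gKappa p N₀ qq γ = (QuotientGroup.mk a)⁻¹)
    (x : Additive (kerSub (gKappa p N₀ qq)) →+ A) :
    diamondU (isMid_KG p N₀ qq) (gLift N₀ qq a) x = conjAct (gKappa p N₀ qq) γ x := by
  rw [conjAct_eq_diamond (gKappa p N₀ qq) (gKappa_trivial_h509 p N₀ qq) γ x]
  rw [diamond_eq_diamondU]
  apply diamondU_eq_of_gChi_h509
  have h1 : gChi p N₀ qq (gLift N₀ qq a) = QuotientGroup.mk a := by
    rw [gChi_apply_h509, gRed_gLift N₀ qq (hsurj a)]
  have h2 : gChi p N₀ qq (dUnit (gLevel N₀ qq) γ⁻¹) = QuotientGroup.mk a := by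
    rw [← gKappa_apply_h509, map_inv, hγ]
    exact inv_inv (QuotientGroup.mk a : GDelta p qq)
  exact h1.trans h2.symm

end Family

/-! ## The index set -/

section Index

variable (p : ℕ) {ι : Type} [Fintype ι] (qq : ι → ℕ)

/-- The index map `e ↦ class of (g s ^ e s)_s`. -/
def gEps (g : ∀ s : ι, (ZMod (qq s))ˣ)
    (e : ∀ s : ι, Fin (p ^ padicValNat p (qq s - 1))) : GDelta p qq :=
  QuotientGroup.mk (fun s => g s ^ (e s : ℕ))

theorem mem_gPowSub_iff_h509 (a : ∀ s : ι, (ZMod (qq s))ˣ) :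
    a ∈ gPowSub p qq ↔ ∀ s, ∃ u : (ZMod (qq s))ˣ, u ^ (p ^ padicValNat p (qq s - 1)) = a s := by
  unfold gPowSub
  rw [Subgroup.mem_pi]
  constructor
  · intro h s
    obtain ⟨u, hu⟩ := h s (Set.mem_univ s)
    exact ⟨u, hu⟩
  · intro h s _
    obtain ⟨u, hu⟩ := h s
    exact ⟨u, hu⟩

/-- A primitive root generates. -/
theorem exists_pow_eq_of_orderOf_h509 {q : ℕ} (hq : q.Prime) {g : (ZMod q)ˣ}
    (hg : orderOf g = q - 1) (u : (ZMod q)ˣ) : ∃ k : ℕ, g ^ k = u := by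
  have : Fact q.Prime := ⟨hq⟩
  have hcard : Nat.card (ZMod q)ˣ = q - 1 := by
    rw [Nat.card_eq_fintype_card, ZMod.card_units]
  have h1 : Subgroup.zpowers g = ⊤ := by
    apply (Subgroup.card_eq_iff_eq_top _).mp
    rw [Nat.card_zpowers, hg, hcard]
  have h2 : u ∈ Subgroup.zpowers g := by
    rw [h1]
    exact Subgroup.mem_top u
  rw [← mem_powers_iff_mem_zpowers] at h2
  exact (Submonoid.mem_powers_iff u g).mp h2

theorem gEps_injective_h509 [Fact p.Prime] (hprime : ∀ s, (qq s).Prime)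
    (g : ∀ s : ι, (ZMod (qq s))ˣ) (hg : ∀ s, orderOf (g s) = qq s - 1) :
    Function.Injective (gEps p qq g) := by
  intro e e' h
  unfold gEps at h
  rw [QuotientGroup.eq, mem_gPowSub_iff_h509] at h
  funext j
  obtain ⟨u, hu⟩ := h j
  obtain ⟨k, rfl⟩ := exists_pow_eq_of_orderOf_h509 (hprime j) (hg j) u
  have h1 : g j ^ (k * p ^ padicValNat p (qq j - 1) + (e j : ℕ)) = g j ^ (e' j : ℕ) := by
    rw [pow_add, pow_mul, hu]
    simp
  rw [pow_eq_pow_iff_modEq, hg j] at h1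
  have hdvd : p ^ padicValNat p (qq j - 1) ∣ qq j - 1 := pow_padicValNat_dvd
  have h2 : (k * p ^ padicValNat p (qq j - 1) + (e j : ℕ)) ≡ (e' j : ℕ)
      [MOD p ^ padicValNat p (qq j - 1)] := h1.of_dvd hdvd
  have h3 : ((e j : ℕ)) ≡ (e' j : ℕ) [MOD p ^ padicValNat p (qq j - 1)] := by
    have h4 : (k * p ^ padicValNat p (qq j - 1) + (e j : ℕ)) ≡ (e j : ℕ)
        [MOD p ^ padicValNat p (qq j - 1)] := by
      unfold Nat.ModEq
      rw [Nat.mul_add_mod_of_lt (e j).2]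
      exact (Nat.mod_eq_of_lt (e j).2).symm
    exact h4.symm.trans h2
  apply Fin.ext
  unfold Nat.ModEq at h3
  rw [Nat.mod_eq_of_lt (e j).2, Nat.mod_eq_of_lt (e' j).2] at h3
  exact h3

theorem gEps_surjective_h509 [hp : Fact p.Prime] (hprime : ∀ s, (qq s).Prime)
    (g : ∀ s : ι, (ZMod (qq s))ˣ) (hg : ∀ s, orderOf (g s) = qq s - 1) :
    Function.Surjective (gEps p qq g) := by
  intro d
  obtain ⟨a, rfl⟩ := QuotientGroup.mk_surjective d
  have hk : ∀ j, ∃ k : ℕ, g j ^ k = a j := fun j =>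
    exists_pow_eq_of_orderOf_h509 (hprime j) (hg j) (a j)
  choose k hk using hk
  have hpos : ∀ j, 0 < p ^ padicValNat p (qq j - 1) := fun j => pow_pos hp.out.pos _
  refine ⟨fun j => ⟨k j % p ^ padicValNat p (qq j - 1), Nat.mod_lt _ (hpos j)⟩, ?_⟩
  unfold gEps
  rw [QuotientGroup.eq, mem_gPowSub_iff_h509]
  intro j
  refine ⟨g j ^ (k j / p ^ padicValNat p (qq j - 1)), ?_⟩
  show _ = ((fun j => g j ^ (k j % p ^ padicValNat p (qq j - 1)))⁻¹ * a) j
  rw [Pi.mul_apply, Pi.inv_apply, ← hk j, ← pow_mul, eq_inv_mul_iff_mul_eq, ← pow_add]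
  congr 1
  rw [mul_comm]
  exact Nat.mod_add_div _ _

theorem gEps_bijective_h509 [Fact p.Prime] (hprime : ∀ s, (qq s).Prime)
    (g : ∀ s : ι, (ZMod (qq s))ˣ) (hg : ∀ s, orderOf (g s) = qq s - 1) :
    Function.Bijective (gEps p qq g) :=
  ⟨gEps_injective_h509 p qq hprime g hg, gEps_surjective_h509 p qq hprime g hg⟩

/-- Primitive roots exist. -/
theorem exists_primitive_roots_h509 (hprime : ∀ s, (qq s).Prime) :
    ∃ g : ∀ s : ι, (ZMod (qq s))ˣ, ∀ s, orderOf (g s) = qq s - 1 := by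
  have h : ∀ j, ∃ g : (ZMod (qq j))ˣ, orderOf g = qq j - 1 := by
    intro j
    have : Fact (qq j).Prime := ⟨hprime j⟩
    obtain ⟨g, hg⟩ := IsCyclic.exists_generator (α := (ZMod (qq j))ˣ)
    refine ⟨g, ?_⟩
    rw [orderOf_eq_card_of_forall_mem_zpowers hg, Nat.card_eq_fintype_card, ZMod.card_units]
  choose g hg using h
  exact ⟨g, hg⟩

/-- `Δ` is finite. -/
theorem finite_gDelta_h509 [Fact p.Prime] (hprime : ∀ s, (qq s).Prime) :
    Finite (GDelta p qq) := by
  obtain ⟨g, hg⟩ := exists_primitive_roots_h509 qq hprime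
  exact Finite.of_surjective _ (gEps_surjective_h509 p qq hprime g hg)

/-- `|Δ| = p ^ a`. -/
theorem card_gDelta_h509 [Fact p.Prime] (hprime : ∀ s, (qq s).Prime) :
    ∃ a : ℕ, Nat.card (GDelta p qq) = p ^ a := by
  classical
  obtain ⟨g, hg⟩ := exists_primitive_roots_h509 qq hprime
  refine ⟨∑ s, padicValNat p (qq s - 1), ?_⟩
  rw [← Nat.card_congr (Equiv.ofBijective _ (gEps_bijective_h509 p qq hprime g hg)),
    Nat.card_eq_fintype_card, Fintype.card_pi]
  simp only [Fintype.card_fin]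
  exact Finset.prod_pow_eq_pow_sum _ _ _

/-- Every element of `Δ` is killed by a power of `p`. -/
theorem pow_eq_one_gDelta_h509 [Fact p.Prime] (hprime : ∀ s, (qq s).Prime) (d : GDelta p qq) :
    ∃ a : ℕ, d ^ (p ^ a) = 1 := by
  haveI := finite_gDelta_h509 p qq hprime
  obtain ⟨a, ha⟩ := card_gDelta_h509 p qq hprime
  exact ⟨a, by rw [← ha]; exact pow_card_eq_one'⟩

end Index

/-! ## Hypothesis (Ell) -/

section Ell

variable (p N₀ : ℕ) {ι : Type} [Fintype ι] (qq : ι → ℕ)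

/-- **(Ell)** for `5 ≤ p`: the elements of finite order of `Γ₀(M)` lie in `K = ker κ`. -/
theorem gKappa_ell_h509 [hp : Fact p.Prime] (hp5 : 5 ≤ p) (hprime : ∀ s, (qq s).Prime)
    (γ : Gamma0 (gLevel N₀ qq)) (hγ : IsOfFinOrder γ) : gKappa p N₀ qq γ = 1 := by
  have h1 : IsOfFinOrder (γ : SL(2, ℤ)) := by
    obtain ⟨n, hn, hγn⟩ := isOfFinOrder_iff_pow_eq_one.mp hγ
    refine isOfFinOrder_iff_pow_eq_one.mpr ⟨n, hn, ?_⟩
    have := congrArg (fun g : Gamma0 (gLevel N₀ qq) => (g : SL(2, ℤ))) hγn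
    simpa using this
  have h2 : γ ^ 12 = 1 := by
    apply Subtype.ext
    rw [Subgroup.coe_pow, pow_twelve_eq_one_h509 h1]
    rfl
  have h3 : (gKappa p N₀ qq γ) ^ 12 = 1 := by rw [← map_pow, h2, map_one]
  obtain ⟨a, ha⟩ := pow_eq_one_gDelta_h509 p qq hprime (gKappa p N₀ qq γ)
  have hcop : Nat.Coprime 12 (p ^ a) := by
    apply Nat.Coprime.pow_right
    have h12 : (12 : ℕ) = 2 ^ 2 * 3 := by norm_num
    rw [h12]
    apply Nat.Coprime.mul_left
    · apply Nat.Coprime.pow_left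
      exact (Nat.coprime_primes Nat.prime_two hp.out).mpr (by omega)
    · exact (Nat.coprime_primes Nat.prime_three hp.out).mpr (by omega)
  have h4 := orderOf_dvd_of_pow_eq_one h3
  have h5 := orderOf_dvd_of_pow_eq_one ha
  have h6 : orderOf (gKappa p N₀ qq γ) = 1 :=
    Nat.eq_one_of_dvd_coprimes hcop h4 h5
  exact orderOf_eq_one_iff.mp h6

end Ell

end Fermat.Agent.S38.H509
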