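import Fermat.Agent.S38.H509.IAFreeCore
import Fermat.Agent.S59.TW.Aut.H31.AuxPrime

/-!
# Row HARD, cell HECKE, LAYER 3, leaf IA-FREE (helper509)

`iaFree : IA.Hecke.IAFreeStatement` (frozen in `S38/IA/Hecke/Spec3.lean`, helper3), VERBATIM:
the localisation `V` of `X_K(𝒪)`, `K = Γ₀(N_min) ∩ Γ_H(Piv ∪ Q)`, at the maximal ideal of the
package `P_Q` and of `U_{q_j} - α_j` (`q_j` the Taylor–Wiles primes) is free over
`𝒪[Δ_Piv × Δ_Q]`: it has an `𝒪`-basis `⟨g₁^{e₁}, g₂^{e₂}⟩ b_i`.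

Proof: `free_of_locPart_h509` (`IAFreeCore.lean`: `MFree.free` + (Ell) for `5 ≤ p`) for the
family `Sum.elim pv qv`, with the auxiliary non-Eisenstein prime of helper31
(`S59/TW/Aut/H31/AuxPrime.lean`).  The rank `d` and the basis `b` do not depend on the primitive
roots.
-/

set_option autoImplicit false

open Polynomial IsLocalRing CongruenceSubgroup
open scoped MatrixGroups

namespace Fermat.Agent.S38.H509

open Fermat.Agent.S59.Arch Fermat.Agent.S59.TW.H959 Fermat.Agent.S59.TW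
open Fermat.Agent.S59.TW.H653 Fermat.Agent.S59.TW.Aut Fermat.Agent.S38.IA
open Fermat.Agent.S38.IA.Hecke

/-! ## Re-indexing -/

section Reindex

variable {R X : Type*} [CommRing R] [AddCommGroup X] [Module R X]
  {E E' : Type*} [Fintype E] [Fintype E'] {n : ℕ}

/-- Transport of the unique expression along a bijection of the index sets. -/
theorem existsUnique_reindex_h509 (Φ : E' ≃ E) (f : Fin n → E → X) (y : X)
    (h : ∃! c : Fin n → E → R, y = ∑ i, ∑ e, c i e • f i e) :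
    ∃! c' : Fin n → E' → R, y = ∑ i, ∑ e', c' i e' • f i (Φ e') := by
  have key : ∀ c' : Fin n → E' → R,
      ∑ i, ∑ e', c' i e' • f i (Φ e') = ∑ i, ∑ e, c' i (Φ.symm e) • f i e := by
    intro c'
    refine Finset.sum_congr rfl fun i _ => ?_
    rw [← Equiv.sum_comp Φ (fun e => c' i (Φ.symm e) • f i e)]
    refine Finset.sum_congr rfl fun e' _ => ?_
    rw [Equiv.symm_apply_apply]
  obtain ⟨c, hc, huniq⟩ := h
  refine ⟨fun i e' => c i (Φ e'), ?_, ?_⟩
  · show y = ∑ i, ∑ e', c i (Φ e') • f i (Φ e')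
    rw [key (fun i e' => c i (Φ e'))]
    simp only [Equiv.apply_symm_apply]
    exact hc
  · intro c' hc'
    rw [key] at hc'
    have h1 := huniq (fun i e => c' i (Φ.symm e)) hc'
    funext i e'
    have h2 := congrFun (congrFun h1 i) (Φ e')
    simp only [Equiv.symm_apply_apply] at h2
    exact h2

end Reindex

/-! ## The level -/

theorem wilesLevel_flat_self_h509 (p : ℕ) (Smin : Finset ℕ) :
    wilesLevel p .flat Smin Smin = ∏ q ∈ Smin.erase p, q := by
  unfold wilesLevel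
  simp

theorem wilesLevel_flat_self_ne_zero_h509 (p : ℕ) (Smin : Finset ℕ)
    (hSmin : ∀ q ∈ Smin, q.Prime) : wilesLevel p .flat Smin Smin ≠ 0 := by
  rw [wilesLevel_flat_self_h509]
  exact Finset.prod_ne_zero_iff.mpr fun q hq => (hSmin q (Finset.mem_of_mem_erase hq)).ne_zero

/-! ## The leaf -/

/-- **IA-FREE.** -/
theorem iaFree : IAFreeStatement := by
  intro p _ hp5 𝒪 _ _ _ _ _ _ ρbar Smin h _hflat Piv hPiv k pv hpv hpvPiv n r qv hq _ PQ α _hα V hV
  classical
  have hN₀ : wilesLevel p .flat Smin Smin ≠ 0 :=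
    wilesLevel_flat_self_ne_zero_h509 p Smin h.hSmin
  have hpvmem : ∀ i, pv i ∈ Piv := fun i => by
    rw [← hpvPiv]
    exact Finset.mem_image_of_mem pv (Finset.mem_univ i)
  have hprime : ∀ s, (Sum.elim pv qv s).Prime := by
    rintro (i | j)
    · exact (hPiv (pv i) (hpvmem i)).1
    · exact (hq.2.1 j).1
  have hinj : Function.Injective (Sum.elim pv qv) := by
    rintro (i | j) (i' | j') hij
    · exact congrArg Sum.inl (hpv hij)
    · exfalso
      have h1 : qv j' ∈ Smin ∪ Piv := by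
        have h2 : pv i = qv j' := hij
        rw [← h2]
        exact Finset.mem_union_right _ (hpvmem i)
      exact (hq.2.1 j').2.1 h1
    · exfalso
      have h1 : qv j ∈ Smin ∪ Piv := by
        have h2 : qv j = pv i' := hij
        rw [h2]
        exact Finset.mem_union_right _ (hpvmem i')
      exact (hq.2.1 j).2.1 h1
    · exact congrArg Sum.inr (hq.1 hij)
  have hM : MIA p Smin pv qv ≠ 0 :=
    (neZero_gLevel_h509 (wilesLevel p .flat Smin Smin) (Sum.elim pv qv) hN₀ hprime).ne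
  have hp𝒪 : ¬ IsUnit (p : 𝒪) := (mem_maximalIdeal _).mp h.hp𝒪
  -- the auxiliary prime
  obtain ⟨ℓ, hℓF, c, -, hℓM, -, -, -, -, -, hsurj, hinj'⟩ :=
    H31.exists_auxPrime_h31 h PQ hM (hK := isMid_KIA p Smin pv qv)
      (Tset := TsetOf PQ) (Uset := UsetOf qv α) (le_refl _) hV 1 Nat.one_pos ∅
  -- the core
  obtain ⟨d, b, hb⟩ := free_of_locPart_h509 p (wilesLevel p .flat Smin Smin) (Sum.elim pv qv) 𝒪
    hp5 hp𝒪 hN₀ hprime hinj hV ℓ hℓM hsurj hinj'
  refine ⟨d, ?_⟩
  intro g₁ g₂ hg₁ hg₂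
  refine ⟨b, fun y => ?_⟩
  have hg : ∀ s, orderOf (pairU g₁ g₂ s) = Sum.elim pv qv s - 1 := by
    rintro (i | j)
    · exact hg₁ i
    · exact hg₂ j
  have h1 := hb (pairU g₁ g₂) hg y
  -- re-index the exponents
  let Φ : ((∀ i : Fin k, Fin (p ^ padicValNat p (pv i - 1))) ×
      (∀ j : Fin r, Fin (p ^ padicValNat p (qv j - 1)))) ≃
      (∀ s : Fin k ⊕ Fin r, Fin (p ^ padicValNat p (Sum.elim pv qv s - 1))) :=
    (Equiv.sumPiEquivProdPi
      (fun s : Fin k ⊕ Fin r => Fin (p ^ padicValNat p (Sum.elim pv qv s - 1)))).symm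
  have h2 := existsUnique_reindex_h509 (R := 𝒪) Φ
    (fun (i : Fin d) (e : ∀ s : Fin k ⊕ Fin r, Fin (p ^ padicValNat p (Sum.elim pv qv s - 1))) =>
      diamondU (isMid_KG p (wilesLevel p .flat Smin Smin) (Sum.elim pv qv))
        (gLift (wilesLevel p .flat Smin Smin) (Sum.elim pv qv)
          (fun s => pairU g₁ g₂ s ^ (e s : ℕ)))
        (b i : Additive (KG p (wilesLevel p .flat Smin Smin) (Sum.elim pv qv)) →+ 𝒪))
    (y : Additive (KG p (wilesLevel p .flat Smin Smin) (Sum.elim pv qv)) →+ 𝒪) h1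
  have h3 : ∀ e : (∀ i : Fin k, Fin (p ^ padicValNat p (pv i - 1))) ×
      (∀ j : Fin r, Fin (p ^ padicValNat p (qv j - 1))),
      (fun s => pairU g₁ g₂ s ^ ((Φ e) s : ℕ)) =
        pairU (fun i' => g₁ i' ^ (e.1 i' : ℕ)) (fun j => g₂ j ^ (e.2 j : ℕ)) := by
    intro e
    funext s
    rcases s with i | j
    · rfl
    · rfl
  simp only [h3] at h2
  exact h2

end Fermat.Agent.S38.H509
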