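import Fermat.Agent.S38.H509.GFam
import Fermat.Agent.S59.MFree.Main
import Fermat.Agent.S59.TW.Aut.H31.LocBij

/-!
# Row HARD, cell HECKE, leaf IA-FREE (helper509): the core

`free_of_locPart_h509`: for a family `qq : ι → ℕ` of distinct primes (any finite index type `ι`),
`M = N₀ ∏ qq s`, `K = KG p N₀ qq = Γ₀(N₀) ∩ Γ_H(qq)`, `5 ≤ p`, and `V ⊆ X_K(𝒪)` THE localisation
at an eigen-system (`IsLocPart`, any `Tset`, `Uset`) such that `T_ℓ - (ℓ + 1)` is bijective on `V`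
for one prime `ℓ ∤ M`: there are `d` and `b : Fin d → V` such that for ALL primitive roots `g s`
modulo `qq s` the elements `⟨g^e⟩ b_i` (`e ∈ ∏ Fin (p ^ m_s)`, `i < d`) form an `𝒪`-basis of `V`.

Proof: `MFree.H587.free_heckeKer` (block M-FREE, on main) at `κ = gKappa p N₀ qq`, `e` = the
projector of `V`; hypothesis (Ell) is `gKappa_ell_h509`; the sections of `κ` are matched with the
exponents by `gEps_bijective_h509`.
-/

set_option autoImplicit false

open CongruenceSubgroup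
open scoped MatrixGroups

namespace Fermat.Agent.S38.H509

open Fermat.Agent.S59.TW.H653 Fermat.Agent.S59.MFree Fermat.Agent.S38.IA.Hecke
open Fermat.Agent.S59.TW.Aut

/-! ## Abstract transport of a basis -/

section Abstract

variable {R X : Type*} [CommRing R] [AddCommGroup X] [Module R X]
  {D E : Type*} [Fintype D] [Fintype E] {n : ℕ}

theorem sum_reindex_h509 (F : D × Fin n → X) (εe : E ≃ D) (c : Fin n → E → R) :
    ∑ i, ∑ e, c i e • F (εe e, i) = ∑ z : D × Fin n, c z.2 (εe.symm z.1) • F z := by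
  rw [Fintype.sum_prod_type_right]
  refine Finset.sum_congr rfl fun i _ => ?_
  rw [← Equiv.sum_comp εe (fun d => c i (εe.symm d) • F (d, i))]
  refine Finset.sum_congr rfl fun e _ => ?_
  rw [Equiv.symm_apply_apply]

/-- A linearly independent family `F : D × Fin n → X` spanning `y`, re-indexed along a bijection
`E ≃ D`, expresses `y` uniquely. -/
theorem existsUnique_of_li_span_h509 (F : D × Fin n → X) (hli : LinearIndependent R F)
    (εe : E ≃ D) (y : X) (hy : y ∈ Submodule.span R (Set.range F)) :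
    ∃! c : Fin n → E → R, y = ∑ i, ∑ e, c i e • F (εe e, i) := by
  obtain ⟨c0, hc0⟩ := (Submodule.mem_span_range_iff_exists_fun R).mp hy
  refine ⟨fun i e => c0 (εe e, i), ?_, ?_⟩
  · show y = ∑ i, ∑ e, c0 (εe e, i) • F (εe e, i)
    rw [sum_reindex_h509 F εe (fun i e => c0 (εe e, i)), ← hc0]
    refine Finset.sum_congr rfl fun z _ => ?_
    rw [Equiv.apply_symm_apply]
  · intro c' hc'
    have h1 : ∑ z : D × Fin n, (c' z.2 (εe.symm z.1) - c0 z) • F z = 0 := by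
      simp only [sub_smul, Finset.sum_sub_distrib]
      rw [← sum_reindex_h509 F εe c', ← hc', hc0, sub_self]
    have h2 := Fintype.linearIndependent_iff.mp hli _ h1
    funext i e
    have h3 := h2 (εe e, i)
    simp only [Equiv.symm_apply_apply] at h3
    exact sub_eq_zero.mp h3

end Abstract

/-! ## The core -/

section Core

variable (p : ℕ) [hp : Fact p.Prime] (N₀ : ℕ) {ι : Type} [Fintype ι] [DecidableEq ι]
  (qq : ι → ℕ)
  (𝒪 : Type) [CommRing 𝒪] [IsDomain 𝒪] [IsDiscreteValuationRing 𝒪] [CharZero 𝒪]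

/-- **IA-FREE, core.**  The localisation `V` of `X_K(𝒪)`, `K = Γ₀(N₀) ∩ Γ_H(qq)`, is free over
`𝒪[Δ]`: it has an `𝒪`-basis `⟨g^e⟩ b_i`. -/
theorem free_of_locPart_h509 (hp5 : 5 ≤ p) (hp𝒪 : ¬ IsUnit (p : 𝒪)) (hN₀ : N₀ ≠ 0)
    (hprime : ∀ s, (qq s).Prime) (hinj : Function.Injective qq)
    {Tset Uset : Set (ℕ × 𝒪)} {V : Submodule 𝒪 (Additive (KG p N₀ qq) →+ 𝒪)}
    (hV : IsLocPart (isMid_KG p N₀ qq) Tset Uset V)
    (ℓ : ℕ) [Fact ℓ.Prime] (hℓ : ¬ ℓ ∣ gLevel N₀ qq)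
    (hsurj : ∀ y ∈ V, ∃ x ∈ V,
      TK (gLevel N₀ qq) (KG p N₀ qq) ℓ x - ((ℓ : 𝒪) + 1) • x = y)
    (hinj' : ∀ x ∈ V, TK (gLevel N₀ qq) (KG p N₀ qq) ℓ x - ((ℓ : 𝒪) + 1) • x = 0 → x = 0) :
    ∃ (d : ℕ) (b : Fin d → V), ∀ g : ∀ s : ι, (ZMod (qq s))ˣ,
      (∀ s, orderOf (g s) = qq s - 1) → ∀ y : V,
        ∃! c : Fin d → (∀ s : ι, Fin (p ^ padicValNat p (qq s - 1))) → 𝒪,
          (y : Additive (KG p N₀ qq) →+ 𝒪) =
            ∑ i, ∑ e, c i e • diamondU (isMid_KG p N₀ qq)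
              (gLift N₀ qq (fun s => g s ^ (e s : ℕ))) (b i : Additive (KG p N₀ qq) →+ 𝒪) := by
  classical
  have hM : NeZero (gLevel N₀ qq) := neZero_gLevel_h509 N₀ qq hN₀ hprime
  have hred := gRed_surjective_h509 N₀ qq hN₀ hinj hprime
  have hfinD : Finite (GDelta p qq) := finite_gDelta_h509 p qq hprime
  letI : Fintype (GDelta p qq) := Fintype.ofFinite _
  have hκ : Function.Surjective (gKappa p N₀ qq) := gKappa_surjective_h509 p N₀ qq hred
  have hcard : ∃ a : ℕ, Fintype.card (GDelta p qq) = p ^ a := by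
    obtain ⟨a, ha⟩ := card_gDelta_h509 p qq hprime
    exact ⟨a, by rw [← Nat.card_eq_fintype_card]; exact ha⟩
  have hell := gKappa_ell_h509 p N₀ qq hp5 hprime
  have hΓ1 := gKappa_trivial_h509 p N₀ qq
  obtain ⟨e, he, heV, hVe, hT, -, hD, -⟩ := hV.exists_proj
  have hmemV : ∀ x : Additive (KG p N₀ qq) →+ 𝒪, e x = x → x ∈ V := fun x hx => by
    rw [← hx]; exact heV x
  have hTK : ∀ x : Additive (kerSub (gKappa p N₀ qq)) →+ 𝒪,
      H587.heckeKerLin hℓ (gKappa p N₀ qq) hΓ1 𝒪 x =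
        TK (gLevel N₀ qq) (KG p N₀ qq) ℓ x := fun x =>
    heckeKer_eq_TK hℓ (gKappa p N₀ qq) hΓ1 x
  have hconj : ∀ (γ : Gamma0 (gLevel N₀ qq)) (x : Additive (kerSub (gKappa p N₀ qq)) →+ 𝒪),
      conjAct (gKappa p N₀ qq) γ x =
        diamondU (isMid_KG p N₀ qq) (dUnit (gLevel N₀ qq) γ⁻¹) x := fun γ x => by
    rw [conjAct_eq_diamond (gKappa p N₀ qq) hΓ1 γ x, diamond_eq_diamondU]
    rfl
  have hfree := H587.free_heckeKer p (gLevel N₀ qq) ℓ hℓ (NeZero.ne _) (GDelta p qq)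
    (gKappa p N₀ qq) hκ hcard hell hΓ1 𝒪 hp𝒪 e he
    (fun x => by rw [hTK, hTK]; exact hT ℓ hℓ x)
    (fun γ x => by rw [hconj, hconj]; exact hD _ x)
    (fun y hy => by
      obtain ⟨x, hx, hxy⟩ := hsurj y (hmemV y hy)
      exact ⟨x, hVe x hx, by rw [hTK]; exact hxy⟩)
    (fun x hx h0 => hinj' x (hmemV x hx) (by rw [← hTK]; exact h0))
  obtain ⟨⟨n, b, hb, hbasis⟩, -, -⟩ := hfree
  refine ⟨n, fun i => ⟨b i, hmemV _ (hb i)⟩, ?_⟩
  intro g hg y
  -- a section of `κ`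
  obtain ⟨s, hs⟩ : ∃ s : GDelta p qq → Gamma0 (gLevel N₀ qq), ∀ d, gKappa p N₀ qq (s d) = d :=
    ⟨Function.surjInv hκ, Function.surjInv_eq hκ⟩
  obtain ⟨hli, hspan⟩ := hbasis s hs
  -- the exponents
  let εe : (∀ s : ι, Fin (p ^ padicValNat p (qq s - 1))) ≃ GDelta p qq :=
    (Equiv.ofBijective _ (gEps_bijective_h509 p qq hprime g hg)).trans (Equiv.inv _)
  have hε : ∀ e', εe e' = (QuotientGroup.mk (fun s => g s ^ (e' s : ℕ)) : GDelta p qq)⁻¹ :=
    fun _ => rfl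
  have hy : (y : Additive (KG p N₀ qq) →+ 𝒪) ∈ Submodule.span 𝒪
      (Set.range fun z : GDelta p qq × Fin n => conjAct (gKappa p N₀ qq) (s z.1) (b z.2)) :=
    hspan _ (hVe _ y.2)
  have key := existsUnique_of_li_span_h509
    (fun z : GDelta p qq × Fin n => conjAct (gKappa p N₀ qq) (s z.1) (b z.2)) hli εe _ hy
  have hdia : ∀ (i : Fin n) (e' : ∀ s : ι, Fin (p ^ padicValNat p (qq s - 1))),
      conjAct (gKappa p N₀ qq) (s (εe e')) (b i) =
        diamondU (isMid_KG p N₀ qq) (gLift N₀ qq (fun s => g s ^ (e' s : ℕ))) (b i) := by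
    intro i e'
    exact (diamondU_gLift_eq_conjAct_h509 p N₀ qq hred (fun s => g s ^ (e' s : ℕ))
      (s (εe e')) (by rw [hs, hε]) (b i)).symm
  simp only [hdia] at key
  exact key

end Core

end Fermat.Agent.S38.H509
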