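import Fermat.Agent.S38.H509.IAFreeCore
import Fermat.Agent.S59.MFree.H779.FreeKer
import Fermat.Agent.S59.TW.Aut.H31.NonEis
import Fermat.Agent.S59.TW.Aut.H186.AuxPrimePkg

/-!
# IA-FREE for all odd `p` (helper509): the core

`free_of_locPart_odd_h509`: as `free_of_locPart_h509` (any finite index type `ι`, any base level
`N₀`, any `Tset`, `Uset`), with `5 ≤ p` replaced by

* either `5 ≤ p`,
* or `p = 3` and an auxiliary prime `r' ∤ M`, `r' ≡ 2 mod 3`, with `T_{r'}` surjective on `V`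
  (helper779's `MFree.H779.freeAux3_heckeKer_h779`: hypothesis (Ell) can fail at `p = 3`, it is
  replaced by the auxiliary level `Γ₀(M) ∩ Γ₀(r')`).

`free_of_locPart_tset_h509`: the same with the hypotheses in the form of pairs of `Tset`:
a non-Eisenstein pair `(ℓ, c)`, `c - (ℓ + 1)` a unit, and for `p = 3` a pair `(r', c')`, `c'` a unit.
-/

set_option autoImplicit false
set_option linter.style.haveILetI false

open CongruenceSubgroup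
open scoped MatrixGroups

namespace Fermat.Agent.S38.H509

open Fermat.Agent.S59.TW.H653 Fermat.Agent.S59.MFree Fermat.Agent.S38.IA.Hecke
open Fermat.Agent.S59.TW.Aut

/-! ## The core -/

section Core

variable (p : ℕ) [hp : Fact p.Prime] (N₀ : ℕ) {ι : Type} [Fintype ι] [DecidableEq ι]
  (qq : ι → ℕ)
  (𝒪 : Type) [CommRing 𝒪] [IsDomain 𝒪] [IsDiscreteValuationRing 𝒪] [CharZero 𝒪]

/-- **IA-FREE, core, all odd `p`.**  The localisation `V` of `X_K(𝒪)`, `K = Γ₀(N₀) ∩ Γ_H(qq)`, is free over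
`𝒪[Δ]`: it has an `𝒪`-basis `⟨g^e⟩ b_i`. -/
theorem free_of_locPart_odd_h509 (hp𝒪 : ¬ IsUnit (p : 𝒪)) (hN₀ : N₀ ≠ 0)
    (hprime : ∀ s, (qq s).Prime) (hinj : Function.Injective qq)
    {Tset Uset : Set (ℕ × 𝒪)} {V : Submodule 𝒪 (Additive (KG p N₀ qq) →+ 𝒪)}
    (hV : IsLocPart (isMid_KG p N₀ qq) Tset Uset V)
    (ℓ : ℕ) [Fact ℓ.Prime] (hℓ : ¬ ℓ ∣ gLevel N₀ qq)
    (hsurj : ∀ y ∈ V, ∃ x ∈ V,
      TK (gLevel N₀ qq) (KG p N₀ qq) ℓ x - ((ℓ : 𝒪) + 1) • x = y)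
    (hinj' : ∀ x ∈ V, TK (gLevel N₀ qq) (KG p N₀ qq) ℓ x - ((ℓ : 𝒪) + 1) • x = 0 → x = 0)
    (hcase : 5 ≤ p ∨ (p = 3 ∧ ∃ (r' : ℕ) (hr' : r'.Prime), ¬ r' ∣ gLevel N₀ qq ∧ r' % 3 = 2 ∧
      ∀ y ∈ V, ∃ x ∈ V, tOp (gLevel N₀ qq) (KG p N₀ qq) 𝒪 r' hr' x = y)) :
    ∃ (d : ℕ) (b : Fin d → V), ∀ g : ∀ s : ι, (ZMod (qq s))ˣ,
      (∀ s, orderOf (g s) = qq s - 1) → ∀ y : V,
        ∃! c : Fin d → (∀ s : ι, Fin (p ^ padicValNat p (qq s - 1))) → 𝒪,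
          (y : Additive (KG p N₀ qq) →+ 𝒪) =
            ∑ i, ∑ e, c i e • diamondU (isMid_KG p N₀ qq)
              (gLift N₀ qq (fun s => g s ^ (e s : ℕ))) (b i : Additive (KG p N₀ qq) →+ 𝒪) := by
  classical
  have hM : NeZero (gLevel N₀ qq) := neZero_gLevel_h509 N₀ qq hN₀ hprime
  have hred := gRed_surjective_h509 N₀ qq hN₀ hinj hprime
  have hfinD : Finite (GDelta p qq) := finite_gDelta_h509 p qq hprime
  letI : Fintype (GDelta p qq) := Fintype.ofFinite _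
  have hκ : Function.Surjective (gKappa p N₀ qq) := gKappa_surjective_h509 p N₀ qq hred
  have hcard : ∃ a : ℕ, Fintype.card (GDelta p qq) = p ^ a := by
    obtain ⟨a, ha⟩ := card_gDelta_h509 p qq hprime
    exact ⟨a, by rw [← Nat.card_eq_fintype_card]; exact ha⟩
  have hΓ1 := gKappa_trivial_h509 p N₀ qq
  obtain ⟨e, he, heV, hVe, hT, -, hD, -⟩ := hV.exists_proj
  have hmemV : ∀ x : Additive (KG p N₀ qq) →+ 𝒪, e x = x → x ∈ V := fun x hx => by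
    rw [← hx]; exact heV x
  have hTK : ∀ x : Additive (kerSub (gKappa p N₀ qq)) →+ 𝒪,
      H587.heckeKerLin hℓ (gKappa p N₀ qq) hΓ1 𝒪 x =
        TK (gLevel N₀ qq) (KG p N₀ qq) ℓ x := fun x =>
    heckeKer_eq_TK hℓ (gKappa p N₀ qq) hΓ1 x
  have hconj : ∀ (γ : Gamma0 (gLevel N₀ qq)) (x : Additive (kerSub (gKappa p N₀ qq)) →+ 𝒪),
      conjAct (gKappa p N₀ qq) γ x =
        diamondU (isMid_KG p N₀ qq) (dUnit (gLevel N₀ qq) γ⁻¹) x := fun γ x => by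
    rw [conjAct_eq_diamond (gKappa p N₀ qq) hΓ1 γ x, diamond_eq_diamondU]
    rfl
  have het : ∀ x, e (H587.heckeKerLin hℓ (gKappa p N₀ qq) hΓ1 𝒪 x) =
      H587.heckeKerLin hℓ (gKappa p N₀ qq) hΓ1 𝒪 (e x) := fun x => by
    rw [hTK, hTK]; exact hT ℓ hℓ x
  have hec : ∀ (γ : Gamma0 (gLevel N₀ qq)) x,
      e (conjAct (gKappa p N₀ qq) γ x) = conjAct (gKappa p N₀ qq) γ (e x) := fun γ x => by
    rw [hconj, hconj]; exact hD _ x
  have hsurj'' : ∀ y : Additive (kerSub (gKappa p N₀ qq)) →+ 𝒪, e y = y →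
      ∃ x : Additive (kerSub (gKappa p N₀ qq)) →+ 𝒪, e x = x ∧
        H587.heckeKerLin hℓ (gKappa p N₀ qq) hΓ1 𝒪 x - ((ℓ : 𝒪) + 1) • x = y := fun y hy => by
    obtain ⟨x, hx, hxy⟩ := hsurj y (hmemV y hy)
    exact ⟨x, hVe x hx, by rw [hTK]; exact hxy⟩
  have hinj'' : ∀ x : Additive (kerSub (gKappa p N₀ qq)) →+ 𝒪, e x = x →
      H587.heckeKerLin hℓ (gKappa p N₀ qq) hΓ1 𝒪 x - ((ℓ : 𝒪) + 1) • x = 0 → x = 0 :=
    fun x hx h0 => hinj' x (hmemV x hx) (by rw [← hTK]; exact h0)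
  have hfree : FreeConclusion (gKappa p N₀ qq) 𝒪 e := by
    rcases hcase with hp5 | ⟨hp3, r', hr', hr'M, hr'3, hsurjr⟩
    · exact H587.free_heckeKer p (gLevel N₀ qq) ℓ hℓ (NeZero.ne _) (GDelta p qq)
        (gKappa p N₀ qq) hκ hcard (gKappa_ell_h509 p N₀ qq hp5 hprime) hΓ1 𝒪 hp𝒪 e he het hec
        hsurj'' hinj''
    · subst hp3
      haveI : Fact r'.Prime := ⟨hr'⟩
      have hTKr : ∀ x : Additive (kerSub (gKappa 3 N₀ qq)) →+ 𝒪,
          H587.heckeKerLin hr'M (gKappa 3 N₀ qq) hΓ1 𝒪 x =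
            TK (gLevel N₀ qq) (KG 3 N₀ qq) r' x := fun x =>
        heckeKer_eq_TK hr'M (gKappa 3 N₀ qq) hΓ1 x
      refine H779.freeAux3_heckeKer_h779 (gLevel N₀ qq) ℓ r' hℓ hr'M hr'3 (NeZero.ne _)
        (GDelta 3 qq) (gKappa 3 N₀ qq) hκ hcard hΓ1 𝒪 (by simpa using hp𝒪) e he het hec
        hsurj'' hinj'' (fun x => by rw [hTKr, hTKr]; exact hT r' hr'M x) ?_
      intro y hy
      obtain ⟨x, hx, hxy⟩ := hsurjr y (hmemV y hy)
      exact ⟨x, hVe x hx, (hTKr x).trans hxy⟩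
  obtain ⟨⟨n, b, hb, hbasis⟩, -, -⟩ := hfree
  refine ⟨n, fun i => ⟨b i, hmemV _ (hb i)⟩, ?_⟩
  intro g hg y
  -- a section of `κ`
  obtain ⟨s, hs⟩ : ∃ s : GDelta p qq → Gamma0 (gLevel N₀ qq), ∀ d, gKappa p N₀ qq (s d) = d :=
    ⟨Function.surjInv hκ, Function.surjInv_eq hκ⟩
  obtain ⟨hli, hspan⟩ := hbasis s hs
  -- the exponents
  let εe : (∀ s : ι, Fin (p ^ padicValNat p (qq s - 1))) ≃ GDelta p qq :=
    (Equiv.ofBijective _ (gEps_bijective_h509 p qq hprime g hg)).trans (Equiv.inv _)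
  have hε : ∀ e', εe e' = (QuotientGroup.mk (fun s => g s ^ (e' s : ℕ)) : GDelta p qq)⁻¹ :=
    fun _ => rfl
  have hy : (y : Additive (KG p N₀ qq) →+ 𝒪) ∈ Submodule.span 𝒪
      (Set.range fun z : GDelta p qq × Fin n => conjAct (gKappa p N₀ qq) (s z.1) (b z.2)) :=
    hspan _ (hVe _ y.2)
  have key := existsUnique_of_li_span_h509
    (fun z : GDelta p qq × Fin n => conjAct (gKappa p N₀ qq) (s z.1) (b z.2)) hli εe _ hy
  have hdia : ∀ (i : Fin n) (e' : ∀ s : ι, Fin (p ^ padicValNat p (qq s - 1))),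
      conjAct (gKappa p N₀ qq) (s (εe e')) (b i) =
        diamondU (isMid_KG p N₀ qq) (gLift N₀ qq (fun s => g s ^ (e' s : ℕ))) (b i) := by
    intro i e'
    exact (diamondU_gLift_eq_conjAct_h509 p N₀ qq hred (fun s => g s ^ (e' s : ℕ))
      (s (εe e')) (by rw [hs, hε]) (b i)).symm
  simp only [hdia] at key
  exact key

end Core

/-! ## The package form -/

section Pkg

open Fermat.Agent.S59.Arch Fermat.Agent.S59.TW.H959 Fermat.Agent.S59.TW IsLocalRing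

variable {p : ℕ} [hp : Fact p.Prime]
  {𝒪 : Type} [CommRing 𝒪] [IsDomain 𝒪] [IsDiscreteValuationRing 𝒪]
  [IsAdicComplete (maximalIdeal 𝒪) 𝒪] [Finite (ResidueField 𝒪)] [CharZero 𝒪]
  {ρbar : ResidualGaloisRep (ResidueField 𝒪)} {Smin : Finset ℕ}

/-- **IA-FREE, all odd `p`, any package, any base level.**  `P` a Hecke package (any type `t`,
any `Σ`), `N₀ ≠ 0` any base level, `qq : ι → ℕ` distinct primes, `K = Γ₀(N₀) ∩ Γ_H(qq)`,
`V` the localisation of `X_K(𝒪)` at `(TsetOf P, Uset)` (any `Uset`): `V` has an `𝒪`-basis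
`⟨g^e⟩ b_i`. -/
theorem free_of_pkg_h509 (h : ResidualHyp p 𝒪 ρbar Smin) {t : PType} {Sig : Finset ℕ}
    [NeZero (wilesLevel p t Smin Sig)] (P : HeckePkg p 𝒪 ρbar t Smin Sig)
    (N₀ : ℕ) (hN₀ : N₀ ≠ 0) {ι : Type} [Fintype ι] [DecidableEq ι] (qq : ι → ℕ)
    (hprime : ∀ s, (qq s).Prime) (hinj : Function.Injective qq)
    {Uset : Set (ℕ × 𝒪)} {V : Submodule 𝒪 (Additive (KG p N₀ qq) →+ 𝒪)}
    (hV : IsLocPart (isMid_KG p N₀ qq) (TsetOf P) Uset V) :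
    ∃ (d : ℕ) (b : Fin d → V), ∀ g : ∀ s : ι, (ZMod (qq s))ˣ,
      (∀ s, orderOf (g s) = qq s - 1) → ∀ y : V,
        ∃! c : Fin d → (∀ s : ι, Fin (p ^ padicValNat p (qq s - 1))) → 𝒪,
          (y : Additive (KG p N₀ qq) →+ 𝒪) =
            ∑ i, ∑ e, c i e • diamondU (isMid_KG p N₀ qq)
              (gLift N₀ qq (fun s => g s ^ (e s : ℕ))) (b i : Additive (KG p N₀ qq) →+ 𝒪) := by
  classical
  have hpp : p.Prime := hp.out
  have hM : NeZero (gLevel N₀ qq) := neZero_gLevel_h509 N₀ qq hN₀ hprime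
  have hp𝒪 : ¬ IsUnit (p : 𝒪) := (mem_maximalIdeal _).mp h.hp𝒪
  obtain ⟨ℓ, c, hmem, hℓ, hℓS', -, -, hu⟩ :=
    H31.exists_nonEis_mem_TsetOf h P 1 one_pos (gLevel N₀ qq).primeFactors
  have hℓM : ¬ ℓ ∣ gLevel N₀ qq :=
    fun hd => hℓS' (Nat.mem_primeFactors.mpr ⟨hℓ, hd, hM.ne⟩)
  haveI : Fact ℓ.Prime := ⟨hℓ⟩
  obtain ⟨hsurj, hinj'⟩ := H31.locPart_TK_sub_bij_h31 hV hℓM hmem hu
  refine free_of_locPart_odd_h509 p N₀ qq 𝒪 hp𝒪 hN₀ hprime hinj hV ℓ hℓM hsurj hinj' ?_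
  by_cases hp3 : p = 3
  · right
    refine ⟨hp3, ?_⟩
    obtain ⟨r', c', hmem', hr', -, -, hr'S', hr'3, hc'⟩ :=
      H186.exists_aux3_tset_h186 hp3 h P (gLevel N₀ qq).primeFactors
    have hr'M : ¬ r' ∣ gLevel N₀ qq :=
      fun hd => hr'S' (Nat.mem_primeFactors.mpr ⟨hr', hd, hM.ne⟩)
    refine ⟨r', hr', hr'M, hr'3, ?_⟩
    haveI : Fact r'.Prime := ⟨hr'⟩
    have hu0 : IsUnit (c' - 0) := by rwa [sub_zero]
    obtain ⟨hsurjr, -⟩ := H31.locPart_TK_sub_bij_h31 hV hr'M hmem' hu0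
    intro y hy
    obtain ⟨x, hxV, hx⟩ := hsurjr y hy
    rw [zero_smul, sub_zero] at hx
    exact ⟨x, hxV, hx⟩
  · left
    have h2 := h.hp2
    have h2le := hpp.two_le
    by_contra hlt
    have hp4 : p = 4 := by omega
    rw [hp4] at hpp
    exact absurd hpp (by decide)

end Pkg

end Fermat.Agent.S38.H509
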