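import Fermat.Agent.S38.H509.IAFreeOdd
import Fermat.Agent.S38.H509.IAFree
import Fermat.Agent.S59.Arch.WilesLevel

/-!
# IA-FREE for all odd `p` and every type `t` (helper509)

* `free_pair_of_pkg_h509` : `P` any Hecke package (any `t`, any `Σ`), `N₀ ≠ 0` any base level,
  `pv`, `qv` two families of primes (`Sum.elim pv qv` injective), `V` the localisation of
  `X_K(𝒪)`, `K = KG p N₀ (Sum.elim pv qv)`, at `(TsetOf P, Uset)`: there is `d` such that for all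
  primitive roots `g₁ i`, `g₂ j` the module `V` has an `𝒪`-basis `⟨g₁^{e₁}, g₂^{e₂}⟩ b_i`, `i < d`
  (the shape of `IAFreeAt`, with `diamondU (isMid_KG ..) (gLift .. (pairU ..))`).
* `iaFreeOdd_h509` : `IAFreeStatement` VERBATIM without the binder `5 ≤ p` (all odd `p`, `.flat`).
* `iaFreeT_h509` : the same for every `t : PType`
  (`K = KG p (wilesLevel p t Smin Smin) (Sum.elim pv qv)`).
-/

set_option autoImplicit false
set_option linter.style.haveILetI false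
set_option linter.overlappingInstances false

open Polynomial IsLocalRing CongruenceSubgroup
open scoped MatrixGroups

namespace Fermat.Agent.S38.H509

open Fermat.Agent.S59.Arch Fermat.Agent.S59.TW.H959 Fermat.Agent.S59.TW
open Fermat.Agent.S59.TW.H653 Fermat.Agent.S59.TW.Aut Fermat.Agent.S38.IA
open Fermat.Agent.S38.IA.Hecke

section Pair

variable {p : ℕ} [hp : Fact p.Prime]
  {𝒪 : Type} [CommRing 𝒪] [IsDomain 𝒪] [IsDiscreteValuationRing 𝒪]
  [IsAdicComplete (maximalIdeal 𝒪) 𝒪] [Finite (ResidueField 𝒪)] [CharZero 𝒪]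
  {ρbar : ResidualGaloisRep (ResidueField 𝒪)} {Smin : Finset ℕ}

/-- **IA-FREE, all odd `p`, any package, any base level**, in the shape of `IAFreeAt`. -/
theorem free_pair_of_pkg_h509 (h : ResidualHyp p 𝒪 ρbar Smin) {t : PType} {Sig : Finset ℕ}
    [NeZero (wilesLevel p t Smin Sig)] (P : HeckePkg p 𝒪 ρbar t Smin Sig)
    (N₀ : ℕ) (hN₀ : N₀ ≠ 0) {k r : ℕ} (pv : Fin k → ℕ) (qv : Fin r → ℕ)
    (hprime : ∀ s, (Sum.elim pv qv s).Prime) (hinj : Function.Injective (Sum.elim pv qv))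
    {Uset : Set (ℕ × 𝒪)} {V : Submodule 𝒪 (Additive (KG p N₀ (Sum.elim pv qv)) →+ 𝒪)}
    (hV : IsLocPart (isMid_KG p N₀ (Sum.elim pv qv)) (TsetOf P) Uset V) :
    ∃ d : ℕ, ∀ (g₁ : ∀ i : Fin k, (ZMod (pv i))ˣ) (g₂ : ∀ j : Fin r, (ZMod (qv j))ˣ),
      (∀ i, orderOf (g₁ i) = pv i - 1) → (∀ j, orderOf (g₂ j) = qv j - 1) →
      ∃ b : Fin d → V, ∀ y : V,
        ∃! c : Fin d → (∀ i : Fin k, Fin (p ^ padicValNat p (pv i - 1))) ×
            (∀ j : Fin r, Fin (p ^ padicValNat p (qv j - 1))) → 𝒪,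
          (y : Additive (KG p N₀ (Sum.elim pv qv)) →+ 𝒪) =
            ∑ i, ∑ e, c i e • diamondU (isMid_KG p N₀ (Sum.elim pv qv))
              (gLift N₀ (Sum.elim pv qv)
                (pairU (fun i' => g₁ i' ^ (e.1 i' : ℕ)) (fun j => g₂ j ^ (e.2 j : ℕ))))
              (b i : Additive (KG p N₀ (Sum.elim pv qv)) →+ 𝒪) := by
  classical
  obtain ⟨d, b, hb⟩ := free_of_pkg_h509 h P N₀ hN₀ (Sum.elim pv qv) hprime hinj hV
  refine ⟨d, ?_⟩
  intro g₁ g₂ hg₁ hg₂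
  refine ⟨b, fun y => ?_⟩
  have hg : ∀ s, orderOf (pairU g₁ g₂ s) = Sum.elim pv qv s - 1 := by
    rintro (i | j)
    · exact hg₁ i
    · exact hg₂ j
  have h1 := hb (pairU g₁ g₂) hg y
  let Φ : ((∀ i : Fin k, Fin (p ^ padicValNat p (pv i - 1))) ×
      (∀ j : Fin r, Fin (p ^ padicValNat p (qv j - 1)))) ≃
      (∀ s : Fin k ⊕ Fin r, Fin (p ^ padicValNat p (Sum.elim pv qv s - 1))) :=
    (Equiv.sumPiEquivProdPi
      (fun s : Fin k ⊕ Fin r => Fin (p ^ padicValNat p (Sum.elim pv qv s - 1)))).symm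
  have h2 := existsUnique_reindex_h509 (R := 𝒪) Φ
    (fun (i : Fin d) (e : ∀ s : Fin k ⊕ Fin r, Fin (p ^ padicValNat p (Sum.elim pv qv s - 1))) =>
      diamondU (isMid_KG p N₀ (Sum.elim pv qv))
        (gLift N₀ (Sum.elim pv qv) (fun s => pairU g₁ g₂ s ^ (e s : ℕ)))
        (b i : Additive (KG p N₀ (Sum.elim pv qv)) →+ 𝒪))
    (y : Additive (KG p N₀ (Sum.elim pv qv)) →+ 𝒪) h1
  have h3 : ∀ e : (∀ i : Fin k, Fin (p ^ padicValNat p (pv i - 1))) ×
      (∀ j : Fin r, Fin (p ^ padicValNat p (qv j - 1))),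
      (fun s => pairU g₁ g₂ s ^ ((Φ e) s : ℕ)) =
        pairU (fun i' => g₁ i' ^ (e.1 i' : ℕ)) (fun j => g₂ j ^ (e.2 j : ℕ)) := by
    intro e
    funext s
    rcases s with i | j
    · rfl
    · rfl
  simp only [h3] at h2
  exact h2

end Pair

/-! ## The families of Ihara avoidance -/

section IA

variable {p : ℕ} {k : Type} [Field k] {ρbar : ResidualGaloisRep k} {Smin Piv : Finset ℕ}
  {kk r n : ℕ} {pv : Fin kk → ℕ} {qv : Fin r → ℕ}

theorem prime_sum_h509 (hPiv : IsPivotSet p ρbar Smin Piv)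
    (hpvPiv : Finset.univ.image pv = Piv) (hq : IsTWSet p ρbar (Smin ∪ Piv) n qv) :
    ∀ s, (Sum.elim pv qv s).Prime := by
  have hpvmem : ∀ i, pv i ∈ Piv := fun i => by
    rw [← hpvPiv]
    exact Finset.mem_image_of_mem pv (Finset.mem_univ i)
  rintro (i | j)
  · exact (hPiv (pv i) (hpvmem i)).1
  · exact (hq.2.1 j).1

theorem injective_sum_h509 (hpv : Function.Injective pv)
    (hpvPiv : Finset.univ.image pv = Piv) (hq : IsTWSet p ρbar (Smin ∪ Piv) n qv) :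
    Function.Injective (Sum.elim pv qv) := by
  have hpvmem : ∀ i, pv i ∈ Piv := fun i => by
    rw [← hpvPiv]
    exact Finset.mem_image_of_mem pv (Finset.mem_univ i)
  rintro (i | j) (i' | j') hij
  · exact congrArg Sum.inl (hpv hij)
  · exfalso
    have h1 : qv j' ∈ Smin ∪ Piv := by
      have h2 : pv i = qv j' := hij
      rw [← h2]
      exact Finset.mem_union_right _ (hpvmem i)
    exact (hq.2.1 j').2.1 h1
  · exfalso
    have h1 : qv j ∈ Smin ∪ Piv := by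
      have h2 : qv j = pv i' := hij
      rw [h2]
      exact Finset.mem_union_right _ (hpvmem i')
    exact (hq.2.1 j).2.1 h1
  · exact congrArg Sum.inr (hq.1 hij)

end IA

/-- **IA-FREE for every type `t` and all odd `p`**: `K = KG p (wilesLevel p t Smin Smin)
(Sum.elim pv qv)`, `PQ` a package of type `t` at `Σ = Smin ∪ Piv ∪ Q`. -/
theorem iaFreeT_h509 (p : ℕ) [Fact p.Prime]
    (𝒪 : Type) [CommRing 𝒪] [IsDomain 𝒪] [IsDiscreteValuationRing 𝒪]
    [IsAdicComplete (maximalIdeal 𝒪) 𝒪] [Finite (ResidueField 𝒪)] [CharZero 𝒪]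
    (ρbar : ResidualGaloisRep (ResidueField 𝒪)) (Smin : Finset ℕ)
    (h : ResidualHyp p 𝒪 ρbar Smin) (t : PType)
    (Piv : Finset ℕ) (hPiv : IsPivotSet p ρbar Smin Piv)
    (k : ℕ) (pv : Fin k → ℕ) (hpv : Function.Injective pv)
    (hpvPiv : Finset.univ.image pv = Piv)
    (n r : ℕ) (qv : Fin r → ℕ) (hq : IsTWSet p ρbar (Smin ∪ Piv) n qv)
    [NeZero (wilesLevel p t Smin (Smin ∪ Piv ∪ Finset.univ.image qv))]
    (PQ : HeckePkg p 𝒪 ρbar t Smin (Smin ∪ Piv ∪ Finset.univ.image qv))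
    (Uset : Set (ℕ × 𝒪))
    (V : Submodule 𝒪 (Additive (KG p (wilesLevel p t Smin Smin) (Sum.elim pv qv)) →+ 𝒪))
    (hV : IsLocPart (isMid_KG p (wilesLevel p t Smin Smin) (Sum.elim pv qv)) (TsetOf PQ) Uset V) :
    ∃ d : ℕ, ∀ (g₁ : ∀ i : Fin k, (ZMod (pv i))ˣ) (g₂ : ∀ j : Fin r, (ZMod (qv j))ˣ),
      (∀ i, orderOf (g₁ i) = pv i - 1) → (∀ j, orderOf (g₂ j) = qv j - 1) →
      ∃ b : Fin d → V, ∀ y : V,
        ∃! c : Fin d → (∀ i : Fin k, Fin (p ^ padicValNat p (pv i - 1))) ×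
            (∀ j : Fin r, Fin (p ^ padicValNat p (qv j - 1))) → 𝒪,
          (y : Additive (KG p (wilesLevel p t Smin Smin) (Sum.elim pv qv)) →+ 𝒪) =
            ∑ i, ∑ e, c i e •
              diamondU (isMid_KG p (wilesLevel p t Smin Smin) (Sum.elim pv qv))
                (gLift (wilesLevel p t Smin Smin) (Sum.elim pv qv)
                  (pairU (fun i' => g₁ i' ^ (e.1 i' : ℕ)) (fun j => g₂ j ^ (e.2 j : ℕ))))
                (b i : Additive (KG p (wilesLevel p t Smin Smin) (Sum.elim pv qv)) →+ 𝒪) :=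
  free_pair_of_pkg_h509 h PQ (wilesLevel p t Smin Smin)
    (wilesLevel_ne_zero (Fact.out : p.Prime) h.hSmin h.hSmin) pv qv
    (prime_sum_h509 hPiv hpvPiv hq) (injective_sum_h509 hpv hpvPiv hq) hV

/-- **IA-FREE for all odd `p`**: `IAFreeStatement` VERBATIM without the binder `5 ≤ p`. -/
theorem iaFreeOdd_h509 :
    ∀ (p : ℕ) [Fact p.Prime]
      (𝒪 : Type) [CommRing 𝒪] [IsDomain 𝒪] [IsDiscreteValuationRing 𝒪]
      [IsAdicComplete (maximalIdeal 𝒪) 𝒪] [Finite (ResidueField 𝒪)] [CharZero 𝒪]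
      (ρbar : ResidualGaloisRep (ResidueField 𝒪)) (Smin : Finset ℕ)
      (_h : ResidualHyp p 𝒪 ρbar Smin)
      (_hflat : (GaloisRepAdic.ofResidualGaloisRep ρbar).IsFlatAt p)
      (Piv : Finset ℕ) (_hPiv : IsPivotSet p ρbar Smin Piv)
      (k : ℕ) (pv : Fin k → ℕ) (_hpv : Function.Injective pv)
      (_hpvPiv : Finset.univ.image pv = Piv)
      (n r : ℕ) (qv : Fin r → ℕ) (_hq : IsTWSet p ρbar (Smin ∪ Piv) n qv)
      [NeZero (wilesLevel p .flat Smin (Smin ∪ Piv ∪ Finset.univ.image qv))]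
      (PQ : HeckePkg p 𝒪 ρbar .flat Smin (Smin ∪ Piv ∪ Finset.univ.image qv))
      (α : Fin r → 𝒪) (_hα : IsFrobLift ρbar qv α)
      (V : Submodule 𝒪 (XIA p Smin pv qv 𝒪)),
      IsIAPart PQ α V → ∃ d : ℕ, IAFreeAt V d := by
  intro p _ 𝒪 _ _ _ _ _ _ ρbar Smin h _hflat Piv hPiv k pv hpv hpvPiv n r qv hq _ PQ α _hα V hV
  exact iaFreeT_h509 p 𝒪 ρbar Smin h .flat Piv hPiv k pv hpv hpvPiv n r qv hq PQ
    (UsetOf qv α) V hV

end Fermat.Agent.S38.H509
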