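import Fermat.Agent.S38.H509.StOcc
import Fermat.Agent.S38.H201.StepA
import Fermat.Agent.S38.H264.PsiK1
import Fermat.Agent.S59.TW.Aut.H511.Idem
import Fermat.Agent.S59.TW.H658.CuspG

/-!
# Row HARD, cell HECKE, leaf IA-ST: the point-level statement (helper509)

`iaStPt_h509 : IAMinZeroStatement → S58.S35Statement → H953.IAStPtStatement953`.

Assembly, for a pivot `q` and a support point `x` of `V / I_{Δ_Piv} V`:

* `V₁` := the localisation of `X_{K₁}(𝒪)`, `K₁ = KG p (ribetLevel p Smin Piv) qv` (`H511.idem`);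
* `U_q² = ⟨σ⟩` on `V₁` (helper201 `iaStepA`, from IA-MINZERO);
* `Ψ : heckeAlgebra N₁ 2 S₁ → End_𝒪 V₁`, `Ψ(T_ℓ) = ⟨ℓ⟩^h T_ℓ`, `Ψ(U_q)² = 1`
  (helper264 `exists_psiU_K1`);
* the relations of the `Ψ(T_ℓ)` hold at `x` (`iaStOcc_h509`);
* `x (tr ρ(φ)² - (1 + q)²) = 0` (helper53 `st_of_action_h53`, from S35).
-/

set_option autoImplicit false
set_option linter.style.haveILetI false

open Polynomial IsLocalRing CongruenceSubgroup
open scoped MatrixGroups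

namespace Fermat.Agent.S38.H509

open Fermat.Agent.S59.Arch Fermat.Agent.S59.TW.H959 Fermat.Agent.S59.TW
open Fermat.Agent.S59.TW.H653 Fermat.Agent.S59.TW.Aut Fermat.Agent.S38.IA
open Fermat.Agent.S38.IA.Hecke Fermat.Agent.S38.H953 Fermat.Agent.S38.H53
open CuspForm

/-! ## An element of `Γ₀(M₁)` with lower right entry `≡ q` at the Taylor–Wiles primes -/

section Sigma

variable (L : ℕ) {r : ℕ} (qv : Fin r → ℕ)

theorem exists_sigma_h509 (hL : L ≠ 0) (hinj : Function.Injective qv)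
    (hprime : ∀ j, (qv j).Prime) {q : ℕ} (hcop : ∀ j, Nat.Coprime q (qv j)) :
    ∃ σ : Gamma0 (gLevel L qv),
      ∀ j, ((((σ : SL(2, ℤ)) 1 1 : ℤ)) : ZMod (qv j)) = (q : ZMod (qv j)) := by
  haveI : NeZero (gLevel L qv) := neZero_gLevel_h509 L qv hL hprime
  obtain ⟨u, hu⟩ := gRed_surjective_h509 L qv hL hinj hprime
    (fun j => ZMod.unitOfCoprime q (hcop j))
  obtain ⟨σ, hσ⟩ := dUnit_surjective u
  refine ⟨σ, fun j => ?_⟩
  rw [← coe_gRed_dUnit_h509 L qv σ j, hσ, hu]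
  exact ZMod.coe_unitOfCoprime q (hcop j)

end Sigma

/-! ## The leaf -/

/-- **IA-ST, point level** (helper953's frozen statement), from IA-MINZERO and S35. -/
theorem iaStPt_h509 (hmz : IAMinZeroStatement) (hS35 : Fermat.Agent.S58.S35Statement) :
    IAStPtStatement953 := by
  intro p _ hp5 𝒪 _ _ _ _ _ _ ρbar Smin h hflat Piv hPiv hmin k pv hpv hpvPiv n r qv hq _ PQ α
    hα V e a hV _hhp hhq ha
  intro 𝒪' _ _ _ _ _ _ _ x hx hp' hsupp q hqP P hP φ hφ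
  classical
  -- the primes
  have hSp : ∀ x ∈ Smin, x.Prime := h.hSmin
  have hPp : ∀ x ∈ Piv, x.Prime := fun x hx => (hPiv x hx).1
  have hqv : ∀ j, (qv j).Prime ∧ qv j ∉ Smin ∪ Piv := fun j => ⟨(hq.2.1 j).1, (hq.2.1 j).2.1⟩
  have hqprime : q.Prime := hPp q hqP
  haveI : Fact q.Prime := ⟨hqprime⟩
  have hqSmin : q ∉ Smin := (hPiv q hqP).2.1
  have hqne : ∀ j, q ≠ qv j := fun j hj =>
    (hqv j).2 (Finset.mem_union_right _ (hj ▸ hqP))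
  have hcop : ∀ j, Nat.Coprime q (qv j) := fun j =>
    (Nat.coprime_primes hqprime (hqv j).1).mpr (hqne j)
  have hpq : q ≠ p := fun hqp => hqSmin (hqp ▸ h.hpSmin)
  have hpvmem : ∀ i, pv i ∈ Piv := fun i => by
    rw [← hpvPiv]
    exact Finset.mem_image_of_mem pv (Finset.mem_univ i)
  have hprime : ∀ s, (Sum.elim pv qv s).Prime := by
    rintro (i | j)
    · exact hPp (pv i) (hpvmem i)
    · exact (hqv j).1
  have hSigP : ∀ x ∈ Smin ∪ Piv ∪ Finset.univ.image qv, x.Prime := by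
    intro x hx
    rcases Finset.mem_union.mp hx with hx | hx
    · rcases Finset.mem_union.mp hx with hx | hx
      · exact hSp x hx
      · exact hPp x hx
    · obtain ⟨j, -, rfl⟩ := Finset.mem_image.mp hx
      exact (hqv j).1
  have hpSig : p ∈ Smin ∪ Piv ∪ Finset.univ.image qv :=
    Finset.mem_union_left _ (Finset.mem_union_left _ h.hpSmin)
  have hSminSig : Smin ⊆ Smin ∪ Piv ∪ Finset.univ.image qv := fun x hx =>
    Finset.mem_union_left _ (Finset.mem_union_left _ hx)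
  -- the levels
  have hL0 : ribetLevel p Smin Piv ≠ 0 :=
    Fermat.Agent.S38.H264.ribetLevel_ne_zero p Smin Piv hSp hPp
  have hM₁ne : gLevel (ribetLevel p Smin Piv) qv ≠ 0 :=
    (neZero_gLevel_h509 (ribetLevel p Smin Piv) qv hL0 (fun j => (hqv j).1)).ne
  haveI : NeZero (gLevel (ribetLevel p Smin Piv) qv) := ⟨hM₁ne⟩
  have hN₁ne : ribetLevel p Smin Piv * ∏ j, qv j ^ 2 ≠ 0 :=
    Nat.mul_ne_zero hL0 (Finset.prod_ne_zero_iff.mpr fun j _ =>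
      pow_ne_zero 2 (hqv j).1.ne_zero)
  haveI : NeZero (ribetLevel p Smin Piv * ∏ j, qv j ^ 2) := ⟨hN₁ne⟩
  have hM : MIA p Smin pv qv = gLevel (ribetLevel p Smin Piv) qv :=
    mia_eq_ribet_h509 p Smin Piv pv qv hpv hpvPiv
  have hM₁N₁ : gLevel (ribetLevel p Smin Piv) qv ∣ ribetLevel p Smin Piv * ∏ j, qv j ^ 2 := by
    unfold gLevel
    refine Nat.mul_dvd_mul_left _ (Finset.prod_dvd_prod_of_dvd _ _ fun j _ => ?_)
    exact Dvd.intro (qv j) (sq (qv j)).symm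
  have hqL : q ∣ ribetLevel p Smin Piv :=
    Fermat.Agent.S38.H264.dvd_ribetLevel_of_mem p Smin Piv hqP
  have hqM₁ : q ∣ gLevel (ribetLevel p Smin Piv) qv :=
    hqL.trans (self_dvd_gLevel _ qv)
  have hqN : q ∣ ribetLevel p Smin Piv * ∏ j, qv j ^ 2 := hqL.mul_right _
  have hqS : q ∉ (↑((Smin ∪ Piv ∪ Finset.univ.image qv).erase q) : Set ℕ) := fun hmem =>
    Finset.notMem_erase q _ (Finset.mem_coe.mp hmem)
  have hq2 : ¬ q ^ 2 ∣ ribetLevel p Smin Piv * ∏ j, qv j ^ 2 := by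
    intro hd
    have hnd : ¬ q ∣ gLevel (ribetLevel p Smin (Piv.erase q)) qv :=
      Fermat.Agent.S38.H201.pivot_not_dvd201 hSp
        (fun x hx => ⟨(hPiv x hx).1, (hPiv x hx).2.1⟩) hqv hqP
    rw [Fermat.Agent.S38.H201.ribetLevel_erase201 p Smin hqP] at hd
    have h1 : q * q ∣ q * (ribetLevel p Smin (Piv.erase q) * ∏ j, qv j ^ 2) := by
      have h2 : ribetLevel p Smin (Piv.erase q) * q * ∏ j, qv j ^ 2 =
          q * (ribetLevel p Smin (Piv.erase q) * ∏ j, qv j ^ 2) := by ring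
      rw [← h2, ← sq]
      exact hd
    have h3 : q ∣ ribetLevel p Smin (Piv.erase q) * ∏ j, qv j ^ 2 :=
      (Nat.mul_dvd_mul_iff_left hqprime.pos).mp h1
    rcases (Nat.Prime.dvd_mul hqprime).mp h3 with h4 | h4
    · exact hnd (h4.trans (self_dvd_gLevel _ qv))
    · obtain ⟨j, -, hj⟩ := (Prime.dvd_finsetProd_iff hqprime.prime _).mp h4
      exact hnd ((hqprime.dvd_of_dvd_pow hj).trans (dvd_gLevel _ qv j))
  have hlamS : p ∈ (Smin ∪ Piv ∪ Finset.univ.image qv).erase q :=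
    Finset.mem_erase.mpr ⟨fun hpq' => hpq hpq'.symm, hpSig⟩
  have hNS : ∀ r' : ℕ, r'.Prime → r' ∣ ribetLevel p Smin Piv * ∏ j, qv j ^ 2 → r' ≠ q →
      r' ∈ (Smin ∪ Piv ∪ Finset.univ.image qv).erase q := by
    intro r' hr' hd hne
    refine Finset.mem_erase.mpr ⟨hne, ?_⟩
    rcases (Nat.Prime.dvd_mul hr').mp hd with h1 | h1
    · exact Finset.mem_union_left _
        (Fermat.Agent.S38.H264.mem_of_dvd_ribetLevel p Smin Piv hSp hPp hr' h1)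
    · obtain ⟨j, -, hj⟩ := (Prime.dvd_finsetProd_iff hr'.prime _).mp h1
      rw [(Nat.prime_dvd_prime_iff_eq hr' (hqv j).1).mp (hr'.dvd_of_dvd_pow hj)]
      exact Finset.mem_union_right _ (Finset.mem_image_of_mem qv (Finset.mem_univ j))
  have hgood : ∀ ℓ : ℕ, ℓ.Prime → ¬ ℓ ∣ ribetLevel p Smin Piv * ∏ j, qv j ^ 2 →
      ℓ ∉ (↑((Smin ∪ Piv ∪ Finset.univ.image qv).erase q) : Set ℕ) →
      ¬ ℓ ∣ wilesLevel p .flat Smin (Smin ∪ Piv ∪ Finset.univ.image qv) ∧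
        ℓ ∉ (↑(Smin ∪ Piv ∪ Finset.univ.image qv) : Set ℕ) := by
    intro ℓ hℓ hℓN hℓS
    have hℓq : ℓ ≠ q := fun hℓq => hℓN (hℓq ▸ hqN)
    have hℓSig : ℓ ∉ (↑(Smin ∪ Piv ∪ Finset.univ.image qv) : Set ℕ) := fun hmem =>
      hℓS (Finset.mem_coe.mpr (Finset.mem_erase.mpr ⟨hℓq, Finset.mem_coe.mp hmem⟩))
    exact ⟨fun hd => hℓSig (Finset.mem_coe.mpr
      (Fermat.Agent.S59.TW.H658.mem_of_dvd_wilesLevel_gen hpSig hSminSig hSigP hℓ hd)),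
      hℓSig⟩
  -- the localisation at `K₁`
  have hT' : ∀ x ∈ TsetOf PQ, x.1.Prime ∧ ¬ x.1 ∣ gLevel (ribetLevel p Smin Piv) qv := by
    rintro x ⟨hℓ, -, hℓS, -⟩
    refine ⟨hℓ, fun hd => hℓS (Finset.mem_coe.mpr ?_)⟩
    rw [← hM] at hd
    exact mem_of_dvd_mia_h509 p Smin Piv pv qv hSp hprime hpvPiv hℓ hd
  have hU' : ∀ x ∈ UsetOf qv α, x.1.Prime ∧ x.1 ∣ gLevel (ribetLevel p Smin Piv) qv := by
    rintro x ⟨j, rfl⟩
    exact ⟨(hqv j).1, dvd_gLevel _ qv j⟩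
  obtain ⟨V₁, hV₁⟩ := Fermat.Agent.S59.TW.Aut.H511.idem 𝒪 (gLevel (ribetLevel p Smin Piv) qv)
    hM₁ne (KG p (ribetLevel p Smin Piv) qv) (isMid_KG p (ribetLevel p Smin Piv) qv)
    (TsetOf PQ) (UsetOf qv α) hT' hU'
  -- `Ψ`
  have hpar : ∀ v ∈ V₁, ModularCurve.Period.IsParabolicHom (KG p (ribetLevel p Smin Piv) qv) v :=
    Fermat.Agent.S59.TW.H658.isLocPart_parabolic_pkg h hpSig hSminSig hSigP PQ
      (isMid_KG p (ribetLevel p Smin Piv) qv) hV₁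
  have hstD : ∀ (u : (ZMod (gLevel (ribetLevel p Smin Piv) qv))ˣ), ∀ v ∈ V₁,
      diamondU (isMid_KG p (ribetLevel p Smin Piv) qv) u v ∈ V₁ :=
    fun u v hv => H31.locPart_diamondU_mem_h31 hV₁ u hv
  have hstT : ∀ (ℓ : ℕ) (hℓ : ℓ.Prime), ¬ ℓ ∣ ribetLevel p Smin Piv * ∏ j, qv j ^ 2 →
      ℓ ∉ (↑((Smin ∪ Piv ∪ Finset.univ.image qv).erase q) : Set ℕ) → ∀ v ∈ V₁,
      tOpTw (isMid_KG p (ribetLevel p Smin Piv) qv) 𝒪 e ℓ hℓ v ∈ V₁ := by
    intro ℓ hℓ hℓN _ v hv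
    haveI : Fact ℓ.Prime := ⟨hℓ⟩
    exact hstD _ _ (H31.locPart_TK_mem_h31 hV₁ (fun hd => hℓN (hd.trans hM₁N₁)) hv)
  have hstU : ∀ v ∈ V₁, UK (KG p (ribetLevel p Smin Piv) qv) q v ∈ V₁ :=
    fun v hv => H31.locPart_UK_mem_h31 hV₁ hqM₁ hv
  obtain ⟨σ, hσ⟩ := exists_sigma_h509 (ribetLevel p Smin Piv) qv hL0 hq.1
    (fun j => (hqv j).1) hcop
  have hUU : ∀ v ∈ V₁, ∃ s : Gamma0 (gLevel (ribetLevel p Smin Piv) qv),
      (∀ j : Fin r, ((qv j : ℕ) : ℤ) ∣ (s : SL(2, ℤ)) 1 1 - (q : ℤ)) ∧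
      UK (KG p (ribetLevel p Smin Piv) qv) q (UK (KG p (ribetLevel p Smin Piv) qv) q v) =
        diamond (isMid_KG p (ribetLevel p Smin Piv) qv) s v := by
    intro v hv
    refine ⟨σ, fun j => ?_, ?_⟩
    · have h1 : ((((σ : SL(2, ℤ)) 1 1 - (q : ℤ) : ℤ)) : ZMod (qv j)) = 0 := by
        push_cast
        rw [hσ j, sub_self]
      exact (ZMod.intCast_zmod_eq_zero_iff_dvd _ _).mp h1
    · exact Fermat.Agent.S38.H201.iaStepA hmz p hp5 𝒪 ρbar Smin h hflat Piv hPiv hmin n r qv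
        hq PQ α hα q hqP V₁ hV₁ σ hσ v hv
  obtain ⟨Ψ, hΨT, hΨUU⟩ := Fermat.Agent.S38.H264.exists_psiU_K1 p Smin Piv qv hSp hPp hq.1
    hqv hhq hqP hqN hqS 𝒪 V₁ hpar hstT hstU hstD hUU
  -- the occurrence of the point
  have hocc := iaStOcc_h509 p hp5 𝒪 ρbar Smin h Piv hPiv k pv hpv hpvPiv n r qv hq PQ α V e a
    hV ha V₁ hV₁ Ψ hΨT (x : PQ.T →+* 𝒪') hsupp hgood
  letI : Ring (Module.End 𝒪 V₁) := @Module.End.instRing 𝒪 ↥V₁ _ _ _
  exact st_of_action_h53 (E := Module.End 𝒪 V₁) hS35 PQ.H (x : PQ.T →+* 𝒪') hx p hp' hqprime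
    hpq hqN hq2 ((Smin ∪ Piv ∪ Finset.univ.image qv).erase q) hqS hlamS hNS hgood Ψ hΨUU hocc
    P hP φ hφ

end Fermat.Agent.S38.H509
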