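import Fermat.Agent.S38.H509.StOccGen
import Fermat.Agent.S38.H509.StAsm
import Fermat.Agent.S38.H201.StepA
import Fermat.Agent.S38.H264.PsiK1
import Fermat.Agent.S59.TW.Aut.H511.Idem
import Fermat.Agent.S59.TW.H658.CuspG

/-!
# IA-ST at a point, for all odd `p`, every type `t`, any base level (helper509)

Generic form of `iaStPt_h509` (`StAsm.lean`).  `P` any Hecke package (type `t`, set `Σ`),
`N₀` any base level, `pv`, `qv` two families of primes, `K = KG p N₀ (Sum.elim pv qv)`,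
`L = L' q` with `N₀ ∏ pv ∏ qv = L ∏ qv` (so `q` is a pivot, `K₁ = KG p L qv` is `Γ₀` at the pivots)
and `q ∤ L' ∏ qv`.

`st_of_pkg_h509` : if every localisation of `X_{K'}(𝒪)`, `K' = KG p L' qv`, at the eigen-system of
`P` vanishes (IA-MINZERO at the level without `q`), then for the localisation `V` of `X_K(𝒪)`,
every action `a` of `T_P` on `V` by the `⟨ℓ⟩^e T_ℓ` (`e` a half) and every support point `x` of
`V / pivRel V` (complete DVR of characteristic `0`, residue characteristic `p`):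
`x (tr ρ(φ)² - (1 + q)²) = 0` for every Frobenius `φ` at `q`.

Inputs: `cor_of_pkg_h509` / `occ_of_pkg_h509` (all odd `p`), helper201
`UK_UK_of_locZero_cast201`, helper264 `exists_psiU_KG`, helper53 `st_of_action_h53` (S35).
-/

set_option autoImplicit false
set_option linter.style.haveILetI false

open Polynomial IsLocalRing CongruenceSubgroup
open scoped MatrixGroups

namespace Fermat.Agent.S38.H509

open Fermat.Agent.S59.Arch Fermat.Agent.S59.TW.H959 Fermat.Agent.S59.TW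
open Fermat.Agent.S59.TW.H653 Fermat.Agent.S59.TW.Aut Fermat.Agent.S38.IA
open Fermat.Agent.S38.IA.Hecke Fermat.Agent.S38.H53
open CuspForm

section Asm

variable {p : ℕ} [hp : Fact p.Prime]
  {𝒪 : Type} [CommRing 𝒪] [IsDomain 𝒪] [IsDiscreteValuationRing 𝒪]
  [IsAdicComplete (maximalIdeal 𝒪) 𝒪] [Finite (ResidueField 𝒪)] [CharZero 𝒪]
  {ρbar : ResidualGaloisRep (ResidueField 𝒪)} {Smin : Finset ℕ}

/-- **IA-ST at a point, generic.** -/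
theorem st_of_pkg_h509 (hS35 : Fermat.Agent.S58.S35Statement)
    (h : ResidualHyp p 𝒪 ρbar Smin) {t : PType} {Sig : Finset ℕ}
    [NeZero (wilesLevel p t Smin Sig)] (P : HeckePkg p 𝒪 ρbar t Smin Sig)
    (hpSig : p ∈ Sig) (hSminSig : Smin ⊆ Sig) (hSigP : ∀ x ∈ Sig, x.Prime)
    (N₀ L L' : ℕ) (hN₀ : N₀ ≠ 0) {k r : ℕ} (pv : Fin k → ℕ) (qv : Fin r → ℕ)
    (hprime : ∀ s, (Sum.elim pv qv s).Prime) (hinj : Function.Injective (Sum.elim pv qv))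
    (hM : gLevel N₀ (Sum.elim pv qv) = gLevel L qv)
    (hlev : ∀ ℓ : ℕ, ℓ.Prime → ℓ ∣ gLevel N₀ (Sum.elim pv qv) → ℓ ∈ Sig)
    (hqvL : ∀ j, Nat.Coprime L (qv j))
    {q : ℕ} (hq : q.Prime) (hqp : q ≠ p) (hLq : L = L' * q) (hqL' : ¬ q ∣ gLevel L' qv)
    {Uset : Set (ℕ × 𝒪)} (hU : ∀ x ∈ Uset, x.1.Prime ∧ x.1 ∣ gLevel L' qv)
    (hzero : ∀ W : Submodule 𝒪 (Additive (KG p L' qv) →+ 𝒪),
      IsLocPart (isMid_KG p L' qv) (TsetOf P) Uset W → W = ⊥)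
    {e : ℕ} (he : IsHalf p qv e)
    (V : Submodule 𝒪 (Additive (KG p N₀ (Sum.elim pv qv)) →+ 𝒪))
    (hV : IsLocPart (isMid_KG p N₀ (Sum.elim pv qv)) (TsetOf P) Uset V)
    (a : P.T →ₐ[𝒪] Module.End 𝒪 V)
    (ha : ActsBy P V a (tOpTw (isMid_KG p N₀ (Sum.elim pv qv)) 𝒪 e))
    {𝒪' : Type} [CommRing 𝒪'] [IsDomain 𝒪'] [IsDiscreteValuationRing 𝒪']
    [IsAdicComplete (maximalIdeal 𝒪') 𝒪'] [Finite (ResidueField 𝒪')] [CharZero 𝒪']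
    (x : P.T →+* 𝒪') (hxl : IsLocalHom x) (hp' : (p : 𝒪') ∈ maximalIdeal 𝒪')
    (hx : ∀ s : P.T, (∀ v : V, ((a s v : V) : Additive (KG p N₀ (Sum.elim pv qv)) →+ 𝒪) ∈
      pivRel p N₀ pv qv V) → x s = 0)
    (Pl : ValuationSubring (AlgebraicClosure ℚ)) (hPl : Pl.LiesOverPrime q)
    (φ : AlgebraicClosure ℚ ≃ₐ[ℚ] AlgebraicClosure ℚ) (hφ : Pl.IsFrobeniusAt φ q) :
    x (P.H.ρ.trace φ ^ 2 - ((1 + q : ℕ) : P.T) ^ 2) = 0 := by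
  classical
  haveI : Fact q.Prime := ⟨hq⟩
  have hqvP : ∀ j, (qv j).Prime := fun j => hprime (Sum.inr j)
  have hqi : Function.Injective qv := fun j j' hjj' =>
    Sum.inr_injective (hinj (by simpa using hjj'))
  -- the levels
  have hMne : gLevel N₀ (Sum.elim pv qv) ≠ 0 :=
    (neZero_gLevel_h509 N₀ (Sum.elim pv qv) hN₀ hprime).ne
  have hM₁ne : gLevel L qv ≠ 0 := by
    rw [← hM]
    exact hMne
  haveI : NeZero (gLevel L qv) := ⟨hM₁ne⟩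
  have hL0 : L ≠ 0 := fun h0 => hM₁ne (by unfold gLevel; rw [h0, zero_mul])
  have hN'ne : gLevel L' qv ≠ 0 := fun h0 => hqL' (h0 ▸ dvd_zero q)
  have hMq : gLevel L qv = gLevel L' qv * q := by
    rw [hLq]
    exact Fermat.Agent.S38.H201.gLevel_mul201 qv L' q
  have hKK : KG p L qv = Fermat.Agent.S59.TW.H201.Kq (gLevel L' qv) q (KG p L' qv) := by
    rw [hLq]
    exact Fermat.Agent.S38.H201.KG_mul_eq_Kq201 p qv L' q
  have hqL : q ∣ L := ⟨L', by rw [hLq, mul_comm]⟩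
  have hqM₁ : q ∣ gLevel L qv := hqL.trans (self_dvd_gLevel _ qv)
  have hN₁ne : L * ∏ j, qv j ^ 2 ≠ 0 :=
    Nat.mul_ne_zero hL0 (Finset.prod_ne_zero_iff.mpr fun j _ =>
      pow_ne_zero 2 (hqvP j).ne_zero)
  haveI : NeZero (L * ∏ j, qv j ^ 2) := ⟨hN₁ne⟩
  have hM₁N₁ : gLevel L qv ∣ L * ∏ j, qv j ^ 2 := by
    unfold gLevel
    refine Nat.mul_dvd_mul_left _ (Finset.prod_dvd_prod_of_dvd _ _ fun j _ => ?_)
    exact Dvd.intro (qv j) (sq (qv j)).symm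
  have hprimeN₁ : ∀ ℓ : ℕ, ℓ.Prime → ℓ ∣ L * ∏ j, qv j ^ 2 → ℓ ∣ gLevel L qv := by
    intro ℓ hℓ hd
    rcases (Nat.Prime.dvd_mul hℓ).mp hd with h1 | h1
    · exact h1.trans (self_dvd_gLevel _ qv)
    · obtain ⟨j, -, hj⟩ := (Prime.dvd_finsetProd_iff hℓ.prime _).mp h1
      exact (hℓ.dvd_of_dvd_pow hj).trans (dvd_gLevel _ qv j)
  have hSigN₁ : ∀ ℓ : ℕ, ℓ.Prime → ℓ ∣ L * ∏ j, qv j ^ 2 → ℓ ∈ Sig := by
    intro ℓ hℓ hd
    refine hlev ℓ hℓ ?_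
    rw [hM]
    exact hprimeN₁ ℓ hℓ hd
  have hqN : q ∣ L * ∏ j, qv j ^ 2 := hqL.mul_right _
  have hqS : q ∉ (↑(Sig.erase q) : Set ℕ) := fun hmem =>
    Finset.notMem_erase q _ (Finset.mem_coe.mp hmem)
  have hq2 : ¬ q ^ 2 ∣ L * ∏ j, qv j ^ 2 := by
    intro hd
    rw [hLq] at hd
    have h1 : q * q ∣ q * (L' * ∏ j, qv j ^ 2) := by
      have h2 : L' * q * ∏ j, qv j ^ 2 = q * (L' * ∏ j, qv j ^ 2) := by ring
      rw [← h2, ← sq]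
      exact hd
    have h3 : q ∣ L' * ∏ j, qv j ^ 2 := (Nat.mul_dvd_mul_iff_left hq.pos).mp h1
    rcases (Nat.Prime.dvd_mul hq).mp h3 with h4 | h4
    · exact hqL' (h4.trans (self_dvd_gLevel _ qv))
    · obtain ⟨j, -, hj⟩ := (Prime.dvd_finsetProd_iff hq.prime _).mp h4
      exact hqL' ((hq.dvd_of_dvd_pow hj).trans (dvd_gLevel _ qv j))
  have hlamS : p ∈ Sig.erase q := Finset.mem_erase.mpr ⟨fun hpq => hqp hpq.symm, hpSig⟩
  have hNS : ∀ r' : ℕ, r'.Prime → r' ∣ L * ∏ j, qv j ^ 2 → r' ≠ q → r' ∈ Sig.erase q :=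
    fun r' hr' hd hne => Finset.mem_erase.mpr ⟨hne, hSigN₁ r' hr' hd⟩
  have hSq : ∀ ℓ : ℕ, ℓ.Prime → ℓ ∣ L * ∏ j, qv j ^ 2 → ℓ ∉ (↑(Sig.erase q) : Set ℕ) →
      ℓ = q := by
    intro ℓ hℓ hd hℓS
    by_contra hne
    exact hℓS (Finset.mem_coe.mpr (hNS ℓ hℓ hd hne))
  have hgood : ∀ ℓ : ℕ, ℓ.Prime → ¬ ℓ ∣ L * ∏ j, qv j ^ 2 →
      ℓ ∉ (↑(Sig.erase q) : Set ℕ) →
      ¬ ℓ ∣ wilesLevel p t Smin Sig ∧ ℓ ∉ (↑Sig : Set ℕ) := by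
    intro ℓ hℓ hℓN hℓS
    have hℓq : ℓ ≠ q := fun hℓq => hℓN (hℓq ▸ hqN)
    have hℓSig : ℓ ∉ (↑Sig : Set ℕ) := fun hmem =>
      hℓS (Finset.mem_coe.mpr (Finset.mem_erase.mpr ⟨hℓq, Finset.mem_coe.mp hmem⟩))
    exact ⟨fun hd => hℓSig (Finset.mem_coe.mpr
      (Fermat.Agent.S59.TW.H658.mem_of_dvd_wilesLevel_gen hpSig hSminSig hSigP hℓ hd)),
      hℓSig⟩
  -- the eigen-systems
  have hT₁ : ∀ x ∈ TsetOf P, x.1.Prime ∧ ¬ x.1 ∣ gLevel L qv := by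
    rintro x ⟨hℓ, -, hℓS, -⟩
    refine ⟨hℓ, fun hd => hℓS (Finset.mem_coe.mpr (hlev _ hℓ ?_))⟩
    rw [hM]
    exact hd
  have hTq : ∀ x ∈ TsetOf P, x.1.Prime ∧ ¬ x.1 ∣ gLevel L' qv * q := by
    intro x hx
    rw [← hMq]
    exact hT₁ x hx
  have hU₁ : ∀ x ∈ Uset, x.1.Prime ∧ x.1 ∣ gLevel L qv := by
    intro x hx
    refine ⟨(hU x hx).1, (hU x hx).2.trans ?_⟩
    rw [hMq]
    exact Dvd.intro q rfl
  have hU₀ : ∀ x ∈ Uset, x.1.Prime ∧ x.1 ∣ gLevel N₀ (Sum.elim pv qv) := by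
    intro x hx
    rw [hM]
    exact hU₁ x hx
  -- the localisation at `K₁`
  obtain ⟨V₁, hV₁⟩ := Fermat.Agent.S59.TW.Aut.H511.idem 𝒪 (gLevel L qv) hM₁ne (KG p L qv)
    (isMid_KG p L qv) (TsetOf P) Uset hT₁ hU₁
  have hpar : ∀ v ∈ V₁, ModularCurve.Period.IsParabolicHom (KG p L qv) v :=
    Fermat.Agent.S59.TW.H658.isLocPart_parabolic_pkg h hpSig hSminSig hSigP P
      (isMid_KG p L qv) hV₁
  have hstD : ∀ (u : (ZMod (gLevel L qv))ˣ), ∀ v ∈ V₁,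
      diamondU (isMid_KG p L qv) u v ∈ V₁ :=
    fun u v hv => H31.locPart_diamondU_mem_h31 hV₁ u hv
  have hstT : ∀ (ℓ : ℕ) (hℓ : ℓ.Prime), ¬ ℓ ∣ L * ∏ j, qv j ^ 2 →
      ℓ ∉ (↑(Sig.erase q) : Set ℕ) → ∀ v ∈ V₁,
      tOpTw (isMid_KG p L qv) 𝒪 e ℓ hℓ v ∈ V₁ := by
    intro ℓ hℓ hℓN _ v hv
    haveI : Fact ℓ.Prime := ⟨hℓ⟩
    exact hstD _ _ (H31.locPart_TK_mem_h31 hV₁ (fun hd => hℓN (hd.trans hM₁N₁)) hv)
  have hstU : ∀ v ∈ V₁, UK (KG p L qv) q v ∈ V₁ :=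
    fun v hv => H31.locPart_UK_mem_h31 hV₁ hqM₁ hv
  -- `U_q² = ⟨σ⟩`
  obtain ⟨σ, hσ⟩ : ∃ σ : Gamma0 (gLevel L qv),
      ((((σ : SL(2, ℤ)) 1 1 : ℤ)) : ZMod (gLevel L' qv)) = (q : ZMod (gLevel L' qv)) := by
    have hdvd : gLevel L' qv ∣ gLevel L qv := ⟨q, hMq⟩
    have hcop : Nat.Coprime q (gLevel L' qv) := hq.coprime_iff_not_dvd.mpr hqL'
    obtain ⟨u, hu⟩ := ZMod.unitsMap_surjective hdvd (ZMod.unitOfCoprime q hcop)
    obtain ⟨σ, hσ⟩ := dUnit_surjective (M := gLevel L qv) u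
    refine ⟨σ, ?_⟩
    have h1 := congrArg (fun v : (ZMod (gLevel L' qv))ˣ => (v : ZMod (gLevel L' qv))) hu
    simp only [ZMod.coe_unitOfCoprime] at h1
    rw [← h1, ← hσ, ZMod.unitsMap_def, Units.coe_map, coe_dUnit]
    simp only [MonoidHom.coe_coe, map_intCast]
  have hUU : ∀ v ∈ V₁, ∃ s : Gamma0 (gLevel L qv),
      (∀ j : Fin r, ((qv j : ℕ) : ℤ) ∣ (s : SL(2, ℤ)) 1 1 - (q : ℤ)) ∧
      UK (KG p L qv) q (UK (KG p L qv) q v) = diamond (isMid_KG p L qv) s v := by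
    intro v hv
    refine ⟨σ, fun j => ?_, ?_⟩
    · have h1 : ((((σ : SL(2, ℤ)) 1 1 - (q : ℤ) : ℤ)) : ZMod (gLevel L' qv)) = 0 := by
        push_cast
        rw [hσ, sub_self]
      have h2 := (ZMod.intCast_zmod_eq_zero_iff_dvd _ _).mp h1
      exact (Int.natCast_dvd_natCast.mpr (dvd_gLevel L' qv j)).trans h2
    · exact Fermat.Agent.S38.H201.UK_UK_of_locZero_cast201 hN'ne hqL' (isMid_KG p L' qv)
        (isMid_KG p L qv) hMq hKK hV₁ (Set.Subset.refl _) (Set.Subset.refl _) hTq hU hzero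
        σ hσ v hv
  obtain ⟨Ψ, hΨT, hΨUU⟩ := Fermat.Agent.S38.H264.exists_psiU_KG p L qv hL0 hqi
    (fun j => ⟨hqvP j, hqvL j⟩) he (dvd_refl _) (↑(Sig.erase q) : Set ℕ) hqN hqS hqL hSq
    𝒪 V₁ hpar hstT hstU hstD hUU
  -- the occurrence of the point
  have hocc := occ_of_pkg_h509 h P N₀ L hN₀ pv qv hprime hinj hM hlev hU₀ V hV e a ha V₁ hV₁
    Ψ hΨT x hx hgood
  letI : Ring (Module.End 𝒪 V₁) := @Module.End.instRing 𝒪 ↥V₁ _ _ _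
  exact st_of_action_h53 (E := Module.End 𝒪 V₁) hS35 P.H x hxl p hp' hq hqp hqN hq2
    (Sig.erase q) hqS hlamS hNS hgood Ψ hΨUU hocc Pl hPl φ hφ

end Asm

end Fermat.Agent.S38.H509
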