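import Fermat.Agent.S38.H509.StLevel
import Fermat.Agent.S59.TW.Aut.H762.PCor

/-!
# Row HARD, cell HECKE, leaf IA-ST, Betti step (helper509): the partial corestriction

Generic family `qq : ι → ℕ`, `K = KG p N₀ qq = Γ_{ker gChi}(M)`, `ker gChi ≤ H'`,
`K' = GammaH M H'`.

* `pcor_ker_G_h509` : for `V ⊆ X_K(𝒪)` diamond-stable with an `𝒪`-basis `⟨g^e⟩ b_i` and `y ∈ V`:
  `coresK (K ≤ K') y = 0 ↔ y ∈` the additive closure of the `⟨u⟩ y' - y'`, `u ∈ H'`, `y' ∈ V`
  (helper762's `pcor_ker_N0_h762` for an arbitrary finite index type);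
* `coresK_TK_cast_h509`, `coresK_UK_cast_h509`, `coresK_tOpTw_cast_h509` : `cor : X_K → X_{K₁}`
  commutes with the Hecke operators, for ANY presentation `K₁ = GammaH M H'` of level
  `M₁ = M` (the equalities are hypotheses).
-/

set_option autoImplicit false

open CongruenceSubgroup
open scoped MatrixGroups

namespace Fermat.Agent.S38.H509

open Fermat.Agent.S59.TW.H653 Fermat.Agent.S59.MFree Fermat.Agent.S38.IA.Hecke
open Fermat.Agent.S59.TW.Aut Fermat.Agent.S59.TW.Aut.H762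

/-! ## The characters -/

section Chi

variable (p N₀ : ℕ) {ι : Type} [Fintype ι] (qq : ι → ℕ)

theorem gChi_surjective_h509 (hN₀ : N₀ ≠ 0) (hinj : Function.Injective qq)
    (hprime : ∀ s, (qq s).Prime) : Function.Surjective (gChi p N₀ qq) := by
  intro d
  obtain ⟨a, rfl⟩ := QuotientGroup.mk_surjective d
  obtain ⟨u, rfl⟩ := gRed_surjective_h509 N₀ qq hN₀ hinj hprime a
  exact ⟨u, rfl⟩

theorem gChi_gLift_h509 (hN₀ : N₀ ≠ 0) (hinj : Function.Injective qq)
    (hprime : ∀ s, (qq s).Prime) (a : ∀ s : ι, (ZMod (qq s))ˣ) :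
    gChi p N₀ qq (gLift N₀ qq a) = QuotientGroup.mk a := by
  rw [gChi_apply_h509, gRed_gLift N₀ qq (gRed_surjective_h509 N₀ qq hN₀ hinj hprime a)]

end Chi

/-! ## The kernel of the partial corestriction -/

section Main

variable {p : ℕ} [hp : Fact p.Prime] (N₀ : ℕ) (hN₀ : N₀ ≠ 0) {ι : Type} [Fintype ι]
  [DecidableEq ι] (qq : ι → ℕ) (hprime : ∀ s, (qq s).Prime) (hinj : Function.Injective qq)
  (𝒪 : Type) [CommRing 𝒪]
  (H' : Subgroup (ZMod (gLevel N₀ qq))ˣ) (hH' : (gChi p N₀ qq).ker ≤ H')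

include hp hN₀ hprime hinj hH' in
/-- **PCOR**, generic index type. -/
theorem pcor_ker_G_h509
    (V : Submodule 𝒪 (Additive (KG p N₀ qq) →+ 𝒪))
    (hVdia : ∀ (u : (ZMod (gLevel N₀ qq))ˣ), ∀ x ∈ V, diamondU (isMid_KG p N₀ qq) u x ∈ V)
    (g : ∀ s : ι, (ZMod (qq s))ˣ) (hg : ∀ s, orderOf (g s) = qq s - 1)
    {d : ℕ} (b : Fin d → Additive (KG p N₀ qq) →+ 𝒪) (hbV : ∀ i, b i ∈ V)
    (hb : ∀ y ∈ V, ∃! c : Fin d → (∀ s : ι, Fin (p ^ padicValNat p (qq s - 1))) → 𝒪,
        y = ∑ i, ∑ e, c i e •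
          diamondU (isMid_KG p N₀ qq) (gLift N₀ qq (fun s => g s ^ (e s : ℕ))) (b i))
    {y : Additive (KG p N₀ qq) →+ 𝒪} (hy : y ∈ V) :
    coresK (GammaH_mono hH' : KG p N₀ qq ≤ GammaH (gLevel N₀ qq) H') y = 0 ↔
      y ∈ AddSubgroup.closure {z : Additive (KG p N₀ qq) →+ 𝒪 |
        ∃ u ∈ H', ∃ y' ∈ V, z = diamondU (isMid_KG p N₀ qq) u y' - y'} := by
  classical
  have hM : NeZero (gLevel N₀ qq) := neZero_gLevel_h509 N₀ qq hN₀ hprime
  have hχ := gChi_surjective_h509 p N₀ qq hN₀ hinj hprime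
  have hfin : Finite (GDelta p qq) := finite_gDelta_h509 p qq hprime
  let _ : Fintype (GDelta p qq) := Fintype.ofFinite _
  let _ : Fintype ↥(H'.map (gChi p N₀ qq)) := Fintype.ofFinite _
  have hKeq : KG p N₀ qq = kerSub (kappaSub_h762 (G := GDelta p qq) (gChi p N₀ qq) H') :=
    (kerSub_kappaSub_h762 (G := GDelta p qq) (gChi p N₀ qq) H' hH').symm
  let lift : GDelta p qq → (ZMod (gLevel N₀ qq))ˣ := Function.surjInv hχ
  have hlift : ∀ d, gChi p N₀ qq (lift d) = d := Function.surjInv_eq hχ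
  have hliftH : ∀ d : ↥(H'.map (gChi p N₀ qq)), lift (d : GDelta p qq) ∈ H' := by
    rintro ⟨d, u, hu, rfl⟩
    have h1 : (lift (gChi p N₀ qq u)) * u⁻¹ ∈ (gChi p N₀ qq).ker := by
      rw [MonoidHom.mem_ker, map_mul, hlift, map_inv, mul_inv_cancel]
    have h2 := H'.mul_mem (hH' h1) hu
    rwa [inv_mul_cancel_right] at h2
  constructor
  · intro h
    -- the action of `Δ`
    let δ : GDelta p qq → (Additive (KG p N₀ qq) →+ 𝒪) →ₗ[𝒪] (Additive (KG p N₀ qq) →+ 𝒪) :=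
      fun d =>
        { toFun := fun x => diamondU (isMid_KG p N₀ qq) (lift d) x
          map_add' := fun _ _ => rfl
          map_smul' := fun _ _ => rfl }
    have hδapp : ∀ d x, δ d x = diamondU (isMid_KG p N₀ qq) (lift d) x := fun _ _ => rfl
    have hδ : ∀ g h x, δ g (δ h x) = δ (g * h) x := by
      intro g h x
      rw [hδapp, hδapp, hδapp, ← diamondU_mul]
      apply diamondU_eq_of_gChi_h509
      rw [map_mul, hlift, hlift, hlift]
    have hb' : ∀ y ∈ V, ∃! c : Fin d → GDelta p qq → 𝒪,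
        y = ∑ i, ∑ g', c i g' • δ g' (b i) := by
      intro y hy
      have h1 := hb y hy
      have h2 : ∀ (e : ∀ s : ι, Fin (p ^ padicValNat p (qq s - 1))) (i : Fin d),
          diamondU (isMid_KG p N₀ qq) (gLift N₀ qq (fun s => g s ^ (e s : ℕ))) (b i) =
          δ (gEps p qq g e) (b i) := by
        intro e i
        rw [hδapp]
        apply diamondU_eq_of_gChi_h509
        rw [hlift, gChi_gLift_h509 p N₀ qq hN₀ hinj hprime]
        rfl
      simp only [h2] at h1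
      exact basis_transport_h762 δ (gEps p qq g) (gEps_bijective_h509 p qq hprime g hg) b h1
    have hN : ∑ d' : ↥(H'.map (gChi p N₀ qq)), δ (d' : GDelta p qq) y = 0 := by
      have h3 := resK_coresK_h762 (G := GDelta p qq) (gChi p N₀ qq) H' (KG p N₀ qq) hKeq
        (GammaH_mono hH') (isMid_KG p N₀ qq) (fun d' => lift (d' : GDelta p qq))
        (fun d' => ⟨hliftH d', hlift _⟩) y
      have e0 : resK (GammaH_mono hH' : KG p N₀ qq ≤ GammaH (gLevel N₀ qq) H')
          (coresK (GammaH_mono hH' : KG p N₀ qq ≤ GammaH (gLevel N₀ qq) H') y) = 0 :=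
        (congrArg (resK (GammaH_mono hH' : KG p N₀ qq ≤ GammaH (gLevel N₀ qq) H')) h).trans rfl
      exact h3.symm.trans e0
    have h4 := ker_norm_sub_h762 (fun a b => mul_comm a b) δ hδ V (fun g x hx => hVdia _ x hx)
      b hbV hb' (H'.map (gChi p N₀ qq)) hy hN
    refine AddSubgroup.closure_mono ?_ h4
    rintro z ⟨d', y', hy', rfl⟩
    exact ⟨lift (d' : GDelta p qq), hliftH d', y', hy', rfl⟩
  · intro h
    clear hy
    induction h using AddSubgroup.closure_induction with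
    | mem z hz =>
      obtain ⟨u, hu, y', -, rfl⟩ := hz
      have h5 := coresK_diamondU_h762 (G := GDelta p qq) (gChi p N₀ qq) H' (KG p N₀ qq) hKeq
        (GammaH_mono hH') (isMid_KG p N₀ qq) u hu y'
      have h6 : coresK (GammaH_mono hH' : KG p N₀ qq ≤ GammaH (gLevel N₀ qq) H')
          (diamondU (isMid_KG p N₀ qq) u y' - y') =
          coresK (GammaH_mono hH') (diamondU (isMid_KG p N₀ qq) u y') -
            coresK (GammaH_mono hH') y' :=
        map_sub (coresKLin_h762 (GammaH_mono hH' : KG p N₀ qq ≤ GammaH (gLevel N₀ qq) H') 𝒪)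
          _ _
      exact h6.trans (sub_eq_zero.mpr h5)
    | zero => exact map_zero (coresKLin_h762 (GammaH_mono hH') 𝒪)
    | add a b _ _ ha hb =>
      have h7 : coresK (GammaH_mono hH' : KG p N₀ qq ≤ GammaH (gLevel N₀ qq) H') (a + b) =
          coresK (GammaH_mono hH') a + coresK (GammaH_mono hH') b :=
        map_add (coresKLin_h762 (GammaH_mono hH' :
          KG p N₀ qq ≤ GammaH (gLevel N₀ qq) H') 𝒪) a b
      exact h7.trans ((congrArg₂ (· + ·) ha hb).trans (add_zero 0))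
    | neg a _ ha =>
      have h8 : coresK (GammaH_mono hH' : KG p N₀ qq ≤ GammaH (gLevel N₀ qq) H') (-a) =
          -coresK (GammaH_mono hH') a :=
        map_neg (coresKLin_h762 (GammaH_mono hH' :
          KG p N₀ qq ≤ GammaH (gLevel N₀ qq) H') 𝒪) a
      exact h8.trans ((congrArg Neg.neg ha).trans neg_zero)

end Main

/-! ## Change of presentation -/

section Cast

variable {M : ℕ} [NeZero M] {G : Type} [Group G] [Finite G] (χ : (ZMod M)ˣ →* G)
  (H' : Subgroup (ZMod M)ˣ) (hH' : χ.ker ≤ H')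
  {M₁ : ℕ} {K₁ : Subgroup SL(2, ℤ)}

omit [NeZero M] [Finite G] in
include hH' in
/-- The kernel of `cor : X_K → X_{K₁}` does not depend on the presentation of `K₁`. -/
theorem coresK_eq_zero_cast_h509 (hS : K₁ = GammaH M H') (h : GammaH M χ.ker ≤ K₁)
    {A : Type} [AddCommGroup A] (x : Additive (GammaH M χ.ker) →+ A) :
    coresK h x = 0 ↔ coresK (GammaH_mono hH' : GammaH M χ.ker ≤ GammaH M H') x = 0 := by
  subst hS
  exact Iff.rfl

include hH' in
/-- `cor` commutes with `T_ℓ`. -/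
theorem coresK_TK_cast_h509 (hM : M = M₁) (hS : K₁ = GammaH M H') (h : GammaH M χ.ker ≤ K₁)
    {A : Type} [AddCommGroup A] {ℓ : ℕ} [Fact ℓ.Prime] (hℓ : ¬ ℓ ∣ M)
    (x : Additive (GammaH M χ.ker) →+ A) :
    coresK h (TK M (GammaH M χ.ker) ℓ x) = TK M₁ K₁ ℓ (coresK h x) := by
  subst hM
  subst hS
  exact coresK_TK_gen_h762 χ H' hH' hℓ x

include hH' in
/-- `cor` commutes with `U_q`. -/
theorem coresK_UK_cast_h509 (hS : K₁ = GammaH M H') (h : GammaH M χ.ker ≤ K₁)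
    {A : Type} [AddCommGroup A] {q : ℕ} [Fact q.Prime] (hq : q ∣ M)
    (x : Additive (GammaH M χ.ker) →+ A) :
    coresK h (UK (GammaH M χ.ker) q x) = UK K₁ q (coresK h x) := by
  subst hS
  exact coresK_UK_gen_h762 χ H' hH' hq x

omit [NeZero M] [Finite G] in
/-- `cor` commutes with the diamond operators. -/
theorem coresK_diamondU_cast_h509 (hM : M = M₁) (hK₁ : IsMid M₁ K₁)
    (h : GammaH M χ.ker ≤ K₁) {A : Type} [AddCommGroup A] (n : ℕ) (e : ℕ)
    (x : Additive (GammaH M χ.ker) →+ A) :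
    coresK h (diamondU (isMid_GammaH M χ.ker) (uOf M n ^ e) x) =
      diamondU hK₁ (uOf M₁ n ^ e) (coresK h x) := by
  subst hM
  exact Fermat.Agent.S41.H924.transferAlong_comp_aut (Subgroup.inclusion h)
    (conjK (isMid_GammaH M χ.ker) _) (conjK hK₁ _) (fun _ => Subtype.ext rfl) x

include hH' in
/-- `cor` commutes with the twisted Hecke operators `⟨ℓ⟩^e T_ℓ`. -/
theorem coresK_tOpTw_cast_h509 (hM : M = M₁) (hS : K₁ = GammaH M H') (hK₁ : IsMid M₁ K₁)
    (h : GammaH M χ.ker ≤ K₁) {𝒪 : Type} [CommRing 𝒪] (e : ℕ) (ℓ : ℕ) (hℓ : ℓ.Prime)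
    (hℓM : ¬ ℓ ∣ M) (x : Additive (GammaH M χ.ker) →+ 𝒪) :
    coresK h (tOpTw (isMid_GammaH M χ.ker) 𝒪 e ℓ hℓ x) = tOpTw hK₁ 𝒪 e ℓ hℓ (coresK h x) := by
  haveI : Fact ℓ.Prime := ⟨hℓ⟩
  unfold tOpTw tOp
  rw [coresK_diamondU_cast_h509 χ hM hK₁ h ℓ e]
  congr 1
  exact coresK_TK_cast_h509 χ H' hH' hM hS h hℓM x

end Cast

end Fermat.Agent.S38.H509
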