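import Fermat.Agent.S38.H509.StNat
import Fermat.Agent.S38.H593.StCorSpec

/-!
# Row HARD, cell HECKE, leaf IA-ST, Betti step (helper509): `H593.IAStCorStatement`

`iaStCor593_h509 : H593.IAStCorStatement` VERBATIM (the COR input of helper593's final assembly
`iaStPt_h593`), with `m = 1` (exact kernel): `iaStCor_h509` (`StNat.lean`).
-/

set_option autoImplicit false

open Polynomial IsLocalRing CongruenceSubgroup
open scoped MatrixGroups

namespace Fermat.Agent.S38.H509

open Fermat.Agent.S59.Arch Fermat.Agent.S59.TW.H959 Fermat.Agent.S59.TW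
open Fermat.Agent.S59.TW.H653 Fermat.Agent.S59.TW.Aut Fermat.Agent.S38.IA
open Fermat.Agent.S38.IA.Hecke

/-- **IA-ST-COR** (helper593's statement, verbatim). -/
theorem iaStCor593_h509 : Fermat.Agent.S38.H593.IAStCorStatement := by
  intro p _ hp5 𝒪 _ _ _ _ _ _ ρbar Smin h _hflat Piv hPiv k pv hpv hpvPiv n r qv hq _ PQ α _hα
    V e hV _ _
  classical
  obtain ⟨cor, hmem, heq, hker⟩ := iaStCor_h509 p hp5 𝒪 ρbar Smin h Piv hPiv k pv hpv hpvPiv
    n r qv hq PQ α V hV e
  have hpvmem : ∀ i, pv i ∈ Piv := fun i => by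
    rw [← hpvPiv]
    exact Finset.mem_image_of_mem pv (Finset.mem_univ i)
  have hprime : ∀ s, (Sum.elim pv qv s).Prime := by
    rintro (i | j)
    · exact (hPiv (pv i) (hpvmem i)).1
    · exact (hq.2.1 j).1
  refine ⟨cor, 1, one_ne_zero, hmem, ?_, ?_⟩
  · intro ℓ hℓ _ hℓS v _
    refine heq ℓ hℓ (fun hd => hℓS (Finset.mem_coe.mpr
      (mem_of_dvd_mia_h509 p Smin Piv pv qv h.hSmin hprime hpvPiv hℓ hd))) v
  · intro v hv h0
    rw [one_smul]
    exact (hker v hv).mp h0

end Fermat.Agent.S38.H509
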