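import Fermat.Agent.S38.H509.StCor
import Fermat.Agent.S38.H509.IAFree
import Fermat.Agent.S59.H105.NatLoc

/-!
# Row HARD, cell HECKE, leaf IA-ST, Betti step (helper509): the corestriction to `K₁`

`K = KIA = Γ₀(N_min) ∩ Γ_H(Piv ∪ Q)` (level `M = N_min ∏ pv ∏ qv`),
`K₁ = KG p (ribetLevel p Smin Piv) qv = Γ₀(L) ∩ Γ_H(Q)` (level `L ∏ qv = M`), `K ≤ K₁`.

`iaStCor_h509` : for `V` the localisation of `X_K(𝒪)`, `cor = coresK : X_K(𝒪) → X_{K₁}(𝒪)` is
`𝒪`-linear and

* maps `V` into `V₁`, for every localisation `V₁` of `X_{K₁}(𝒪)` at the same generators;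
* commutes with the operators `⟨ℓ⟩^e T_ℓ`, `ℓ ∤ M`;
* for `v ∈ V`: `cor v = 0 ↔ v ∈ chiRelIA 1 V = I_{Δ_Piv} V`.
-/

set_option autoImplicit false
set_option linter.style.haveILetI false

open Polynomial IsLocalRing CongruenceSubgroup
open scoped MatrixGroups

namespace Fermat.Agent.S38.H509

open Fermat.Agent.S59.Arch Fermat.Agent.S59.TW.H959 Fermat.Agent.S59.TW
open Fermat.Agent.S59.TW.H653 Fermat.Agent.S59.TW.Aut Fermat.Agent.S38.IA
open Fermat.Agent.S38.IA.Hecke Fermat.Agent.S59.TW.Aut.H762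

/-! ## The group `K₁` -/

section Group

variable (p N₀ L : ℕ) {k r : ℕ} (pv : Fin k → ℕ) (qv : Fin r → ℕ)

/-- `K₁ = Γ₀(L) ∩ Γ_H(Q)` is `Γ_{pivFree}(M)`. -/
theorem kg_eq_gammaH_h509 (hM : gLevel N₀ (Sum.elim pv qv) = gLevel L qv) :
    KG p L qv = GammaH (gLevel N₀ (Sum.elim pv qv)) (pivFree p N₀ pv qv) := by
  have key : ∀ (g : SL(2, ℤ)) (h1 : g ∈ Gamma0 (gLevel N₀ (Sum.elim pv qv)))
      (h2 : g ∈ Gamma0 (gLevel L qv)) (j : Fin r),
      redQ N₀ pv qv j (dUnit _ ⟨g, h1⟩) = gRed L qv (dUnit _ ⟨g, h2⟩) j := by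
    intro g h1 h2 j
    apply Units.ext
    rw [redQ_apply, coe_gRed_dUnit_h509, coe_gRed_dUnit_h509]
    rfl
  ext g
  rw [mem_GammaH]
  constructor
  · intro hg
    obtain ⟨h2, h3⟩ := mem_GammaH.mp hg
    have h1 : g ∈ Gamma0 (gLevel N₀ (Sum.elim pv qv)) := (gamma0_cast_h509 hM).mpr h2
    refine ⟨h1, ?_⟩
    rw [MonoidHom.mem_ker, gChi_apply_h509, QuotientGroup.eq_one_iff,
      mem_gPowSub_iff_h509] at h3
    rw [mem_pivFree]
    intro j
    rw [key g h1 h2 j]
    exact h3 j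
  · rintro ⟨h1, h3⟩
    have h2 : g ∈ Gamma0 (gLevel L qv) := (gamma0_cast_h509 hM).mp h1
    refine mem_GammaH.mpr ⟨h2, ?_⟩
    rw [MonoidHom.mem_ker, gChi_apply_h509, QuotientGroup.eq_one_iff, mem_gPowSub_iff_h509]
    intro j
    rw [← key g h1 h2 j]
    exact (mem_pivFree p N₀ pv qv).mp h3 j

end Group

/-! ## The primes of the level -/

section Primes

variable (p : ℕ) (Smin Piv : Finset ℕ) {k r : ℕ} (pv : Fin k → ℕ) (qv : Fin r → ℕ)

/-- A prime dividing `M` lies in `Smin ∪ Piv ∪ Q`. -/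
theorem mem_of_dvd_mia_h509 (hSmin : ∀ q ∈ Smin, q.Prime)
    (hprime : ∀ s, (Sum.elim pv qv s).Prime) (hpvPiv : Finset.univ.image pv = Piv)
    {ℓ : ℕ} (hℓ : ℓ.Prime) (h : ℓ ∣ MIA p Smin pv qv) :
    ℓ ∈ Smin ∪ Piv ∪ Finset.univ.image qv := by
  have h0 : MIA p Smin pv qv = (∏ x ∈ Smin.erase p, x) * ∏ s, Sum.elim pv qv s := by
    show gLevel (wilesLevel p .flat Smin Smin) (Sum.elim pv qv) = _
    unfold gLevel
    rw [wilesLevel_min_h509]
  rw [h0] at h
  rcases (Nat.Prime.dvd_mul hℓ).mp h with h1 | h1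
  · obtain ⟨x, hx, hℓx⟩ := (Prime.dvd_finsetProd_iff hℓ.prime _).mp h1
    have hxS := Finset.mem_of_mem_erase hx
    rw [(Nat.prime_dvd_prime_iff_eq hℓ (hSmin x hxS)).mp hℓx]
    exact Finset.mem_union_left _ (Finset.mem_union_left _ hxS)
  · obtain ⟨s, -, hℓs⟩ := (Prime.dvd_finsetProd_iff hℓ.prime _).mp h1
    rw [(Nat.prime_dvd_prime_iff_eq hℓ (hprime s)).mp hℓs]
    rcases s with i | j
    · refine Finset.mem_union_left _ (Finset.mem_union_right _ ?_)
      rw [← hpvPiv]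
      exact Finset.mem_image_of_mem pv (Finset.mem_univ i)
    · exact Finset.mem_union_right _ (Finset.mem_image_of_mem qv (Finset.mem_univ j))

end Primes

/-! ## The corestriction -/

section Cor

/-- **ST-BETTI, (COR).** -/
theorem iaStCor_h509 (p : ℕ) [Fact p.Prime] (hp5 : 5 ≤ p)
    (𝒪 : Type) [CommRing 𝒪] [IsDomain 𝒪] [IsDiscreteValuationRing 𝒪]
    [IsAdicComplete (maximalIdeal 𝒪) 𝒪] [Finite (ResidueField 𝒪)] [CharZero 𝒪]
    (ρbar : ResidualGaloisRep (ResidueField 𝒪)) (Smin : Finset ℕ)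
    (h : ResidualHyp p 𝒪 ρbar Smin)
    (Piv : Finset ℕ) (hPiv : IsPivotSet p ρbar Smin Piv)
    (k : ℕ) (pv : Fin k → ℕ) (hpv : Function.Injective pv)
    (hpvPiv : Finset.univ.image pv = Piv)
    (n r : ℕ) (qv : Fin r → ℕ) (hq : IsTWSet p ρbar (Smin ∪ Piv) n qv)
    [NeZero (wilesLevel p .flat Smin (Smin ∪ Piv ∪ Finset.univ.image qv))]
    (PQ : HeckePkg p 𝒪 ρbar .flat Smin (Smin ∪ Piv ∪ Finset.univ.image qv))
    (α : Fin r → 𝒪)
    (V : Submodule 𝒪 (XIA p Smin pv qv 𝒪)) (hV : IsIAPart PQ α V) (e : ℕ) :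
    ∃ cor : XIA p Smin pv qv 𝒪 →ₗ[𝒪] (Additive (KG p (ribetLevel p Smin Piv) qv) →+ 𝒪),
      (∀ V₁ : Submodule 𝒪 (Additive (KG p (ribetLevel p Smin Piv) qv) →+ 𝒪),
        IsLocPart (isMid_KG p (ribetLevel p Smin Piv) qv) (TsetOf PQ) (UsetOf qv α) V₁ →
        ∀ v ∈ V, cor v ∈ V₁) ∧
      (∀ (ℓ : ℕ) (hℓ : ℓ.Prime), ¬ ℓ ∣ MIA p Smin pv qv → ∀ v : XIA p Smin pv qv 𝒪,
        cor (tOpTw (isMid_KIA p Smin pv qv) 𝒪 e ℓ hℓ v) =
          tOpTw (isMid_KG p (ribetLevel p Smin Piv) qv) 𝒪 e ℓ hℓ (cor v)) ∧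
      (∀ v ∈ V, cor v = 0 ↔ v ∈ chiRelIA p Smin pv qv 1 V) := by
  classical
  have hN₀ : wilesLevel p .flat Smin Smin ≠ 0 :=
    wilesLevel_flat_self_ne_zero_h509 p Smin h.hSmin
  have hpvmem : ∀ i, pv i ∈ Piv := fun i => by
    rw [← hpvPiv]
    exact Finset.mem_image_of_mem pv (Finset.mem_univ i)
  have hprime : ∀ s, (Sum.elim pv qv s).Prime := by
    rintro (i | j)
    · exact (hPiv (pv i) (hpvmem i)).1
    · exact (hq.2.1 j).1
  have hinj : Function.Injective (Sum.elim pv qv) := by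
    rintro (i | j) (i' | j') hij
    · exact congrArg Sum.inl (hpv hij)
    · exfalso
      have h1 : qv j' ∈ Smin ∪ Piv := by
        have h2 : pv i = qv j' := hij
        rw [← h2]
        exact Finset.mem_union_right _ (hpvmem i)
      exact (hq.2.1 j').2.1 h1
    · exfalso
      have h1 : qv j ∈ Smin ∪ Piv := by
        have h2 : qv j = pv i' := hij
        rw [h2]
        exact Finset.mem_union_right _ (hpvmem i')
      exact (hq.2.1 j).2.1 h1
    · exact congrArg Sum.inr (hq.1 hij)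
  have hMne : MIA p Smin pv qv ≠ 0 :=
    (neZero_gLevel_h509 (wilesLevel p .flat Smin Smin) (Sum.elim pv qv) hN₀ hprime).ne
  haveI hMNe : NeZero (gLevel (wilesLevel p .flat Smin Smin) (Sum.elim pv qv)) := ⟨hMne⟩
  haveI hfin : Finite (GDelta p (Sum.elim pv qv)) := finite_gDelta_h509 p _ hprime
  have hp𝒪 : ¬ IsUnit (p : 𝒪) := (mem_maximalIdeal _).mp h.hp𝒪
  have hM : gLevel (wilesLevel p .flat Smin Smin) (Sum.elim pv qv) =
      gLevel (ribetLevel p Smin Piv) qv := mia_eq_ribet_h509 p Smin Piv pv qv hpv hpvPiv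
  have hS : KG p (ribetLevel p Smin Piv) qv =
      GammaH (gLevel (wilesLevel p .flat Smin Smin) (Sum.elim pv qv))
        (pivFree p (wilesLevel p .flat Smin Smin) pv qv) :=
    kg_eq_gammaH_h509 p (wilesLevel p .flat Smin Smin) (ribetLevel p Smin Piv) pv qv hM
  have hH' : (gChi p (wilesLevel p .flat Smin Smin) (Sum.elim pv qv)).ker ≤
      pivFree p (wilesLevel p .flat Smin Smin) pv qv :=
    ker_gChi_le_pivFree p (wilesLevel p .flat Smin Smin) pv qv
  have hle : KIA p Smin pv qv ≤ KG p (ribetLevel p Smin Piv) qv := by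
    rw [hS]
    exact GammaH_mono hH'
  have hVdia : ∀ (u : (ZMod (gLevel (wilesLevel p .flat Smin Smin) (Sum.elim pv qv)))ˣ),
      ∀ x ∈ V, diamondU (isMid_KG p (wilesLevel p .flat Smin Smin) (Sum.elim pv qv)) u x ∈ V :=
    fun u x hx => H31.locPart_diamondU_mem_h31 hV u hx
  refine ⟨coresKLin_h762 hle 𝒪, ?_, ?_, ?_⟩
  · -- NAT
    intro V₁ hV₁
    have hT : ∀ x ∈ TsetOf PQ, x.1.Prime ∧ ¬ x.1 ∣ MIA p Smin pv qv := by
      rintro x ⟨hℓ, -, hℓS, -⟩
      exact ⟨hℓ, fun hd => hℓS (Finset.mem_coe.mpr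
        (mem_of_dvd_mia_h509 p Smin Piv pv qv h.hSmin hprime hpvPiv hℓ hd))⟩
    have hU : ∀ x ∈ UsetOf qv α, x.1.Prime ∧ x.1 ∣ MIA p Smin pv qv := by
      rintro x ⟨j, rfl⟩
      exact ⟨(hq.2.1 j).1, dvd_gLevel _ (Sum.elim pv qv) (Sum.inr j)⟩
    have hT' : ∀ x ∈ TsetOf PQ, x.1.Prime ∧ ¬ x.1 ∣ gLevel (ribetLevel p Smin Piv) qv := by
      intro x hx
      rw [← hM]
      exact hT x hx
    have hU' : ∀ x ∈ UsetOf qv α, x.1.Prime ∧ x.1 ∣ gLevel (ribetLevel p Smin Piv) qv := by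
      intro x hx
      rw [← hM]
      exact hU x hx
    have hM'ne : gLevel (ribetLevel p Smin Piv) qv ≠ 0 := by
      rw [← hM]
      exact hMne
    refine Fermat.Agent.S59.H105.nat_of_isLocPart hM'ne (isMid_KIA p Smin pv qv)
      (isMid_KG p (ribetLevel p Smin Piv) qv) hV hV₁ subset_rfl subset_rfl hT hU hT' hU'
      (coresKLin_h762 hle 𝒪) ?_
    rintro (i | i) x
    · haveI : Fact i.1.1.Prime := ⟨(hT i.1 i.2).1⟩
      show coresK hle (TK _ _ i.1.1 x - i.1.2 • x) =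
        TK _ _ i.1.1 (coresK hle x) - i.1.2 • coresK hle x
      have e1 := coresK_TK_cast_h509 (gChi p (wilesLevel p .flat Smin Smin) (Sum.elim pv qv))
        (pivFree p (wilesLevel p .flat Smin Smin) pv qv) hH' hM hS hle (hT i.1 i.2).2 x
      have e2 : coresK hle (TK (MIA p Smin pv qv) (KIA p Smin pv qv) i.1.1 x - i.1.2 • x) =
          coresK hle (TK (MIA p Smin pv qv) (KIA p Smin pv qv) i.1.1 x) -
            i.1.2 • coresK hle x :=
        ((coresKLin_h762 hle 𝒪).map_sub _ _).trans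
          (congrArg _ ((coresKLin_h762 hle 𝒪).map_smul _ _))
      exact e2.trans (congrArg (fun z => z - i.1.2 • coresK hle x) e1)
    · haveI : Fact i.1.1.Prime := ⟨(hU i.1 i.2).1⟩
      show coresK hle (UK _ i.1.1 x - i.1.2 • x) =
        UK _ i.1.1 (coresK hle x) - i.1.2 • coresK hle x
      have e1 := coresK_UK_cast_h509 (gChi p (wilesLevel p .flat Smin Smin) (Sum.elim pv qv))
        (pivFree p (wilesLevel p .flat Smin Smin) pv qv) hH' hS hle (hU i.1 i.2).2 x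
      have e2 : coresK hle (UK (KIA p Smin pv qv) i.1.1 x - i.1.2 • x) =
          coresK hle (UK (KIA p Smin pv qv) i.1.1 x) - i.1.2 • coresK hle x :=
        ((coresKLin_h762 hle 𝒪).map_sub _ _).trans
          (congrArg _ ((coresKLin_h762 hle 𝒪).map_smul _ _))
      exact e2.trans (congrArg (fun z => z - i.1.2 • coresK hle x) e1)
  · -- equivariance
    intro ℓ hℓ hℓM v
    exact coresK_tOpTw_cast_h509 (gChi p (wilesLevel p .flat Smin Smin) (Sum.elim pv qv))
      (pivFree p (wilesLevel p .flat Smin Smin) pv qv) hH' hM hS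
      (isMid_KG p (ribetLevel p Smin Piv) qv) hle e ℓ hℓ hℓM v
  · -- the kernel
    obtain ⟨ℓ, hℓF, c, -, hℓM, -, -, -, -, -, hsurj, hinj'⟩ :=
      H31.exists_auxPrime_h31 h PQ hMne (hK := isMid_KIA p Smin pv qv)
        (Tset := TsetOf PQ) (Uset := UsetOf qv α) (le_refl _) hV 1 Nat.one_pos ∅
    obtain ⟨d, b, hb⟩ := free_of_locPart_h509 p (wilesLevel p .flat Smin Smin)
      (Sum.elim pv qv) 𝒪 hp5 hp𝒪 hN₀ hprime hinj hV ℓ hℓM hsurj hinj'
    obtain ⟨g, hg⟩ := exists_primitive_roots_h509 (Sum.elim pv qv) hprime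
    have hker : ∀ {y : XIA p Smin pv qv 𝒪}, y ∈ V →
        (coresK (GammaH_mono hH' : KG p (wilesLevel p .flat Smin Smin) (Sum.elim pv qv) ≤
            GammaH (gLevel (wilesLevel p .flat Smin Smin) (Sum.elim pv qv))
              (pivFree p (wilesLevel p .flat Smin Smin) pv qv)) y = 0 ↔
          y ∈ AddSubgroup.closure
            {z : Additive (KG p (wilesLevel p .flat Smin Smin) (Sum.elim pv qv)) →+ 𝒪 |
              ∃ u ∈ pivFree p (wilesLevel p .flat Smin Smin) pv qv, ∃ y' ∈ V,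
                z = diamondU (isMid_KG p (wilesLevel p .flat Smin Smin) (Sum.elim pv qv))
                  u y' - y'}) :=
      fun {y} hy => pcor_ker_G_h509 (p := p) (wilesLevel p .flat Smin Smin) hN₀
        (Sum.elim pv qv) hprime hinj 𝒪 (pivFree p (wilesLevel p .flat Smin Smin) pv qv) hH' V
        hVdia g hg (fun i => ((b i : V) : XIA p Smin pv qv 𝒪)) (fun i => (b i).2)
        (fun y hy => hb g hg ⟨y, hy⟩) hy
    have hsurjRed := gRed_surjective_h509 (wilesLevel p .flat Smin Smin) (Sum.elim pv qv)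
      hN₀ hinj hprime
    have hcast : ∀ y : XIA p Smin pv qv 𝒪, coresKLin_h762 hle 𝒪 y = 0 ↔
        coresK (GammaH_mono hH' : KG p (wilesLevel p .flat Smin Smin) (Sum.elim pv qv) ≤
            GammaH (gLevel (wilesLevel p .flat Smin Smin) (Sum.elim pv qv))
              (pivFree p (wilesLevel p .flat Smin Smin) pv qv)) y = 0 :=
      fun y => coresK_eq_zero_cast_h509
        (gChi p (wilesLevel p .flat Smin Smin) (Sum.elim pv qv))
        (pivFree p (wilesLevel p .flat Smin Smin) pv qv) hH' hS hle y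
    intro v hv
    constructor
    · intro h0
      have h1 := (hker hv).mp ((hcast v).mp h0)
      refine AddSubgroup.closure_induction
        (p := fun z _ => z ∈ chiRelIA p Smin pv qv 1 V) ?_ ?_ ?_ ?_ h1
      · rintro z ⟨u, hu, y', hy', rfl⟩
        refine Submodule.subset_span
          ⟨fun i => gRed (wilesLevel p .flat Smin Smin) (Sum.elim pv qv) u (Sum.inl i),
            y', hy', ?_⟩
        rw [MonoidHom.one_apply, one_smul]
        congr 1
        exact diamondU_eq_of_gChi_h509 p (wilesLevel p .flat Smin Smin) (Sum.elim pv qv)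
          (gChi_eq_of_mem_pivFree p (wilesLevel p .flat Smin Smin) pv qv hu _
            (gRed_gLift _ _ (hsurjRed _))) y'
      · exact zero_mem _
      · intro a b _ _ ha hb
        exact add_mem ha hb
      · intro a _ ha
        exact neg_mem ha
    · intro h0
      refine Submodule.span_induction
        (p := fun z _ => coresKLin_h762 hle 𝒪 z = 0) ?_ ?_ ?_ ?_ h0
      · rintro z ⟨a₁, y, hy, rfl⟩
        rw [MonoidHom.one_apply, one_smul]
        have hu : gLift (wilesLevel p .flat Smin Smin) (Sum.elim pv qv) (pairU a₁ 1) ∈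
            pivFree p (wilesLevel p .flat Smin Smin) pv qv :=
          mem_pivFree_of_gRed p (wilesLevel p .flat Smin Smin) pv qv a₁
            (gRed_gLift _ _ (hsurjRed _))
        have hzV : diaIA p Smin pv qv 𝒪 a₁ 1 y - y ∈ V :=
          sub_mem (hVdia _ y hy) hy
        exact (hcast _).mpr ((hker hzV).mpr
          (AddSubgroup.subset_closure ⟨_, hu, y, hy, rfl⟩))
      · exact map_zero _
      · intro a b _ _ ha hb
        rw [map_add, ha, hb, add_zero]
      · intro c a _ ha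
        rw [map_smul, ha, smul_zero]

end Cor

end Fermat.Agent.S38.H509
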