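import Fermat.Agent.S38.H509.StCor
import Fermat.Agent.S38.H509.StNat
import Fermat.Agent.S38.H509.IAFreeOdd
import Fermat.Agent.S59.H105.NatLoc

/-!
# IA-ST, Betti step, for all odd `p`, every type `t`, any base level (helper509)

Generic form of `iaStCor_h509` (`StNat.lean`): `P` any Hecke package (any `t`, any `Σ`),
`N₀ ≠ 0` any base level, `pv`, `qv` two families of primes, `K = KG p N₀ (Sum.elim pv qv)`
(`Γ_H` at `pv` and `qv`), `L` with `N₀ ∏ pv ∏ qv = L ∏ qv`, `K₁ = KG p L qv` (`Γ₀` at `pv`,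
`Γ_H` at `qv`), `V` the localisation of `X_K(𝒪)` at `(TsetOf P, Uset)`.

`cor_of_pkg_h509` : `cor = coresK : X_K(𝒪) → X_{K₁}(𝒪)` is `𝒪`-linear and

* maps `V` into every localisation `V₁` of `X_{K₁}(𝒪)` at `(TsetOf P, Uset)`;
* commutes with `⟨ℓ⟩^e T_ℓ` (`ℓ ∤ M`) and with `U_q` (`q ∣ M`);
* for `v ∈ V`: `cor v = 0 ↔ v ∈ pivRel V`, the `𝒪`-span of the `⟨a₁, 1⟩ y - y`, `y ∈ V`
  (`= chiRelIA 1 V` at `N₀ = wilesLevel p .flat Smin Smin`).

No hypothesis on `p` beyond `ResidualHyp` (`p ≠ 2`): the basis of `V` is `free_of_pkg_h509`.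
-/

set_option autoImplicit false
set_option linter.style.haveILetI false

open Polynomial IsLocalRing CongruenceSubgroup
open scoped MatrixGroups

namespace Fermat.Agent.S38.H509

open Fermat.Agent.S59.Arch Fermat.Agent.S59.TW.H959 Fermat.Agent.S59.TW
open Fermat.Agent.S59.TW.H653 Fermat.Agent.S59.TW.Aut Fermat.Agent.S38.IA
open Fermat.Agent.S38.IA.Hecke Fermat.Agent.S59.TW.Aut.H762

section Rel

variable (p N₀ : ℕ) {k r : ℕ} (pv : Fin k → ℕ) (qv : Fin r → ℕ)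

/-- The relations of `Δ_Piv` in `V`: the `𝒪`-span of the `⟨a₁, 1⟩ y - y`, `y ∈ V`, `a₁` at the
family `pv`. -/
noncomputable def pivRel {𝒪 : Type} [CommRing 𝒪]
    (V : Submodule 𝒪 (Additive (KG p N₀ (Sum.elim pv qv)) →+ 𝒪)) :
    Submodule 𝒪 (Additive (KG p N₀ (Sum.elim pv qv)) →+ 𝒪) :=
  Submodule.span 𝒪 {w | ∃ (a₁ : ∀ i : Fin k, (ZMod (pv i))ˣ)
    (y : Additive (KG p N₀ (Sum.elim pv qv)) →+ 𝒪),
    y ∈ V ∧ w = diamondU (isMid_KG p N₀ (Sum.elim pv qv))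
      (gLift N₀ (Sum.elim pv qv) (pairU a₁ 1)) y - y}

end Rel

section Flat

variable (p : ℕ) (Smin : Finset ℕ) {k r : ℕ} (pv : Fin k → ℕ) (qv : Fin r → ℕ)

/-- At the base level of Ihara avoidance `pivRel V = chiRelIA 1 V`. -/
theorem pivRel_eq_chiRelIA {𝒪 : Type} [CommRing 𝒪] (V : Submodule 𝒪 (XIA p Smin pv qv 𝒪)) :
    pivRel p (wilesLevel p .flat Smin Smin) pv qv V = chiRelIA p Smin pv qv 1 V := by
  unfold pivRel chiRelIA
  congr 1
  ext w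
  constructor
  · rintro ⟨a₁, y, hy, rfl⟩
    refine ⟨a₁, y, hy, ?_⟩
    rw [MonoidHom.one_apply, one_smul]
    rfl
  · rintro ⟨a₁, y, hy, rfl⟩
    refine ⟨a₁, y, hy, ?_⟩
    rw [MonoidHom.one_apply, one_smul]
    rfl

end Flat

section Cor

variable {p : ℕ} [hp : Fact p.Prime]
  {𝒪 : Type} [CommRing 𝒪] [IsDomain 𝒪] [IsDiscreteValuationRing 𝒪]
  [IsAdicComplete (maximalIdeal 𝒪) 𝒪] [Finite (ResidueField 𝒪)] [CharZero 𝒪]
  {ρbar : ResidualGaloisRep (ResidueField 𝒪)} {Smin : Finset ℕ}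

/-- **ST-BETTI, (COR), generic.** -/
theorem cor_of_pkg_h509 (h : ResidualHyp p 𝒪 ρbar Smin) {t : PType} {Sig : Finset ℕ}
    [NeZero (wilesLevel p t Smin Sig)] (P : HeckePkg p 𝒪 ρbar t Smin Sig)
    (N₀ L : ℕ) (hN₀ : N₀ ≠ 0) {k r : ℕ} (pv : Fin k → ℕ) (qv : Fin r → ℕ)
    (hprime : ∀ s, (Sum.elim pv qv s).Prime) (hinj : Function.Injective (Sum.elim pv qv))
    (hM : gLevel N₀ (Sum.elim pv qv) = gLevel L qv)
    (hlev : ∀ ℓ : ℕ, ℓ.Prime → ℓ ∣ gLevel N₀ (Sum.elim pv qv) → ℓ ∈ Sig)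
    {Uset : Set (ℕ × 𝒪)}
    (hU : ∀ x ∈ Uset, x.1.Prime ∧ x.1 ∣ gLevel N₀ (Sum.elim pv qv))
    (V : Submodule 𝒪 (Additive (KG p N₀ (Sum.elim pv qv)) →+ 𝒪))
    (hV : IsLocPart (isMid_KG p N₀ (Sum.elim pv qv)) (TsetOf P) Uset V) (e : ℕ) :
    ∃ cor : (Additive (KG p N₀ (Sum.elim pv qv)) →+ 𝒪) →ₗ[𝒪] (Additive (KG p L qv) →+ 𝒪),
      (∀ V₁ : Submodule 𝒪 (Additive (KG p L qv) →+ 𝒪),
        IsLocPart (isMid_KG p L qv) (TsetOf P) Uset V₁ → ∀ v ∈ V, cor v ∈ V₁) ∧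
      (∀ (ℓ : ℕ) (hℓ : ℓ.Prime), ¬ ℓ ∣ gLevel N₀ (Sum.elim pv qv) →
        ∀ v : Additive (KG p N₀ (Sum.elim pv qv)) →+ 𝒪,
        cor (tOpTw (isMid_KG p N₀ (Sum.elim pv qv)) 𝒪 e ℓ hℓ v) =
          tOpTw (isMid_KG p L qv) 𝒪 e ℓ hℓ (cor v)) ∧
      (∀ (q : ℕ) [Fact q.Prime], q ∣ gLevel N₀ (Sum.elim pv qv) →
        ∀ v : Additive (KG p N₀ (Sum.elim pv qv)) →+ 𝒪,
        cor (UK (KG p N₀ (Sum.elim pv qv)) q v) = UK (KG p L qv) q (cor v)) ∧
      (∀ v ∈ V, cor v = 0 ↔ v ∈ pivRel p N₀ pv qv V) := by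
  classical
  have hMne : gLevel N₀ (Sum.elim pv qv) ≠ 0 :=
    (neZero_gLevel_h509 N₀ (Sum.elim pv qv) hN₀ hprime).ne
  haveI hMNe : NeZero (gLevel N₀ (Sum.elim pv qv)) := ⟨hMne⟩
  haveI hfin : Finite (GDelta p (Sum.elim pv qv)) := finite_gDelta_h509 p _ hprime
  have hS : KG p L qv = GammaH (gLevel N₀ (Sum.elim pv qv)) (pivFree p N₀ pv qv) :=
    kg_eq_gammaH_h509 p N₀ L pv qv hM
  have hH' : (gChi p N₀ (Sum.elim pv qv)).ker ≤ pivFree p N₀ pv qv :=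
    ker_gChi_le_pivFree p N₀ pv qv
  have hle : KG p N₀ (Sum.elim pv qv) ≤ KG p L qv := by
    rw [hS]
    exact GammaH_mono hH'
  have hVdia : ∀ (u : (ZMod (gLevel N₀ (Sum.elim pv qv)))ˣ),
      ∀ x ∈ V, diamondU (isMid_KG p N₀ (Sum.elim pv qv)) u x ∈ V :=
    fun u x hx => H31.locPart_diamondU_mem_h31 hV u hx
  refine ⟨coresKLin_h762 hle 𝒪, ?_, ?_, ?_, ?_⟩
  · -- NAT
    intro V₁ hV₁
    have hT : ∀ x ∈ TsetOf P, x.1.Prime ∧ ¬ x.1 ∣ gLevel N₀ (Sum.elim pv qv) := by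
      rintro x ⟨hℓ, -, hℓS, -⟩
      exact ⟨hℓ, fun hd => hℓS (Finset.mem_coe.mpr (hlev _ hℓ hd))⟩
    have hT' : ∀ x ∈ TsetOf P, x.1.Prime ∧ ¬ x.1 ∣ gLevel L qv := by
      intro x hx
      rw [← hM]
      exact hT x hx
    have hU' : ∀ x ∈ Uset, x.1.Prime ∧ x.1 ∣ gLevel L qv := by
      intro x hx
      rw [← hM]
      exact hU x hx
    have hM'ne : gLevel L qv ≠ 0 := by
      rw [← hM]
      exact hMne
    refine Fermat.Agent.S59.H105.nat_of_isLocPart hM'ne (isMid_KG p N₀ (Sum.elim pv qv))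
      (isMid_KG p L qv) hV hV₁ subset_rfl subset_rfl hT hU hT' hU'
      (coresKLin_h762 hle 𝒪) ?_
    rintro (i | i) x
    · haveI : Fact i.1.1.Prime := ⟨(hT i.1 i.2).1⟩
      show coresK hle (TK _ _ i.1.1 x - i.1.2 • x) =
        TK _ _ i.1.1 (coresK hle x) - i.1.2 • coresK hle x
      have e1 := coresK_TK_cast_h509 (gChi p N₀ (Sum.elim pv qv))
        (pivFree p N₀ pv qv) hH' hM hS hle (hT i.1 i.2).2 x
      have e2 : coresK hle (TK (gLevel N₀ (Sum.elim pv qv)) (KG p N₀ (Sum.elim pv qv)) i.1.1 x -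
            i.1.2 • x) =
          coresK hle (TK (gLevel N₀ (Sum.elim pv qv)) (KG p N₀ (Sum.elim pv qv)) i.1.1 x) -
            i.1.2 • coresK hle x :=
        ((coresKLin_h762 hle 𝒪).map_sub _ _).trans
          (congrArg _ ((coresKLin_h762 hle 𝒪).map_smul _ _))
      exact e2.trans (congrArg (fun z => z - i.1.2 • coresK hle x) e1)
    · haveI : Fact i.1.1.Prime := ⟨(hU i.1 i.2).1⟩
      show coresK hle (UK _ i.1.1 x - i.1.2 • x) =
        UK _ i.1.1 (coresK hle x) - i.1.2 • coresK hle x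
      have e1 := coresK_UK_cast_h509 (gChi p N₀ (Sum.elim pv qv))
        (pivFree p N₀ pv qv) hH' hS hle (hU i.1 i.2).2 x
      have e2 : coresK hle (UK (KG p N₀ (Sum.elim pv qv)) i.1.1 x - i.1.2 • x) =
          coresK hle (UK (KG p N₀ (Sum.elim pv qv)) i.1.1 x) - i.1.2 • coresK hle x :=
        ((coresKLin_h762 hle 𝒪).map_sub _ _).trans
          (congrArg _ ((coresKLin_h762 hle 𝒪).map_smul _ _))
      exact e2.trans (congrArg (fun z => z - i.1.2 • coresK hle x) e1)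
  · -- equivariance, `T`
    intro ℓ hℓ hℓM v
    exact coresK_tOpTw_cast_h509 (gChi p N₀ (Sum.elim pv qv))
      (pivFree p N₀ pv qv) hH' hM hS (isMid_KG p L qv) hle e ℓ hℓ hℓM v
  · -- equivariance, `U`
    intro q _ hqM v
    exact coresK_UK_cast_h509 (gChi p N₀ (Sum.elim pv qv))
      (pivFree p N₀ pv qv) hH' hS hle hqM v
  · -- the kernel
    obtain ⟨d, b, hb⟩ := free_of_pkg_h509 h P N₀ hN₀ (Sum.elim pv qv) hprime hinj hV
    obtain ⟨g, hg⟩ := exists_primitive_roots_h509 (Sum.elim pv qv) hprime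
    have hker : ∀ {y : Additive (KG p N₀ (Sum.elim pv qv)) →+ 𝒪}, y ∈ V →
        (coresK (GammaH_mono hH' : KG p N₀ (Sum.elim pv qv) ≤
            GammaH (gLevel N₀ (Sum.elim pv qv)) (pivFree p N₀ pv qv)) y = 0 ↔
          y ∈ AddSubgroup.closure
            {z : Additive (KG p N₀ (Sum.elim pv qv)) →+ 𝒪 |
              ∃ u ∈ pivFree p N₀ pv qv, ∃ y' ∈ V,
                z = diamondU (isMid_KG p N₀ (Sum.elim pv qv)) u y' - y'}) :=
      fun {y} hy => pcor_ker_G_h509 (p := p) N₀ hN₀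
        (Sum.elim pv qv) hprime hinj 𝒪 (pivFree p N₀ pv qv) hH' V
        hVdia g hg (fun i => ((b i : V) : Additive (KG p N₀ (Sum.elim pv qv)) →+ 𝒪))
        (fun i => (b i).2) (fun y hy => hb g hg ⟨y, hy⟩) hy
    have hsurjRed := gRed_surjective_h509 N₀ (Sum.elim pv qv) hN₀ hinj hprime
    have hcast : ∀ y : Additive (KG p N₀ (Sum.elim pv qv)) →+ 𝒪,
        coresKLin_h762 hle 𝒪 y = 0 ↔
        coresK (GammaH_mono hH' : KG p N₀ (Sum.elim pv qv) ≤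
            GammaH (gLevel N₀ (Sum.elim pv qv)) (pivFree p N₀ pv qv)) y = 0 :=
      fun y => coresK_eq_zero_cast_h509 (gChi p N₀ (Sum.elim pv qv))
        (pivFree p N₀ pv qv) hH' hS hle y
    intro v hv
    constructor
    · intro h0
      have h1 := (hker hv).mp ((hcast v).mp h0)
      refine AddSubgroup.closure_induction
        (p := fun z _ => z ∈ pivRel p N₀ pv qv V) ?_ ?_ ?_ ?_ h1
      · rintro z ⟨u, hu, y', hy', rfl⟩
        refine Submodule.subset_span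
          ⟨fun i => gRed N₀ (Sum.elim pv qv) u (Sum.inl i), y', hy', ?_⟩
        congr 1
        exact diamondU_eq_of_gChi_h509 p N₀ (Sum.elim pv qv)
          (gChi_eq_of_mem_pivFree p N₀ pv qv hu _ (gRed_gLift _ _ (hsurjRed _))) y'
      · exact zero_mem _
      · intro a b _ _ ha hb
        exact add_mem ha hb
      · intro a _ ha
        exact neg_mem ha
    · intro h0
      refine Submodule.span_induction
        (p := fun z _ => coresKLin_h762 hle 𝒪 z = 0) ?_ ?_ ?_ ?_ h0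
      · rintro z ⟨a₁, y, hy, rfl⟩
        have hu : gLift N₀ (Sum.elim pv qv) (pairU a₁ 1) ∈ pivFree p N₀ pv qv :=
          mem_pivFree_of_gRed p N₀ pv qv a₁ (gRed_gLift _ _ (hsurjRed _))
        have hzV : diamondU (isMid_KG p N₀ (Sum.elim pv qv))
            (gLift N₀ (Sum.elim pv qv) (pairU a₁ 1)) y - y ∈ V :=
          sub_mem (hVdia _ y hy) hy
        exact (hcast _).mpr ((hker hzV).mpr
          (AddSubgroup.subset_closure ⟨_, hu, y, hy, rfl⟩))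
      · exact map_zero _
      · intro a b _ _ ha hb
        rw [map_add, ha, hb, add_zero]
      · intro c a _ ha
        rw [map_smul, ha, smul_zero]

end Cor

end Fermat.Agent.S38.H509
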