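import Fermat.Agent.S38.IA.Hecke.Spec4
import Fermat.Agent.S38.H509.GFam
import Fermat.Agent.S59.TW.H201.KDegDefs

/-!
# Row HARD, cell HECKE, leaf IA-ST, Betti step (helper509): levels and groups

`K = KIA = Γ₀(N_min) ∩ Γ_H(Piv ∪ Q)` has the level `M = N_min ∏ pv ∏ qv`.  For a pivot `q` let
`L' = ribetLevel p Smin (Piv.erase q)`, `M' = gLevel L' qv = L' ∏ qv`, `K' = KG p L' qv`
(the group of `IAMinZeroStatement`) and `K₁ = Kq M' q K' = K' ⊓ Γ₀(M' q)`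
(`= Γ₀(L) ∩ Γ_H(Q)`, `L = ribetLevel p Smin Piv`).

* `pivFree` : the subgroup of `(ℤ/M)ˣ` of the units which are `p^{m_j}`-th powers modulo the
  Taylor–Wiles primes `qv j` (no condition at the pivots); `ker gChi ≤ pivFree`;
* `mia_eq_h509` : `M = M' q`;
* `kq_eq_gammaH_h509` : `K₁ = Γ_{pivFree}(M)`;
* `diamondU_pivFree_h509` : the diamond operators of `pivFree` on `X_K` are the `diaIA a₁ 1`.
-/

set_option autoImplicit false

open CongruenceSubgroup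
open scoped MatrixGroups

namespace Fermat.Agent.S38.H509

open Fermat.Agent.S59.TW.H653 Fermat.Agent.S59.MFree Fermat.Agent.S38.IA.Hecke
open Fermat.Agent.S59.TW.H201 Fermat.Agent.S59.Arch Fermat.Agent.S38.IA

/-! ## The lower right entry -/

section Entry

variable (N₀ : ℕ) {ι : Type} [Fintype ι] (qq : ι → ℕ)

theorem coe_gRed_dUnit_h509 (γ : Gamma0 (gLevel N₀ qq)) (s : ι) :
    ((gRed N₀ qq (dUnit (gLevel N₀ qq) γ) s : (ZMod (qq s))ˣ) : ZMod (qq s)) =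
      ((((γ : SL(2, ℤ)) 1 1 : ℤ)) : ZMod (qq s)) := by
  rw [gRed_apply_h509, ZMod.unitsMap_def, Units.coe_map, coe_dUnit]
  simp only [MonoidHom.coe_coe, map_intCast]

end Entry

/-! ## The subgroup `pivFree` -/

section PivFree

variable (p N₀ : ℕ) {k r : ℕ} (pv : Fin k → ℕ) (qv : Fin r → ℕ)

/-- The `p^{m_j}`-th powers in `(ℤ/qv j)ˣ`. -/
def powRange (j : Fin r) : Subgroup (ZMod (qv j))ˣ :=
  (powMonoidHom (p ^ padicValNat p (qv j - 1)) : (ZMod (qv j))ˣ →* (ZMod (qv j))ˣ).range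

/-- The component at the Taylor–Wiles prime `qv j` of the reduction. -/
def redQ (j : Fin r) : (ZMod (gLevel N₀ (Sum.elim pv qv)))ˣ →* (ZMod (qv j))ˣ :=
  ZMod.unitsMap (dvd_gLevel N₀ (Sum.elim pv qv) (Sum.inr j))

theorem redQ_apply (j : Fin r) (u : (ZMod (gLevel N₀ (Sum.elim pv qv)))ˣ) :
    redQ N₀ pv qv j u = gRed N₀ (Sum.elim pv qv) u (Sum.inr j) := rfl

/-- The units of `(ℤ/M)ˣ` which are `p^{m_j}`-th powers modulo every Taylor–Wiles prime. -/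
def pivFree : Subgroup (ZMod (gLevel N₀ (Sum.elim pv qv)))ˣ :=
  ⨅ j : Fin r, (powRange p qv j).comap (redQ N₀ pv qv j)

theorem mem_pivFree {u : (ZMod (gLevel N₀ (Sum.elim pv qv)))ˣ} :
    u ∈ pivFree p N₀ pv qv ↔ ∀ j : Fin r, redQ N₀ pv qv j u ∈ powRange p qv j := by
  unfold pivFree
  rw [Subgroup.mem_iInf]
  rfl

theorem mem_powRange {j : Fin r} {a : (ZMod (qv j))ˣ} :
    a ∈ powRange p qv j ↔ ∃ u : (ZMod (qv j))ˣ, u ^ (p ^ padicValNat p (qv j - 1)) = a :=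
  Iff.rfl

theorem ker_gChi_le_pivFree :
    (gChi p N₀ (Sum.elim pv qv)).ker ≤ pivFree p N₀ pv qv := by
  intro u hu
  rw [MonoidHom.mem_ker, gChi_apply_h509, QuotientGroup.eq_one_iff,
    mem_gPowSub_iff_h509] at hu
  rw [mem_pivFree]
  intro j
  exact hu (Sum.inr j)

/-- Two units with the same components at the pivots... : the classes in `Δ` of `u ∈ pivFree`
and of `pairU a₁ 1`, `a₁` the pivot components of `u`, agree. -/
theorem gChi_eq_of_mem_pivFree {u : (ZMod (gLevel N₀ (Sum.elim pv qv)))ˣ}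
    (hu : u ∈ pivFree p N₀ pv qv) (v : (ZMod (gLevel N₀ (Sum.elim pv qv)))ˣ)
    (hv : gRed N₀ (Sum.elim pv qv) v =
      pairU (fun i => gRed N₀ (Sum.elim pv qv) u (Sum.inl i)) 1) :
    gChi p N₀ (Sum.elim pv qv) u = gChi p N₀ (Sum.elim pv qv) v := by
  rw [gChi_apply_h509, gChi_apply_h509, hv, QuotientGroup.eq, mem_gPowSub_iff_h509]
  rintro (i | j)
  · refine ⟨1, ?_⟩
    rw [one_pow]
    show (1 : (ZMod (pv i))ˣ) = (gRed N₀ (Sum.elim pv qv) u (Sum.inl i))⁻¹ *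
      gRed N₀ (Sum.elim pv qv) u (Sum.inl i)
    exact (inv_mul_cancel _).symm
  · obtain ⟨w, hw⟩ := (mem_pivFree p N₀ pv qv).mp hu j
    refine ⟨w⁻¹, ?_⟩
    show w⁻¹ ^ (p ^ padicValNat p (qv j - 1)) = (redQ N₀ pv qv j u)⁻¹ * 1
    rw [mul_one, inv_pow]
    exact congrArg _ hw

theorem mem_pivFree_of_gRed {v : (ZMod (gLevel N₀ (Sum.elim pv qv)))ˣ}
    (a₁ : ∀ i : Fin k, (ZMod (pv i))ˣ)
    (hv : gRed N₀ (Sum.elim pv qv) v = pairU a₁ 1) : v ∈ pivFree p N₀ pv qv := by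
  rw [mem_pivFree]
  intro j
  rw [redQ_apply, hv]
  exact ⟨1, one_pow _⟩

end PivFree

/-! ## The groups -/

section Groups

variable (p N₀ L' : ℕ) {k r : ℕ} (pv : Fin k → ℕ) (qv : Fin r → ℕ) (q : ℕ)

theorem gamma0_cast_h509 {M M' : ℕ} (h : M = M') {g : SL(2, ℤ)} :
    g ∈ Gamma0 M ↔ g ∈ Gamma0 M' := by
  subst h
  exact Iff.rfl

theorem gamma0_of_mul_h509 {M q : ℕ} {g : SL(2, ℤ)} (h : g ∈ Gamma0 (M * q)) : g ∈ Gamma0 M := by
  rw [Gamma0_mem] at h ⊢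
  have h1 : (((g 1 0 : ℤ)) : ZMod (M * q)) = 0 := h
  rw [ZMod.intCast_zmod_eq_zero_iff_dvd] at h1 ⊢
  exact (Int.natCast_dvd_natCast.mpr (Dvd.intro q rfl)).trans h1

/-- `K₁ = K' ⊓ Γ₀(M' q)` is `Γ_{pivFree}(M)`. -/
theorem kq_eq_gammaH_h509
    (hM : gLevel N₀ (Sum.elim pv qv) = gLevel L' qv * q) :
    Kq (gLevel L' qv) q (KG p L' qv) =
      GammaH (gLevel N₀ (Sum.elim pv qv)) (pivFree p N₀ pv qv) := by
  have key : ∀ (g : SL(2, ℤ)) (h1 : g ∈ Gamma0 (gLevel N₀ (Sum.elim pv qv)))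
      (h2 : g ∈ Gamma0 (gLevel L' qv)) (j : Fin r),
      redQ N₀ pv qv j (dUnit _ ⟨g, h1⟩) = gRed L' qv (dUnit _ ⟨g, h2⟩) j := by
    intro g h1 h2 j
    apply Units.ext
    rw [redQ_apply, coe_gRed_dUnit_h509, coe_gRed_dUnit_h509]
    rfl
  ext g
  rw [mem_Kq, mem_GammaH]
  constructor
  · rintro ⟨hg1, hg2⟩
    have h1 : g ∈ Gamma0 (gLevel N₀ (Sum.elim pv qv)) := (gamma0_cast_h509 hM).mpr hg2
    refine ⟨h1, ?_⟩
    obtain ⟨h2, h3⟩ := mem_GammaH.mp hg1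
    rw [MonoidHom.mem_ker, gChi_apply_h509, QuotientGroup.eq_one_iff,
      mem_gPowSub_iff_h509] at h3
    rw [mem_pivFree]
    intro j
    rw [key g h1 h2 j]
    exact h3 j
  · rintro ⟨h1, h3⟩
    have hg2 : g ∈ Gamma0 (gLevel L' qv * q) := (gamma0_cast_h509 hM).mp h1
    have h2 : g ∈ Gamma0 (gLevel L' qv) := gamma0_of_mul_h509 hg2
    refine ⟨mem_GammaH.mpr ⟨h2, ?_⟩, hg2⟩
    rw [MonoidHom.mem_ker, gChi_apply_h509, QuotientGroup.eq_one_iff, mem_gPowSub_iff_h509]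
    intro j
    rw [← key g h1 h2 j]
    exact (mem_pivFree p N₀ pv qv).mp h3 j

end Groups

/-! ## The level identity -/

section Level

variable (p : ℕ) (Smin Piv : Finset ℕ) {k r : ℕ} (pv : Fin k → ℕ) (qv : Fin r → ℕ)

theorem wilesLevel_min_h509 :
    wilesLevel p .flat Smin Smin = ∏ x ∈ Smin.erase p, x := by
  unfold wilesLevel
  rw [Finset.sdiff_self, Finset.prod_empty, mul_one, mul_one]

theorem ribetLevel_eq_h509 :
    ribetLevel p Smin Piv = wilesLevel p .flat Smin Smin * ∏ x ∈ Piv, x := by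
  rw [wilesLevel_min_h509]
  rfl

/-- `M = M' q`. -/
theorem mia_eq_h509 (hpv : Function.Injective pv) (hpvPiv : Finset.univ.image pv = Piv)
    {q : ℕ} (hq : q ∈ Piv) :
    MIA p Smin pv qv = gLevel (ribetLevel p Smin (Piv.erase q)) qv * q := by
  have h1 : ∏ i, pv i = ∏ x ∈ Piv, x := by
    rw [← hpvPiv, Finset.prod_image (fun a _ b _ h => hpv h)]
  have h2 : ∏ x ∈ Piv, x = q * ∏ x ∈ Piv.erase q, x := (Finset.mul_prod_erase Piv _ hq).symm
  show gLevel (wilesLevel p .flat Smin Smin) (Sum.elim pv qv) = _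
  unfold gLevel
  rw [Fintype.prod_sum_type, ribetLevel_eq_h509]
  simp only [Sum.elim_inl, Sum.elim_inr]
  rw [h1, h2]
  ring

/-- `M = L ∏ qv`. -/
theorem mia_eq_ribet_h509 (hpv : Function.Injective pv)
    (hpvPiv : Finset.univ.image pv = Piv) :
    MIA p Smin pv qv = gLevel (ribetLevel p Smin Piv) qv := by
  have h1 : ∏ i, pv i = ∏ x ∈ Piv, x := by
    rw [← hpvPiv, Finset.prod_image (fun a _ b _ h => hpv h)]
  show gLevel (wilesLevel p .flat Smin Smin) (Sum.elim pv qv) = _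
  unfold gLevel
  rw [Fintype.prod_sum_type, ribetLevel_eq_h509]
  simp only [Sum.elim_inl, Sum.elim_inr]
  rw [h1]
  ring

end Level

end Fermat.Agent.S38.H509
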