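import Fermat.Agent.S38.H509.StNat
import Fermat.Agent.S38.H953.NuPtSpec
import Fermat.Agent.S38.H53.StCore

/-!
# Row HARD, cell HECKE, leaf IA-ST, Betti step (helper509): the occurrence transfer

`K₁ = KG p (ribetLevel p Smin Piv) qv`, `V₁` the localisation of `X_{K₁}(𝒪)`,
`Ψ : heckeAlgebra N₁ 2 S₁ → End_𝒪 V₁` any ring homomorphism with `Ψ(T_ℓ) = ⟨ℓ⟩^e T_ℓ`
(the output of `H264.exists_psiU_K1`), `x : T_Q → 𝒪'` a support point of `V / I_{Δ_Piv} V`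
(`H953.IsSuppPt953`).

`iaStOcc_h509` : every integer noncommutative polynomial `P` in the `T_ℓ` with `Ψ(P(T)) = 0`
satisfies `P(x(T_ℓ)) = 0`: the hypothesis `hocc` of `H53.st_of_action_h53`.

Proof: `cor (a(P(T)) v) = Ψ(P(T)) (cor v)` by induction on `P` (`occ_of_cor_h509`), so
`Ψ(P(T)) = 0` gives `a(P(T)) V ⊆ ker cor ∩ V = I_{Δ_Piv} V` (`iaStCor_h509`).
-/

set_option autoImplicit false
set_option linter.style.haveILetI false

open Polynomial IsLocalRing CongruenceSubgroup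
open scoped MatrixGroups

namespace Fermat.Agent.S38.H509

open Fermat.Agent.S59.Arch Fermat.Agent.S59.TW.H959 Fermat.Agent.S59.TW
open Fermat.Agent.S59.TW.H653 Fermat.Agent.S59.TW.Aut Fermat.Agent.S38.IA
open Fermat.Agent.S38.IA.Hecke Fermat.Agent.S38.H953 Fermat.Agent.S38.H53
open CuspForm

/-! ## The abstract induction -/

section Abs

variable {𝒪 : Type} [CommRing 𝒪] {T : Type} [CommRing T] [Algebra 𝒪 T]
  {X X₁ : Type} [AddCommGroup X] [Module 𝒪 X] [AddCommGroup X₁] [Module 𝒪 X₁]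
  (V : Submodule 𝒪 X) (V₁ : Submodule 𝒪 X₁) (a : T →ₐ[𝒪] Module.End 𝒪 V)
  (cor : V →ₗ[𝒪] V₁)
  {I : Type} {H : Type} [CommRing H] (Ψ : H →+* Module.End 𝒪 V₁) (τ : I → H) (t : I → T)

/-- `cor ∘ a(P(t)) = Ψ(P(τ)) ∘ cor` for every integer noncommutative polynomial `P`. -/
theorem occ_of_cor_h509 (hcompat : ∀ (i : I) (v : V), cor (a (t i) v) = Ψ (τ i) (cor v))
    (P : FreeAlgebra ℤ I) (v : V) :
    cor (a (FreeAlgebra.lift ℤ t P) v) = Ψ (FreeAlgebra.lift ℤ τ P) (cor v) := by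
  induction P using FreeAlgebra.induction generalizing v with
  | grade0 r =>
    have h1 : a (FreeAlgebra.lift ℤ t (algebraMap ℤ (FreeAlgebra ℤ I) r)) v = r • v := by
      rw [AlgHom.commutes, eq_intCast, map_intCast, Module.End.intCast_apply]
    have h2 : Ψ (FreeAlgebra.lift ℤ τ (algebraMap ℤ (FreeAlgebra ℤ I) r)) (cor v) =
        r • cor v := by
      rw [AlgHom.commutes, eq_intCast, map_intCast, Module.End.intCast_apply]
    rw [h1, h2, map_zsmul]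
  | grade1 i =>
    rw [FreeAlgebra.lift_ι_apply, FreeAlgebra.lift_ι_apply]
    exact hcompat i v
  | mul P Q hP hQ =>
    rw [map_mul, map_mul, map_mul, map_mul, Module.End.mul_apply, Module.End.mul_apply,
      hP, hQ]
  | add P Q hP hQ =>
    rw [map_add, map_add, map_add, map_add, LinearMap.add_apply, LinearMap.add_apply,
      map_add, hP, hQ]

end Abs

/-! ## The occurrence transfer -/

section Occ

/-- **ST-BETTI, (OCC).** -/
theorem iaStOcc_h509 (p : ℕ) [Fact p.Prime] (hp5 : 5 ≤ p)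
    (𝒪 : Type) [CommRing 𝒪] [IsDomain 𝒪] [IsDiscreteValuationRing 𝒪]
    [IsAdicComplete (maximalIdeal 𝒪) 𝒪] [Finite (ResidueField 𝒪)] [CharZero 𝒪]
    (ρbar : ResidualGaloisRep (ResidueField 𝒪)) (Smin : Finset ℕ)
    (h : ResidualHyp p 𝒪 ρbar Smin)
    (Piv : Finset ℕ) (hPiv : IsPivotSet p ρbar Smin Piv)
    (k : ℕ) (pv : Fin k → ℕ) (hpv : Function.Injective pv)
    (hpvPiv : Finset.univ.image pv = Piv)
    (n r : ℕ) (qv : Fin r → ℕ) (hq : IsTWSet p ρbar (Smin ∪ Piv) n qv)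
    [NeZero (wilesLevel p .flat Smin (Smin ∪ Piv ∪ Finset.univ.image qv))]
    (PQ : HeckePkg p 𝒪 ρbar .flat Smin (Smin ∪ Piv ∪ Finset.univ.image qv))
    (α : Fin r → 𝒪)
    (V : Submodule 𝒪 (XIA p Smin pv qv 𝒪)) (e : ℕ) (a : PQ.T →ₐ[𝒪] Module.End 𝒪 V)
    (hV : IsIAPart PQ α V) (ha : IsIAAction PQ V e a)
    (V₁ : Submodule 𝒪 (Additive (KG p (ribetLevel p Smin Piv) qv) →+ 𝒪))
    (hV₁ : IsLocPart (isMid_KG p (ribetLevel p Smin Piv) qv) (TsetOf PQ) (UsetOf qv α) V₁)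
    {N₁ : ℕ} [NeZero N₁] {S₁ : Set ℕ}
    (Ψ : heckeAlgebra N₁ 2 S₁ →+* Module.End 𝒪 V₁)
    (hΨ : ∀ (ℓ : ℕ) (hℓ : ℓ.Prime) (hℓN : ¬ ℓ ∣ N₁) (hℓS : ℓ ∉ S₁) (v : V₁),
      ((Ψ (heckeAlgebra.T hℓ hℓN hℓS) v : V₁) :
          Additive (KG p (ribetLevel p Smin Piv) qv) →+ 𝒪) =
        tOpTw (isMid_KG p (ribetLevel p Smin Piv) qv) 𝒪 e ℓ hℓ
          (v : Additive (KG p (ribetLevel p Smin Piv) qv) →+ 𝒪))
    {𝒪' : Type} [CommRing 𝒪'] (x : PQ.T →+* 𝒪')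
    (hx : IsSuppPt953 PQ V a (chiRelIA p Smin pv qv 1 V) x)
    (hgood : ∀ ℓ : ℕ, ℓ.Prime → ¬ ℓ ∣ N₁ → ℓ ∉ S₁ →
      ¬ ℓ ∣ wilesLevel p .flat Smin (Smin ∪ Piv ∪ Finset.univ.image qv) ∧
        ℓ ∉ (↑(Smin ∪ Piv ∪ Finset.univ.image qv) : Set ℕ))
    (P : FreeAlgebra ℤ (GoodIdx N₁ S₁))
    (hP : Ψ (FreeAlgebra.lift ℤ (tFamA N₁ S₁) P) = 0) :
    FreeAlgebra.lift ℤ (fun i : GoodIdx N₁ S₁ =>
      x (PQ.H.π (heckeAlgebra.T i.2.1 (hgood i.1 i.2.1 i.2.2.1 i.2.2.2).1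
        (hgood i.1 i.2.1 i.2.2.1 i.2.2.2).2))) P = 0 := by
  classical
  obtain ⟨cor, hmem, heq, hker⟩ := iaStCor_h509 p hp5 𝒪 ρbar Smin h Piv hPiv k pv hpv hpvPiv
    n r qv hq PQ α V hV e
  have hpvmem : ∀ i, pv i ∈ Piv := fun i => by
    rw [← hpvPiv]
    exact Finset.mem_image_of_mem pv (Finset.mem_univ i)
  have hprime : ∀ s, (Sum.elim pv qv s).Prime := by
    rintro (i | j)
    · exact (hPiv (pv i) (hpvmem i)).1
    · exact (hq.2.1 j).1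
  -- the restriction of `cor`
  let corV : V →ₗ[𝒪] V₁ := cor.restrict (hmem V₁ hV₁)
  have hcorV : ∀ v : V, ((corV v : V₁) : Additive (KG p (ribetLevel p Smin Piv) qv) →+ 𝒪) =
      cor (v : XIA p Smin pv qv 𝒪) := fun v => rfl
  let t : GoodIdx N₁ S₁ → PQ.T := fun i =>
    PQ.H.π (heckeAlgebra.T i.2.1 (hgood i.1 i.2.1 i.2.2.1 i.2.2.2).1
      (hgood i.1 i.2.1 i.2.2.1 i.2.2.2).2)
  have hcompat : ∀ (i : GoodIdx N₁ S₁) (v : V),
      corV (a (t i) v) = Ψ (tFamA N₁ S₁ i) (corV v) := by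
    intro i v
    apply Subtype.ext
    rw [hcorV, ha i.1 i.2.1 (hgood i.1 i.2.1 i.2.2.1 i.2.2.2).1
      (hgood i.1 i.2.1 i.2.2.1 i.2.2.2).2 v]
    have h1 : ¬ i.1 ∣ MIA p Smin pv qv := fun hd =>
      (hgood i.1 i.2.1 i.2.2.1 i.2.2.2).2 (Finset.mem_coe.mpr
        (mem_of_dvd_mia_h509 p Smin Piv pv qv h.hSmin hprime hpvPiv i.2.1 hd))
    rw [heq i.1 i.2.1 h1]
    exact (hΨ i.1 i.2.1 i.2.2.1 i.2.2.2 (corV v)).symm
  have key := occ_of_cor_h509 V V₁ a corV Ψ (tFamA N₁ S₁) t hcompat P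
  -- `a(P(T))` maps `V` into the relations
  have hrel : ∀ v : V, ((a (FreeAlgebra.lift ℤ t P) v : V) : XIA p Smin pv qv 𝒪) ∈
      chiRelIA p Smin pv qv 1 V := by
    intro v
    refine (hker _ (a (FreeAlgebra.lift ℤ t P) v).2).mp ?_
    have h1 := key v
    rw [hP, LinearMap.zero_apply] at h1
    have h2 := congrArg (fun z : V₁ =>
      (z : Additive (KG p (ribetLevel p Smin Piv) qv) →+ 𝒪)) h1
    exact h2
  have h3 : x (FreeAlgebra.lift ℤ t P) = 0 := hx _ hrel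
  have h4 : (x.toIntAlgHom).comp (FreeAlgebra.lift ℤ t) =
      FreeAlgebra.lift ℤ (fun i : GoodIdx N₁ S₁ => x (t i)) := by
    apply FreeAlgebra.hom_ext
    funext i
    simp only [Function.comp_apply, AlgHom.coe_comp, FreeAlgebra.lift_ι_apply,
      RingHom.toIntAlgHom_apply]
  have h5 := congrArg (fun f : FreeAlgebra ℤ (GoodIdx N₁ S₁) →ₐ[ℤ] 𝒪' => f P) h4
  exact h5.symm.trans h3

end Occ

end Fermat.Agent.S38.H509
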