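import Fermat.Agent.S38.H509.StCorGen
import Fermat.Agent.S38.H509.StOcc

/-!
# IA-ST, occurrence transfer, for all odd `p`, every type `t`, any base level (helper509)

Generic form of `iaStOcc_h509` (`StOcc.lean`): `P` any Hecke package (any `t`, any `Σ`),
`K = KG p N₀ (Sum.elim pv qv)`, `K₁ = KG p L qv`, `V` the localisation of `X_K(𝒪)`,
`a : T_P → End_𝒪 V` with `a(T_ℓ) = ⟨ℓ⟩^e T_ℓ`, `V₁` the localisation of `X_{K₁}(𝒪)`,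
`Ψ : heckeAlgebra N₁ 2 S₁ → End_𝒪 V₁` with `Ψ(T_ℓ) = ⟨ℓ⟩^e T_ℓ`, `x : T_P → 𝒪'` vanishing on every
`s` with `a s V ⊆ pivRel V`.  Then every integer noncommutative polynomial `Q` in the `T_ℓ` with
`Ψ(Q(T)) = 0` satisfies `Q(x(T_ℓ)) = 0` (the hypothesis `hocc` of `H53.st_of_action_h53`).
-/

set_option autoImplicit false
set_option linter.style.haveILetI false

open Polynomial IsLocalRing CongruenceSubgroup
open scoped MatrixGroups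

namespace Fermat.Agent.S38.H509

open Fermat.Agent.S59.Arch Fermat.Agent.S59.TW.H959 Fermat.Agent.S59.TW
open Fermat.Agent.S59.TW.H653 Fermat.Agent.S59.TW.Aut Fermat.Agent.S38.IA
open Fermat.Agent.S38.IA.Hecke Fermat.Agent.S38.H53
open CuspForm

section Occ

variable {p : ℕ} [hp : Fact p.Prime]
  {𝒪 : Type} [CommRing 𝒪] [IsDomain 𝒪] [IsDiscreteValuationRing 𝒪]
  [IsAdicComplete (maximalIdeal 𝒪) 𝒪] [Finite (ResidueField 𝒪)] [CharZero 𝒪]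
  {ρbar : ResidualGaloisRep (ResidueField 𝒪)} {Smin : Finset ℕ}

/-- **ST-BETTI, (OCC), generic.** -/
theorem occ_of_pkg_h509 (h : ResidualHyp p 𝒪 ρbar Smin) {t : PType} {Sig : Finset ℕ}
    [NeZero (wilesLevel p t Smin Sig)] (P : HeckePkg p 𝒪 ρbar t Smin Sig)
    (N₀ L : ℕ) (hN₀ : N₀ ≠ 0) {k r : ℕ} (pv : Fin k → ℕ) (qv : Fin r → ℕ)
    (hprime : ∀ s, (Sum.elim pv qv s).Prime) (hinj : Function.Injective (Sum.elim pv qv))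
    (hM : gLevel N₀ (Sum.elim pv qv) = gLevel L qv)
    (hlev : ∀ ℓ : ℕ, ℓ.Prime → ℓ ∣ gLevel N₀ (Sum.elim pv qv) → ℓ ∈ Sig)
    {Uset : Set (ℕ × 𝒪)}
    (hU : ∀ x ∈ Uset, x.1.Prime ∧ x.1 ∣ gLevel N₀ (Sum.elim pv qv))
    (V : Submodule 𝒪 (Additive (KG p N₀ (Sum.elim pv qv)) →+ 𝒪))
    (hV : IsLocPart (isMid_KG p N₀ (Sum.elim pv qv)) (TsetOf P) Uset V) (e : ℕ)
    (a : P.T →ₐ[𝒪] Module.End 𝒪 V)
    (ha : ActsBy P V a (tOpTw (isMid_KG p N₀ (Sum.elim pv qv)) 𝒪 e))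
    (V₁ : Submodule 𝒪 (Additive (KG p L qv) →+ 𝒪))
    (hV₁ : IsLocPart (isMid_KG p L qv) (TsetOf P) Uset V₁)
    {N₁ : ℕ} [NeZero N₁] {S₁ : Set ℕ}
    (Ψ : heckeAlgebra N₁ 2 S₁ →+* Module.End 𝒪 V₁)
    (hΨ : ∀ (ℓ : ℕ) (hℓ : ℓ.Prime) (hℓN : ¬ ℓ ∣ N₁) (hℓS : ℓ ∉ S₁) (v : V₁),
      ((Ψ (heckeAlgebra.T hℓ hℓN hℓS) v : V₁) : Additive (KG p L qv) →+ 𝒪) =
        tOpTw (isMid_KG p L qv) 𝒪 e ℓ hℓ (v : Additive (KG p L qv) →+ 𝒪))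
    {𝒪' : Type} [CommRing 𝒪'] (x : P.T →+* 𝒪')
    (hx : ∀ s : P.T, (∀ v : V, ((a s v : V) : Additive (KG p N₀ (Sum.elim pv qv)) →+ 𝒪) ∈
      pivRel p N₀ pv qv V) → x s = 0)
    (hgood : ∀ ℓ : ℕ, ℓ.Prime → ¬ ℓ ∣ N₁ → ℓ ∉ S₁ →
      ¬ ℓ ∣ wilesLevel p t Smin Sig ∧ ℓ ∉ (↑Sig : Set ℕ))
    (Q : FreeAlgebra ℤ (GoodIdx N₁ S₁))
    (hQ : Ψ (FreeAlgebra.lift ℤ (tFamA N₁ S₁) Q) = 0) :
    FreeAlgebra.lift ℤ (fun i : GoodIdx N₁ S₁ =>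
      x (P.H.π (heckeAlgebra.T i.2.1 (hgood i.1 i.2.1 i.2.2.1 i.2.2.2).1
        (hgood i.1 i.2.1 i.2.2.1 i.2.2.2).2))) Q = 0 := by
  classical
  obtain ⟨cor, hmem, heq, -, hker⟩ := cor_of_pkg_h509 h P N₀ L hN₀ pv qv hprime hinj hM hlev
    hU V hV e
  let corV : V →ₗ[𝒪] V₁ := cor.restrict (hmem V₁ hV₁)
  have hcorV : ∀ v : V, ((corV v : V₁) : Additive (KG p L qv) →+ 𝒪) =
      cor (v : Additive (KG p N₀ (Sum.elim pv qv)) →+ 𝒪) := fun v => rfl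
  let tt : GoodIdx N₁ S₁ → P.T := fun i =>
    P.H.π (heckeAlgebra.T i.2.1 (hgood i.1 i.2.1 i.2.2.1 i.2.2.2).1
      (hgood i.1 i.2.1 i.2.2.1 i.2.2.2).2)
  have hcompat : ∀ (i : GoodIdx N₁ S₁) (v : V),
      corV (a (tt i) v) = Ψ (tFamA N₁ S₁ i) (corV v) := by
    intro i v
    apply Subtype.ext
    rw [hcorV, ha i.1 i.2.1 (hgood i.1 i.2.1 i.2.2.1 i.2.2.2).1
      (hgood i.1 i.2.1 i.2.2.1 i.2.2.2).2 v]
    have h1 : ¬ i.1 ∣ gLevel N₀ (Sum.elim pv qv) := fun hd =>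
      (hgood i.1 i.2.1 i.2.2.1 i.2.2.2).2 (Finset.mem_coe.mpr (hlev _ i.2.1 hd))
    rw [heq i.1 i.2.1 h1]
    exact (hΨ i.1 i.2.1 i.2.2.1 i.2.2.2 (corV v)).symm
  have key := occ_of_cor_h509 V V₁ a corV Ψ (tFamA N₁ S₁) tt hcompat Q
  have hrel : ∀ v : V, ((a (FreeAlgebra.lift ℤ tt Q) v : V) :
      Additive (KG p N₀ (Sum.elim pv qv)) →+ 𝒪) ∈ pivRel p N₀ pv qv V := by
    intro v
    refine (hker _ (a (FreeAlgebra.lift ℤ tt Q) v).2).mp ?_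
    have h1 := key v
    rw [hQ, LinearMap.zero_apply] at h1
    have h2 := congrArg (fun z : V₁ => (z : Additive (KG p L qv) →+ 𝒪)) h1
    exact h2
  have h3 : x (FreeAlgebra.lift ℤ tt Q) = 0 := hx _ hrel
  have h4 : (x.toIntAlgHom).comp (FreeAlgebra.lift ℤ tt) =
      FreeAlgebra.lift ℤ (fun i : GoodIdx N₁ S₁ => x (tt i)) := by
    apply FreeAlgebra.hom_ext
    funext i
    simp only [Function.comp_apply, AlgHom.coe_comp, FreeAlgebra.lift_ι_apply,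
      RingHom.toIntAlgHom_apply]
  have h5 := congrArg (fun f : FreeAlgebra ℤ (GoodIdx N₁ S₁) →ₐ[ℤ] 𝒪' => f Q) h4
  exact h5.symm.trans h3

end Occ

end Fermat.Agent.S38.H509
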