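import Fermat.Agent.S38.H509.StAsmGen
import Fermat.Agent.S38.H509.IAFreeOddIA
import Fermat.Agent.S59.Arch.WilesLevel

/-!
# IA-ST for every type `t` and all odd `p` (helper509): the instances at `wilesLevel p t`

Base level `N₀ = wilesLevel p t Smin Smin = ∏_{Smin ∖ p} q · pFactor p t`,
`K = KG p N₀ (Sum.elim pv qv)`, package `PQ : HeckePkg p 𝒪 ρ̄ t Smin (Smin ∪ Piv ∪ Q)`.
The minimal level is a PARAMETER `L` with `L = ribetLevel p Smin Piv * pFactor p t`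
(`= ribetLevel p Smin Piv` at `.flat`, `ribetLevel p Smin Piv * p` at `.sord`), so that any
definition of the level of type `t` can be plugged.

* `gLevel_wiles_eq_h509`, `mem_of_dvd_gLevel_wiles_h509` : the arithmetic of the levels;
* `iaStCorT_h509` : (COR) `cor : X_K(𝒪) → X_{K₁}(𝒪)`, `K₁ = KG p L qv`;
* `iaStPtT_h509` : the Steinberg elements vanish at the support points of `V / pivRel V`, if the
  localisations at the level `L'` without the pivot `q` vanish (IA-MINZERO of type `t`).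
-/

set_option autoImplicit false
set_option linter.style.haveILetI false

open Polynomial IsLocalRing CongruenceSubgroup
open scoped MatrixGroups

namespace Fermat.Agent.S38.H509

open Fermat.Agent.S59.Arch Fermat.Agent.S59.TW.H959 Fermat.Agent.S59.TW
open Fermat.Agent.S59.TW.H653 Fermat.Agent.S59.TW.Aut Fermat.Agent.S38.IA
open Fermat.Agent.S38.IA.Hecke Fermat.Agent.S38.H53
open CuspForm

/-! ## The levels -/

section Level

variable (p : ℕ) (t : PType) (Smin Piv : Finset ℕ) {k r : ℕ} (pv : Fin k → ℕ) (qv : Fin r → ℕ)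

theorem wilesLevel_self_eq_h509 :
    wilesLevel p t Smin Smin = (∏ q ∈ Smin.erase p, q) * pFactor p t := by
  rw [wilesLevel_eq, Finset.sdiff_self, Finset.prod_empty, mul_one]

/-- `N₀ ∏ pv ∏ qv = L ∏ qv`. -/
theorem gLevel_wiles_eq_h509 (hpv : Function.Injective pv)
    (hpvPiv : Finset.univ.image pv = Piv) {L : ℕ}
    (hL : L = ribetLevel p Smin Piv * pFactor p t) :
    gLevel (wilesLevel p t Smin Smin) (Sum.elim pv qv) = gLevel L qv := by
  have h1 : ∏ i, pv i = ∏ x ∈ Piv, x := by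
    rw [← hpvPiv, Finset.prod_image (fun a _ b _ h => hpv h)]
  unfold gLevel
  rw [Fintype.prod_sum_type, hL, wilesLevel_self_eq_h509]
  simp only [Sum.elim_inl, Sum.elim_inr]
  rw [h1]
  unfold ribetLevel
  ring

/-- `L = L' q` for a pivot `q`. -/
theorem ribetLevel_pFactor_erase_h509 {q : ℕ} (hq : q ∈ Piv) :
    ribetLevel p Smin Piv * pFactor p t =
      ribetLevel p Smin (Piv.erase q) * pFactor p t * q := by
  unfold ribetLevel
  rw [← Finset.mul_prod_erase Piv (fun x => x) hq]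
  ring

variable {p t}

theorem pFactor_dvd_h509 {ℓ : ℕ} (hℓ : ℓ.Prime) (hp : p.Prime) (h : ℓ ∣ pFactor p t) :
    ℓ = p := by
  cases t
  · exact absurd (Nat.dvd_one.mp h) hℓ.ne_one
  · exact (Nat.prime_dvd_prime_iff_eq hℓ hp).mp h
  · exact (Nat.prime_dvd_prime_iff_eq hℓ hp).mp h

variable {Smin Piv}

/-- A prime dividing `ribetLevel p Smin Piv' * pFactor p t * ∏ qv` lies in `Smin ∪ Piv' ∪ Q`. -/
theorem mem_of_dvd_gLevel_ribet_h509 (hp : p.Prime) (hpS : p ∈ Smin)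
    (hSmin : ∀ q ∈ Smin, q.Prime) (Piv' : Finset ℕ) (hPiv' : ∀ q ∈ Piv', q.Prime)
    (hqv : ∀ j, (qv j).Prime) {ℓ : ℕ} (hℓ : ℓ.Prime)
    (h : ℓ ∣ gLevel (ribetLevel p Smin Piv' * pFactor p t) qv) :
    ℓ ∈ Smin ∨ ℓ ∈ Piv' ∨ ∃ j, ℓ = qv j := by
  unfold gLevel ribetLevel at h
  rcases (Nat.Prime.dvd_mul hℓ).mp h with h1 | h1
  · rcases (Nat.Prime.dvd_mul hℓ).mp h1 with h2 | h2
    · rcases (Nat.Prime.dvd_mul hℓ).mp h2 with h3 | h3
      · obtain ⟨x, hx, hdx⟩ := (Prime.dvd_finsetProd_iff hℓ.prime _).mp h3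
        have hx' : x ∈ Smin := Finset.mem_of_mem_erase hx
        exact Or.inl (((Nat.prime_dvd_prime_iff_eq hℓ (hSmin x hx')).mp hdx) ▸ hx')
      · obtain ⟨x, hx, hdx⟩ := (Prime.dvd_finsetProd_iff hℓ.prime _).mp h3
        exact Or.inr (Or.inl (((Nat.prime_dvd_prime_iff_eq hℓ (hPiv' x hx)).mp hdx) ▸ hx))
    · exact Or.inl ((pFactor_dvd_h509 hℓ hp h2) ▸ hpS)
  · obtain ⟨s, _, hds⟩ := (Prime.dvd_finsetProd_iff hℓ.prime _).mp h1
    exact Or.inr (Or.inr ⟨s, (Nat.prime_dvd_prime_iff_eq hℓ (hqv s)).mp hds⟩)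

end Level

/-! ## The context -/

section Ctx

variable {p : ℕ} [hp : Fact p.Prime]
  {𝒪 : Type} [CommRing 𝒪] [IsDomain 𝒪] [IsDiscreteValuationRing 𝒪]
  [IsAdicComplete (maximalIdeal 𝒪) 𝒪] [Finite (ResidueField 𝒪)] [CharZero 𝒪]
  {ρbar : ResidualGaloisRep (ResidueField 𝒪)} {Smin : Finset ℕ}

/-- **IA-ST (COR) of type `t`, all odd `p`.** -/
theorem iaStCorT_h509 (h : ResidualHyp p 𝒪 ρbar Smin) (t : PType)
    (Piv : Finset ℕ) (hPiv : IsPivotSet p ρbar Smin Piv)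
    (k : ℕ) (pv : Fin k → ℕ) (hpv : Function.Injective pv)
    (hpvPiv : Finset.univ.image pv = Piv)
    (n r : ℕ) (qv : Fin r → ℕ) (hq : IsTWSet p ρbar (Smin ∪ Piv) n qv)
    [NeZero (wilesLevel p t Smin (Smin ∪ Piv ∪ Finset.univ.image qv))]
    (PQ : HeckePkg p 𝒪 ρbar t Smin (Smin ∪ Piv ∪ Finset.univ.image qv))
    (α : Fin r → 𝒪) {L : ℕ} (hL : L = ribetLevel p Smin Piv * pFactor p t)
    (V : Submodule 𝒪 (Additive (KG p (wilesLevel p t Smin Smin) (Sum.elim pv qv)) →+ 𝒪))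
    (hV : IsLocPart (isMid_KG p (wilesLevel p t Smin Smin) (Sum.elim pv qv)) (TsetOf PQ)
      (UsetOf qv α) V) (e : ℕ) :
    ∃ cor : (Additive (KG p (wilesLevel p t Smin Smin) (Sum.elim pv qv)) →+ 𝒪) →ₗ[𝒪]
        (Additive (KG p L qv) →+ 𝒪),
      (∀ V₁ : Submodule 𝒪 (Additive (KG p L qv) →+ 𝒪),
        IsLocPart (isMid_KG p L qv) (TsetOf PQ) (UsetOf qv α) V₁ → ∀ v ∈ V, cor v ∈ V₁) ∧
      (∀ (ℓ : ℕ) (hℓ : ℓ.Prime),
        ¬ ℓ ∣ wilesLevel p t Smin (Smin ∪ Piv ∪ Finset.univ.image qv) →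
        ℓ ∉ (↑(Smin ∪ Piv ∪ Finset.univ.image qv) : Set ℕ) →
        ∀ v : Additive (KG p (wilesLevel p t Smin Smin) (Sum.elim pv qv)) →+ 𝒪,
        cor (tOpTw (isMid_KG p (wilesLevel p t Smin Smin) (Sum.elim pv qv)) 𝒪 e ℓ hℓ v) =
          tOpTw (isMid_KG p L qv) 𝒪 e ℓ hℓ (cor v)) ∧
      (∀ v ∈ V, cor v = 0 ↔ v ∈ pivRel p (wilesLevel p t Smin Smin) pv qv V) := by
  classical
  have hpp : p.Prime := hp.out
  have hprime := prime_sum_h509 hPiv hpvPiv hq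
  have hinj := injective_sum_h509 hpv hpvPiv hq
  have hM := gLevel_wiles_eq_h509 p t Smin Piv pv qv hpv hpvPiv hL
  have hlev : ∀ ℓ : ℕ, ℓ.Prime →
      ℓ ∣ gLevel (wilesLevel p t Smin Smin) (Sum.elim pv qv) →
      ℓ ∈ Smin ∪ Piv ∪ Finset.univ.image qv := by
    intro ℓ hℓ hd
    rw [hM, hL] at hd
    rcases mem_of_dvd_gLevel_ribet_h509 qv hpp h.hpSmin h.hSmin Piv
      (fun x hx => (hPiv x hx).1) (fun j => (hq.2.1 j).1) hℓ hd with h1 | h1 | ⟨j, rfl⟩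
    · exact Finset.mem_union_left _ (Finset.mem_union_left _ h1)
    · exact Finset.mem_union_left _ (Finset.mem_union_right _ h1)
    · exact Finset.mem_union_right _ (Finset.mem_image_of_mem qv (Finset.mem_univ j))
  have hU : ∀ x ∈ UsetOf qv α,
      x.1.Prime ∧ x.1 ∣ gLevel (wilesLevel p t Smin Smin) (Sum.elim pv qv) := by
    rintro x ⟨j, rfl⟩
    exact ⟨(hq.2.1 j).1, dvd_gLevel _ (Sum.elim pv qv) (Sum.inr j)⟩
  obtain ⟨cor, hmem, heq, -, hker⟩ := cor_of_pkg_h509 h PQ (wilesLevel p t Smin Smin) L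
    (wilesLevel_ne_zero hpp h.hSmin h.hSmin) pv qv hprime hinj hM hlev hU V hV e
  refine ⟨cor, hmem, ?_, hker⟩
  intro ℓ hℓ _ hℓS v
  exact heq ℓ hℓ (fun hd => hℓS (Finset.mem_coe.mpr (hlev ℓ hℓ hd))) v

/-- **IA-ST at a point, type `t`, all odd `p`**, from IA-MINZERO at the level `L'` without the
pivot `q` and S35. -/
theorem iaStPtT_h509 (hS35 : Fermat.Agent.S58.S35Statement)
    (h : ResidualHyp p 𝒪 ρbar Smin) (t : PType)
    (Piv : Finset ℕ) (hPiv : IsPivotSet p ρbar Smin Piv)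
    (k : ℕ) (pv : Fin k → ℕ) (hpv : Function.Injective pv)
    (hpvPiv : Finset.univ.image pv = Piv)
    (n r : ℕ) (qv : Fin r → ℕ) (hq : IsTWSet p ρbar (Smin ∪ Piv) n qv)
    [NeZero (wilesLevel p t Smin (Smin ∪ Piv ∪ Finset.univ.image qv))]
    (PQ : HeckePkg p 𝒪 ρbar t Smin (Smin ∪ Piv ∪ Finset.univ.image qv))
    (α : Fin r → 𝒪)
    (V : Submodule 𝒪 (Additive (KG p (wilesLevel p t Smin Smin) (Sum.elim pv qv)) →+ 𝒪))
    (e : ℕ) (a : PQ.T →ₐ[𝒪] Module.End 𝒪 V)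
    (hV : IsLocPart (isMid_KG p (wilesLevel p t Smin Smin) (Sum.elim pv qv)) (TsetOf PQ)
      (UsetOf qv α) V)
    (he : IsHalf p qv e)
    (ha : ActsBy PQ V a
      (tOpTw (isMid_KG p (wilesLevel p t Smin Smin) (Sum.elim pv qv)) 𝒪 e))
    {q : ℕ} (hqP : q ∈ Piv) {L' : ℕ}
    (hL' : L' = ribetLevel p Smin (Piv.erase q) * pFactor p t)
    (hzero : ∀ W : Submodule 𝒪 (Additive (KG p L' qv) →+ 𝒪),
      IsLocPart (isMid_KG p L' qv) (TsetOf PQ) (UsetOf qv α) W → W = ⊥)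
    {𝒪' : Type} [CommRing 𝒪'] [IsDomain 𝒪'] [IsDiscreteValuationRing 𝒪']
    [IsAdicComplete (maximalIdeal 𝒪') 𝒪'] [Finite (ResidueField 𝒪')] [CharZero 𝒪']
    (x : PQ.T →+* 𝒪') (hxl : IsLocalHom x) (hp' : (p : 𝒪') ∈ maximalIdeal 𝒪')
    (hx : ∀ s : PQ.T, (∀ v : V,
      ((a s v : V) : Additive (KG p (wilesLevel p t Smin Smin) (Sum.elim pv qv)) →+ 𝒪) ∈
        pivRel p (wilesLevel p t Smin Smin) pv qv V) → x s = 0)
    (Pl : ValuationSubring (AlgebraicClosure ℚ)) (hPl : Pl.LiesOverPrime q)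
    (φ : AlgebraicClosure ℚ ≃ₐ[ℚ] AlgebraicClosure ℚ) (hφ : Pl.IsFrobeniusAt φ q) :
    x (PQ.H.ρ.trace φ ^ 2 - ((1 + q : ℕ) : PQ.T) ^ 2) = 0 := by
  classical
  have hpp : p.Prime := hp.out
  have hprime := prime_sum_h509 hPiv hpvPiv hq
  have hinj := injective_sum_h509 hpv hpvPiv hq
  have hPp : ∀ x ∈ Piv, x.Prime := fun x hx => (hPiv x hx).1
  have hqv : ∀ j, (qv j).Prime := fun j => (hq.2.1 j).1
  have hqprime : q.Prime := hPp q hqP
  have hqSmin : q ∉ Smin := (hPiv q hqP).2.1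
  have hqp : q ≠ p := fun hqp => hqSmin (hqp ▸ h.hpSmin)
  have hM := gLevel_wiles_eq_h509 p t Smin Piv pv qv hpv hpvPiv
    (L := ribetLevel p Smin Piv * pFactor p t) rfl
  have hlevL : ∀ ℓ : ℕ, ℓ.Prime →
      ℓ ∣ gLevel (ribetLevel p Smin Piv * pFactor p t) qv →
      ℓ ∈ Smin ∪ Piv ∪ Finset.univ.image qv := by
    intro ℓ hℓ hd
    rcases mem_of_dvd_gLevel_ribet_h509 qv hpp h.hpSmin h.hSmin Piv hPp hqv hℓ hd
      with h1 | h1 | ⟨j, rfl⟩
    · exact Finset.mem_union_left _ (Finset.mem_union_left _ h1)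
    · exact Finset.mem_union_left _ (Finset.mem_union_right _ h1)
    · exact Finset.mem_union_right _ (Finset.mem_image_of_mem qv (Finset.mem_univ j))
  have hlev : ∀ ℓ : ℕ, ℓ.Prime →
      ℓ ∣ gLevel (wilesLevel p t Smin Smin) (Sum.elim pv qv) →
      ℓ ∈ Smin ∪ Piv ∪ Finset.univ.image qv := by
    intro ℓ hℓ hd
    rw [hM] at hd
    exact hlevL ℓ hℓ hd
  have hSigP : ∀ x ∈ Smin ∪ Piv ∪ Finset.univ.image qv, x.Prime := by
    intro x hx
    rcases Finset.mem_union.mp hx with hx | hx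
    · rcases Finset.mem_union.mp hx with hx | hx
      · exact h.hSmin x hx
      · exact hPp x hx
    · obtain ⟨j, -, rfl⟩ := Finset.mem_image.mp hx
      exact hqv j
  have hpSig : p ∈ Smin ∪ Piv ∪ Finset.univ.image qv :=
    Finset.mem_union_left _ (Finset.mem_union_left _ h.hpSmin)
  have hSminSig : Smin ⊆ Smin ∪ Piv ∪ Finset.univ.image qv := fun x hx =>
    Finset.mem_union_left _ (Finset.mem_union_left _ hx)
  have hqvL : ∀ j, Nat.Coprime (ribetLevel p Smin Piv * pFactor p t) (qv j) := by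
    intro j
    rw [Nat.coprime_comm, Nat.Prime.coprime_iff_not_dvd (hqv j)]
    intro hd
    have hd' : qv j ∣ gLevel (ribetLevel p Smin Piv * pFactor p t)
        (fun _ : Fin 0 => 0) := by
      unfold gLevel
      simpa using hd
    rcases mem_of_dvd_gLevel_ribet_h509 (fun _ : Fin 0 => 0) hpp h.hpSmin h.hSmin Piv hPp
      (fun j' => j'.elim0) (hqv j) hd' with h1 | h1 | ⟨j', -⟩
    · exact (hq.2.1 j).2.1 (Finset.mem_union_left _ h1)
    · exact (hq.2.1 j).2.1 (Finset.mem_union_right _ h1)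
    · exact j'.elim0
  have hLq : ribetLevel p Smin Piv * pFactor p t = L' * q := by
    rw [hL']
    exact ribetLevel_pFactor_erase_h509 p t Smin Piv hqP
  have hqL' : ¬ q ∣ gLevel L' qv := by
    intro hd
    rw [hL'] at hd
    rcases mem_of_dvd_gLevel_ribet_h509 qv hpp h.hpSmin h.hSmin (Piv.erase q)
      (fun x hx => hPp x (Finset.mem_of_mem_erase hx)) hqv hqprime hd with h1 | h1 | ⟨j, h1⟩
    · exact hqSmin h1
    · exact Finset.notMem_erase q Piv h1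
    · exact (hq.2.1 j).2.1 (h1 ▸ Finset.mem_union_right Smin hqP)
  have hU : ∀ x ∈ UsetOf qv α, x.1.Prime ∧ x.1 ∣ gLevel L' qv := by
    rintro x ⟨j, rfl⟩
    exact ⟨hqv j, dvd_gLevel _ qv j⟩
  exact st_of_pkg_h509 hS35 h PQ hpSig hSminSig hSigP (wilesLevel p t Smin Smin)
    (ribetLevel p Smin Piv * pFactor p t) L' (wilesLevel_ne_zero hpp h.hSmin h.hSmin) pv qv
    hprime hinj hM hlev hqvL hqprime hqp hLq hqL' hU hzero he V hV a ha x hxl hp' hx Pl hPl φ hφ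

end Ctx

end Fermat.Agent.S38.H509
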